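import Fermat.Agent.S13.Defs
import Fermat.Agent.S05.Frey

/-!
# S13, piece E: the models of the Frey curve, Galois equivariance, valuations of rationals
-/

set_option autoImplicit false

namespace Fermat.Agent.S13

open WeierstrassCurve WeierstrassCurve.Affine WeierstrassCurve.Affine.Point

section Generic

variable {L : Type*} [Field L] [DecidableEq L]

/-- `x`-coordinate with junk value `0` at the origin -/
def fmX (W : Affine L) : W.Point → L
  | .zero => 0
  | .some x _ _ => x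

/-- `y`-coordinate with junk value `0` at the origin -/
def fmY (W : Affine L) : W.Point → L
  | .zero => 0
  | .some _ y _ => y

/-- The model `(X, Y) = (x, y)` of a Weierstrass curve with `a₃ = a₆ = 0`. -/
def wmodelId (W : Affine L) (a₁ a₂ s : L) (h1 : W.a₁ = a₁) (h2 : W.a₂ = a₂) (h3 : W.a₃ = 0)
    (h4 : W.a₄ = s) (h6 : W.a₆ = 0) (hΔ : W.Δ ≠ 0) : WModel W.Point L a₁ a₂ s where
  X := fmX W
  Y := fmY W
  eqn := by
    rintro (_ | ⟨x, y, h⟩) hP
    · exact absurd rfl hP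
    · have he := (W.equation_iff x y).mp h.1
      simp only [fmX, fmY]
      rw [h1, h2, h3, h4, h6] at he
      linear_combination he
  X_neg := by
    rintro (_ | ⟨x, y, h⟩)
    · rfl
    · rfl
  Y_neg := by
    rintro (_ | ⟨x, y, h⟩) hP
    · exact absurd rfl hP
    · rw [Point.neg_some]
      simp only [fmX, fmY, negY]
      rw [h1, h3]
      ring
  ext := by
    rintro (_ | ⟨x, y, h⟩) (_ | ⟨x', y', h'⟩) hP hQ hX hY
    · rfl
    · exact absurd rfl hP
    · exact absurd rfl hQ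
    · simp only [fmX, fmY] at hX hY
      subst hX
      subst hY
      rfl
  add := by
    rintro (_ | ⟨x₁, y₁, h₁⟩) (_ | ⟨x₂, y₂, h₂⟩) hP hQ hX
    · exact absurd rfl hP
    · exact absurd rfl hP
    · exact absurd rfl hQ
    · simp only [fmX] at hX
      rw [Point.add_of_X_ne hX]
      simp only [fmX, fmY, addX]
      rw [slope_of_X_ne hX, h1, h2]
  dbl := by
    rintro (_ | ⟨x, y, h⟩) hP hH
    · exact absurd rfl hP
    · simp only [fmX, fmY] at hH
      have hy : y ≠ W.negY x y := by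
        intro hy
        apply hH
        simp only [negY] at hy
        rw [h1, h3] at hy
        linear_combination hy
      rw [Point.add_self_of_Y_ne hy]
      simp only [fmX, fmY, addX]
      rw [slope_of_Y_ne rfl hy]
      simp only [negY]
      rw [h1, h2, h3, h4]
      have e1 : y - (-y - a₁ * x - 0) = 2 * y + a₁ * x := by ring
      rw [e1]
      ring
  surj := by
    intro x y hxy
    have he : W.Equation x y := by
      rw [W.equation_iff, h1, h2, h3, h4, h6]
      linear_combination hxy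
    exact ⟨.some x y ((W.equation_iff_nonsingular_of_Δ_ne_zero hΔ).mp he), some_ne_zero _, rfl, rfl⟩

/-- The model `(X, Y) = (4x - e, 4(2y + a₁x))` of a Weierstrass curve with `a₃ = a₆ = 0`,
`e/4` the abscissa of a two-torsion point. -/
def wmodelShift [CharZero L] (W : Affine L) (e a₁' a₂' s' : L) (h3 : W.a₃ = 0) (h6 : W.a₆ = 0)
    (hΔ : W.Δ ≠ 0) (h1' : a₁' = 0) (h2' : a₂' = 3 * e + (W.a₁ ^ 2 + 4 * W.a₂))
    (hs' : s' = 3 * e ^ 2 + 2 * (W.a₁ ^ 2 + 4 * W.a₂) * e + 16 * W.a₄)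
    (he : e ^ 3 + (W.a₁ ^ 2 + 4 * W.a₂) * e ^ 2 + 16 * W.a₄ * e = 0) :
    WModel W.Point L a₁' a₂' s' where
  X P := match P with
    | .zero => 0
    | .some x _ _ => 4 * x - e
  Y P := match P with
    | .zero => 0
    | .some x y _ => 4 * (2 * y + W.a₁ * x)
  eqn := by
    rintro (_ | ⟨x, y, h⟩) hP
    · exact absurd rfl hP
    · have hq := (W.equation_iff x y).mp h.1
      simp only
      rw [h3, h6] at hq
      rw [h1', h2', hs']
      linear_combination 64 * hq + he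
  X_neg := by
    rintro (_ | ⟨x, y, h⟩)
    · rfl
    · rfl
  Y_neg := by
    rintro (_ | ⟨x, y, h⟩) hP
    · exact absurd rfl hP
    · rw [Point.neg_some]
      simp only [negY]
      rw [h1', h3]
      ring
  ext := by
    rintro (_ | ⟨x, y, h⟩) (_ | ⟨x', y', h'⟩) hP hQ hX hY
    · rfl
    · exact absurd rfl hP
    · exact absurd rfl hQ
    · simp only at hX hY
      have hx : x = x' := by linear_combination hX / 4
      subst hx
      have hy : y = y' := by linear_combination hY / 8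
      subst hy
      rfl
  add := by
    rintro (_ | ⟨x₁, y₁, h₁⟩) (_ | ⟨x₂, y₂, h₂⟩) hP hQ hX
    · exact absurd rfl hP
    · exact absurd rfl hP
    · exact absurd rfl hQ
    · simp only at hX
      have hx : x₁ ≠ x₂ := fun h => hX (by rw [h])
      have hd : x₁ - x₂ ≠ 0 := sub_ne_zero.mpr hx
      rw [Point.add_of_X_ne hx]
      simp only [addX]
      rw [slope_of_X_ne hx, h1', h2']
      have e1 : 4 * x₁ - e - (4 * x₂ - e) = 4 * (x₁ - x₂) := by ring
      rw [e1]
      field_simp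
      ring
  dbl := by
    rintro (_ | ⟨x, y, h⟩) hP hH
    · exact absurd rfl hP
    · simp only at hH
      have hD : 2 * y + W.a₁ * x ≠ 0 := by
        intro h0
        apply hH
        rw [h1']
        linear_combination 8 * h0
      have hy : y ≠ W.negY x y := by
        intro hy
        apply hD
        simp only [negY] at hy
        rw [h3] at hy
        linear_combination hy
      rw [Point.add_self_of_Y_ne hy]
      simp only [addX]
      rw [slope_of_Y_ne rfl hy]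
      simp only [negY]
      rw [h1', h2', hs', h3]
      have e1 : y - (-y - W.a₁ * x - 0) = 2 * y + W.a₁ * x := by ring
      have e2 : 2 * (4 * (2 * y + W.a₁ * x)) + 0 * (4 * x - e) = 8 * (2 * y + W.a₁ * x) := by ring
      have e3 : 3 * (4 * x - e) ^ 2 + 2 * (3 * e + (W.a₁ ^ 2 + 4 * W.a₂)) * (4 * x - e)
          + (3 * e ^ 2 + 2 * (W.a₁ ^ 2 + 4 * W.a₂) * e + 16 * W.a₄)
          - 0 * (4 * (2 * y + W.a₁ * x)) =
          16 * (3 * x ^ 2 + 2 * W.a₂ * x + W.a₄ - W.a₁ * y) + 8 * W.a₁ * (2 * y + W.a₁ * x) := by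
        ring
      rw [e1, e2, e3]
      generalize 2 * y + W.a₁ * x = D at hD
      generalize 3 * x ^ 2 + 2 * W.a₂ * x + W.a₄ - W.a₁ * y = N
      field_simp
      ring
  surj := by
    intro X Y hXY
    have hq : W.Equation ((X + e) / 4) ((Y / 4 - W.a₁ * ((X + e) / 4)) / 2) := by
      rw [W.equation_iff, h3, h6]
      rw [h1', h2', hs'] at hXY
      linear_combination hXY / 64 - he / 64
    refine ⟨.some _ _ ((W.equation_iff_nonsingular_of_Δ_ne_zero hΔ).mp hq), some_ne_zero _, ?_, ?_⟩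
    · simp only; ring
    · simp only; ring

end Generic

local notation "Qbar" => AlgebraicClosure ℚ
local notation "GQ" => (AlgebraicClosure ℚ ≃ₐ[ℚ] AlgebraicClosure ℚ)

/-- A model of the Frey curve with integer parameters and Galois equivariant coordinates. -/
structure GalModel (P : FreyPackage) (a₁ a₂ s : ℤ) where
  M : WModel (P.freyCurve⁄Qbar).Point Qbar (a₁ : Qbar) (a₂ : Qbar) (s : Qbar)
  X_smul : ∀ (σ : GQ) (Q : (P.freyCurve⁄Qbar).Point), M.X (σ • Q) = σ (M.X Q)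
  Y_smul : ∀ (σ : GQ) (Q : (P.freyCurve⁄Qbar).Point), M.Y (σ • Q) = σ (M.Y Q)

section Arith

variable (P : FreyPackage)

lemma fm_four_dvd_a_add_one : (4 : ℤ) ∣ P.a + 1 := by
  apply (ZMod.intCast_zmod_eq_zero_iff_dvd (P.a + 1) 4).1
  push_cast
  rw [P.ha4]
  decide

lemma fm_two_dvd_b : (2 : ℤ) ∣ P.b := (ZMod.intCast_zmod_eq_zero_iff_dvd P.b 2).1 P.hb2

theorem not_two_dvd_a : ¬ (2 : ℤ) ∣ P.a := by
  intro h
  have h1 := fm_four_dvd_a_add_one P
  omega

lemma fm_two_pow_dvd_b_pow : (2 : ℤ) ^ P.p ∣ P.b ^ P.p := pow_dvd_pow_of_dvd (fm_two_dvd_b P) _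

lemma fm_thirtytwo_dvd_b_pow : (32 : ℤ) ∣ P.b ^ P.p := by
  have h : (32 : ℤ) = 2 ^ 5 := by norm_num
  rw [h]
  exact (pow_dvd_pow 2 P.hp5).trans (fm_two_pow_dvd_b_pow P)

lemma fm_four_dvd : (4 : ℤ) ∣ P.b ^ P.p - 1 - P.a ^ P.p := by
  have h1 : P.a + 1 ∣ P.a ^ P.p + 1 ^ P.p := Odd.add_dvd_pow_add_pow _ _ P.hp_odd
  rw [one_pow] at h1
  have h2 := (fm_four_dvd_a_add_one P).trans h1
  have h3 : (4 : ℤ) ∣ P.b ^ P.p := Dvd.dvd.trans (by norm_num) (fm_thirtytwo_dvd_b_pow P)
  have : P.b ^ P.p - 1 - P.a ^ P.p = P.b ^ P.p - (P.a ^ P.p + 1) := by ring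
  rw [this]
  exact dvd_sub h3 h2

theorem four_mul_a₂ : 4 * P.freyCurveInt.a₂ + 1 = P.b ^ P.p - P.a ^ P.p := by
  show 4 * ((P.b ^ P.p - 1 - P.a ^ P.p) / 4) + 1 = _
  rw [Int.mul_ediv_cancel' (fm_four_dvd P)]
  ring

theorem sixteen_mul_a₄ : 16 * P.freyCurveInt.a₄ = -(P.a * P.b) ^ P.p := by
  show 16 * (-(P.a ^ P.p) * (P.b ^ P.p) / 16) = _
  have h3 : (16 : ℤ) ∣ P.b ^ P.p := Dvd.dvd.trans (by norm_num) (fm_thirtytwo_dvd_b_pow P)
  rw [Int.mul_ediv_cancel' (Dvd.dvd.mul_left h3 _), mul_pow]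
  ring

theorem two_dvd_a₄ : (2 : ℤ) ∣ P.freyCurveInt.a₄ := by
  have h := sixteen_mul_a₄ P
  obtain ⟨k, hk⟩ := fm_thirtytwo_dvd_b_pow P
  rw [mul_pow, hk] at h
  exact ⟨-(P.a ^ P.p * k), by linarith⟩

lemma fm_a₂_cast : (P.freyCurve⁄Qbar).a₂ = ((P.freyCurveInt.a₂ : ℤ) : Qbar) := by
  rw [S05.frey_a₂]
  have h := congrArg (Int.cast : ℤ → Qbar) (four_mul_a₂ P)
  push_cast at h
  linear_combination (-1 / 4 : Qbar) * h

lemma fm_a₄_cast : (P.freyCurve⁄Qbar).a₄ = ((P.freyCurveInt.a₄ : ℤ) : Qbar) := by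
  rw [S05.frey_a₄]
  have h := congrArg (Int.cast : ℤ → Qbar) (sixteen_mul_a₄ P)
  push_cast at h
  linear_combination (-1 / 16 : Qbar) * h

lemma fm_FLT_cast : (P.a : Qbar) ^ P.p + (P.b : Qbar) ^ P.p = (P.c : Qbar) ^ P.p := by
  exact_mod_cast congrArg (Int.cast : ℤ → Qbar) P.hFLT

lemma fm_Δ_ne_zero : (P.freyCurve⁄Qbar).Δ ≠ 0 := by
  have ha0 : (P.a : Qbar) ≠ 0 := by exact_mod_cast P.ha0
  have hb0 : (P.b : Qbar) ≠ 0 := by exact_mod_cast P.hb0
  have hc0 : (P.c : Qbar) ≠ 0 := by exact_mod_cast P.hc0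
  have h : (P.freyCurve⁄Qbar).Δ =
      ((P.a : Qbar) ^ P.p * (P.b : Qbar) ^ P.p * (P.c : Qbar) ^ P.p) ^ 2 / 256 := by
    simp only [WeierstrassCurve.Δ, WeierstrassCurve.b₂, WeierstrassCurve.b₄, WeierstrassCurve.b₆,
      WeierstrassCurve.b₈]
    rw [S05.frey_a₁, S05.frey_a₂, S05.frey_a₃, S05.frey_a₄, S05.frey_a₆, ← fm_FLT_cast]
    ring
  rw [h]
  exact div_ne_zero (pow_ne_zero _ (mul_ne_zero (mul_ne_zero (pow_ne_zero _ ha0)
    (pow_ne_zero _ hb0)) (pow_ne_zero _ hc0))) (by norm_num)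

end Arith

section Models

variable (P : FreyPackage)

/-- `(X,Y) = (x,y)`: the given (2-adically minimal) equation. -/
noncomputable def modelTwo : GalModel P 1 P.freyCurveInt.a₂ P.freyCurveInt.a₄ where
  M := wmodelId (P.freyCurve⁄Qbar) _ _ _ (by rw [S05.frey_a₁]; simp) (fm_a₂_cast P)
    (S05.frey_a₃ P) (fm_a₄_cast P) (S05.frey_a₆ P) (fm_Δ_ne_zero P)
  X_smul := by
    rintro σ (_ | ⟨x, y, h⟩)
    · exact (map_zero σ).symm
    · rfl
  Y_smul := by
    rintro σ (_ | ⟨x, y, h⟩)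
    · exact (map_zero σ).symm
    · rfl

/-- `X = 4x`, `Y = 4(2y+x)`:  `Y² = X(X - a^p)(X + b^p)`. -/
noncomputable def modelOdd : GalModel P 0 (P.b ^ P.p - P.a ^ P.p) (-(P.a * P.b) ^ P.p) where
  M := wmodelShift (P.freyCurve⁄Qbar) 0 _ _ _ (S05.frey_a₃ P) (S05.frey_a₆ P) (fm_Δ_ne_zero P)
    (by simp) (by rw [S05.frey_a₁, S05.frey_a₂]; push_cast; ring)
    (by rw [S05.frey_a₁, S05.frey_a₂, S05.frey_a₄]; push_cast; ring) (by ring)
  X_smul := by
    rintro σ (_ | ⟨x, y, h⟩)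
    · exact (map_zero σ).symm
    · show 4 * σ x - 0 = σ (4 * x - 0)
      rw [map_sub, map_mul, map_ofNat, _root_.map_zero]
  Y_smul := by
    rintro σ (_ | ⟨x, y, h⟩)
    · exact (map_zero σ).symm
    · show 4 * (2 * σ y + (P.freyCurve⁄Qbar).a₁ * σ x) = σ (4 * (2 * y + (P.freyCurve⁄Qbar).a₁ * x))
      rw [S05.frey_a₁, map_mul, map_add, map_mul, map_mul, map_ofNat, map_ofNat, map_one]

/-- `X = 4x - a^p`, `Y = 4(2y+x)`:  `Y² = X(X + a^p)(X + c^p)`. -/
noncomputable def modelOddC : GalModel P 0 (2 * P.a ^ P.p + P.b ^ P.p) ((P.a * P.c) ^ P.p) where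
  M := wmodelShift (P.freyCurve⁄Qbar) ((P.a : Qbar) ^ P.p) _ _ _ (S05.frey_a₃ P) (S05.frey_a₆ P)
    (fm_Δ_ne_zero P)
    (by simp) (by rw [S05.frey_a₁, S05.frey_a₂]; push_cast; ring)
    (by rw [S05.frey_a₁, S05.frey_a₂, S05.frey_a₄]; push_cast; rw [mul_pow, ← fm_FLT_cast]; ring)
    (by rw [S05.frey_a₁, S05.frey_a₂, S05.frey_a₄]; ring)
  X_smul := by
    rintro σ (_ | ⟨x, y, h⟩)
    · exact (map_zero σ).symm
    · show 4 * σ x - (P.a : Qbar) ^ P.p = σ (4 * x - (P.a : Qbar) ^ P.p)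
      rw [map_sub, map_mul, map_ofNat, map_pow, map_intCast]
  Y_smul := by
    rintro σ (_ | ⟨x, y, h⟩)
    · exact (map_zero σ).symm
    · show 4 * (2 * σ y + (P.freyCurve⁄Qbar).a₁ * σ x) = σ (4 * (2 * y + (P.freyCurve⁄Qbar).a₁ * x))
      rw [S05.frey_a₁, map_mul, map_add, map_mul, map_mul, map_ofNat, map_ofNat, map_one]

lemma modelTwo_X (Q : (P.freyCurve⁄Qbar).Point) :
    (modelTwo P).M.X Q = fmX (P.freyCurve⁄Qbar) Q := rfl

lemma modelTwo_Y (Q : (P.freyCurve⁄Qbar).Point) :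
    (modelTwo P).M.Y Q = fmY (P.freyCurve⁄Qbar) Q := rfl

lemma modelOdd_X (Q : (P.freyCurve⁄Qbar).Point) :
    (modelOdd P).M.X Q = 4 * (modelTwo P).M.X Q := by
  match Q with
  | .zero => exact (mul_zero _).symm
  | .some x y h => exact sub_zero _

lemma modelOdd_Y (Q : (P.freyCurve⁄Qbar).Point) :
    (modelOdd P).M.Y Q = 4 * (2 * (modelTwo P).M.Y Q + (modelTwo P).M.X Q) := by
  match Q with
  | .zero =>
    show (0 : Qbar) = 4 * (2 * 0 + 0)
    ring
  | .some x y h =>
    show 4 * (2 * y + (P.freyCurve⁄Qbar).a₁ * x) = 4 * (2 * y + x)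
    rw [S05.frey_a₁, one_mul]

lemma modelOddC_X {Q : (P.freyCurve⁄Qbar).Point} (hQ : Q ≠ 0) :
    (modelOddC P).M.X Q = 4 * (modelTwo P).M.X Q - (P.a : Qbar) ^ P.p := by
  match Q with
  | .zero => exact absurd rfl hQ
  | .some x y h => rfl

lemma modelOddC_Y (Q : (P.freyCurve⁄Qbar).Point) :
    (modelOddC P).M.Y Q = (modelOdd P).M.Y Q := rfl

end Models

section Galois

open scoped Pointwise

theorem fm_isAlgClosure_Qbar : IsAlgClosure ℚ Qbar := @AlgebraicClosure.instIsAlgClosure ℚ _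

attribute [local instance] fm_isAlgClosure_Qbar

lemma fm_exists_pow_fix (σ : GQ) (z : Qbar) : ∃ n : ℕ, 0 < n ∧ (σ ^ n) z = z := by
  have hz : IsIntegral ℚ z := (IsAlgClosure.isAlgebraic.isAlgebraic z).isIntegral
  have hfin : ((minpoly ℚ z).rootSet Qbar).Finite := Polynomial.rootSet_finite _ _
  have hmem : ∀ k : ℕ, (σ ^ k) z ∈ (minpoly ℚ z).rootSet Qbar := by
    intro k
    rw [Polynomial.mem_rootSet]
    refine ⟨minpoly.ne_zero hz, ?_⟩
    have := Polynomial.aeval_algHom_apply ((σ ^ k : GQ) : Qbar →ₐ[ℚ] Qbar) z (minpoly ℚ z)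
    rw [minpoly.aeval, _root_.map_zero] at this
    exact this
  have := hfin.to_subtype
  obtain ⟨i, j, hij, h⟩ := Finite.exists_ne_map_eq_of_infinite
    (fun k : ℕ => (⟨(σ ^ k) z, hmem k⟩ : (minpoly ℚ z).rootSet Qbar))
  have h' : (σ ^ i) z = (σ ^ j) z := congrArg Subtype.val h
  have key : ∀ i j : ℕ, i < j → (σ ^ i) z = (σ ^ j) z → ∃ n : ℕ, 0 < n ∧ (σ ^ n) z = z := by
    intro i j hlt h
    refine ⟨j - i, by omega, ?_⟩
    have hj : σ ^ j = σ ^ i * σ ^ (j - i) := by rw [← pow_add]; congr 1; omega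
    rw [hj, AlgEquiv.mul_apply] at h
    exact ((σ ^ i).injective h).symm
  rcases lt_or_gt_of_ne hij with hlt | hlt
  · exact key i j hlt h'
  · exact key j i hlt h'.symm

/-- elements of the decomposition group preserve the valuation (finite orbits + order preserving) -/
theorem valuation_smul_eq (A : ValuationSubring Qbar) {σ : GQ}
    (hσ : σ ∈ A.decompositionSubgroup ℚ) (z : Qbar) : A.valuation (σ z) = A.valuation z := by
  have hmem : ∀ x : Qbar, σ x ∈ A ↔ x ∈ A := by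
    intro x
    have h1 : σ • A = A := MulAction.mem_stabilizer_iff.mp hσ
    have h2 := ValuationSubring.smul_mem_pointwise_smul_iff (g := σ) (S := A) (x := x)
    rw [h1] at h2
    exact h2
  have hle : ∀ x : Qbar, A.valuation (σ x) ≤ 1 ↔ A.valuation x ≤ 1 := by
    intro x
    rw [A.valuation_le_one_iff, A.valuation_le_one_iff, hmem]
  have hlt1 : ∀ x : Qbar, A.valuation x < 1 → A.valuation (σ x) < 1 := by
    intro x hx
    by_cases hx0 : x = 0
    · rw [hx0, _root_.map_zero, _root_.map_zero]; exact zero_lt_one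
    · by_contra hcon
      rw [not_lt] at hcon
      have hσx0 : σ x ≠ 0 := fun h => hx0 (by simpa using h)
      have h1 : A.valuation (σ x⁻¹) ≤ 1 := by
        rw [map_inv₀, map_inv₀]
        exact inv_le_one_of_one_le₀ hcon
      rw [hle, map_inv₀] at h1
      have h2 : 1 ≤ A.valuation x := by
        have hv0 : 0 < A.valuation x := zero_lt_iff.mpr ((A.valuation.ne_zero_iff).mpr hx0)
        exact (inv_le_one₀ hv0).mp h1
      exact absurd hx (not_lt.mpr h2)
  have hlt : ∀ x y : Qbar, A.valuation x < A.valuation y →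
      A.valuation (σ x) < A.valuation (σ y) := by
    intro x y hxy
    have hy0 : y ≠ 0 := by
      intro h
      rw [h, _root_.map_zero] at hxy
      exact not_lt_zero hxy
    have hσy0 : σ y ≠ 0 := fun h => hy0 (by simpa using h)
    have hvy : 0 < A.valuation y := zero_lt_iff.mpr ((A.valuation.ne_zero_iff).mpr hy0)
    have hvσy : 0 < A.valuation (σ y) := zero_lt_iff.mpr ((A.valuation.ne_zero_iff).mpr hσy0)
    have h1 : A.valuation (x / y) < 1 := by
      rw [map_div₀]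
      exact (div_lt_one₀ hvy).mpr hxy
    have h2 := hlt1 _ h1
    rw [map_div₀, map_div₀] at h2
    exact (div_lt_one₀ hvσy).mp h2
  obtain ⟨n, hn, hnz⟩ := fm_exists_pow_fix σ z
  have hsucc : ∀ k : ℕ, (σ ^ (k + 1)) z = σ ((σ ^ k) z) := by
    intro k
    rw [pow_succ', AlgEquiv.mul_apply]
  rcases lt_trichotomy (A.valuation (σ z)) (A.valuation z) with h | h | h
  · exfalso
    have hanti : StrictAnti (fun k : ℕ => A.valuation ((σ ^ k) z)) := by
      apply strictAnti_nat_of_succ_lt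
      intro k
      induction k with
      | zero => simpa using h
      | succ k ih =>
        show A.valuation ((σ ^ (k + 1 + 1)) z) < A.valuation ((σ ^ (k + 1)) z)
        rw [hsucc (k + 1), hsucc k]
        exact hlt _ _ (by rw [← hsucc k]; exact ih)
    have := hanti hn
    simp only [pow_zero, hnz, AlgEquiv.one_apply, lt_self_iff_false] at this
  · exact h
  · exfalso
    have hmono : StrictMono (fun k : ℕ => A.valuation ((σ ^ k) z)) := by
      apply strictMono_nat_of_lt_succ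
      intro k
      induction k with
      | zero => simpa using h
      | succ k ih =>
        show A.valuation ((σ ^ (k + 1)) z) < A.valuation ((σ ^ (k + 1 + 1)) z)
        rw [hsucc (k + 1), hsucc k]
        exact hlt _ _ (by rw [← hsucc k]; exact ih)
    have := hmono hn
    simp only [pow_zero, hnz, AlgEquiv.one_apply, lt_self_iff_false] at this

theorem inertia_le_decomposition (A : ValuationSubring Qbar) :
    A.inertiaSubgroupIn ℚ ≤ A.decompositionSubgroup ℚ := by
  unfold ValuationSubring.inertiaSubgroupIn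
  exact Subgroup.map_subtype_le _

/-- the `Act` attached to an inertia element -/
noncomputable def GalModel.actOf {P : FreyPackage} {a₁ a₂ s : ℤ} (Mg : GalModel P a₁ a₂ s)
    (A : ValuationSubring Qbar) (σ : GQ) (hσ : σ ∈ A.inertiaSubgroupIn ℚ) :
    Act Mg.M A.valuation where
  φ := (σ : Qbar →+* Qbar)
  τ := DistribSMul.toAddMonoidHom _ σ
  τ_ne := by
    intro Q hQ h
    apply hQ
    have h' : σ • Q = 0 := h
    have := congrArg (fun R => σ⁻¹ • R) h'
    simp only [inv_smul_smul] at this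
    rw [this]
    rfl
  X_τ := fun Q _ => Mg.X_smul σ Q
  Y_τ := fun Q _ => Mg.Y_smul σ Q
  v_φ := fun z => valuation_smul_eq A (inertia_le_decomposition A hσ) z
  inert := fun z hz => S05.inertia_spec A hσ z hz

theorem GalModel.actOf_τ {P : FreyPackage} {a₁ a₂ s : ℤ} (Mg : GalModel P a₁ a₂ s)
    (A : ValuationSubring Qbar) (σ : GQ) (hσ : σ ∈ A.inertiaSubgroupIn ℚ)
    (Q : (P.freyCurve⁄Qbar).Point) : (Mg.actOf A σ hσ).τ Q = σ • Q := rfl

theorem GalModel.actOf_φ {P : FreyPackage} {a₁ a₂ s : ℤ} (Mg : GalModel P a₁ a₂ s)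
    (A : ValuationSubring Qbar) (σ : GQ) (hσ : σ ∈ A.inertiaSubgroupIn ℚ)
    (z : Qbar) : (Mg.actOf A σ hσ).φ z = σ z := rfl

/-- stabilisers of points are open -/
theorem isOpen_stabilizer_point (P : FreyPackage) (Q : (P.freyCurve⁄Qbar).Point) :
    IsOpen {σ : GQ | σ • Q = Q} := by
  match Q with
  | .zero =>
    have : {σ : GQ | σ • (Point.zero : (P.freyCurve⁄Qbar).Point) = Point.zero} = Set.univ := by
      ext σ
      simp only [Set.mem_ofPred_eq, Set.mem_univ, iff_true]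
      rfl
    rw [this]
    exact isOpen_univ
  | .some x y h =>
    have h1 := stabilizer_isOpen_of_isIntegral (K := ℚ) (L := Qbar) x
    have h2 := stabilizer_isOpen_of_isIntegral (K := ℚ) (L := Qbar) y
    have h3 : {σ : GQ | σ • (Point.some x y h : (P.freyCurve⁄Qbar).Point) = Point.some x y h} =
        (MulAction.stabilizer GQ x : Set GQ) ∩ (MulAction.stabilizer GQ y : Set GQ) := by
      ext σ
      simp only [Set.mem_ofPred_eq, Set.mem_inter_iff, SetLike.mem_coe,
        MulAction.mem_stabilizer_iff]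
      constructor
      · intro hσ
        have hx := congrArg (fmX (P.freyCurve⁄Qbar)) hσ
        have hy := congrArg (fmY (P.freyCurve⁄Qbar)) hσ
        exact ⟨hx, hy⟩
      · rintro ⟨hx, hy⟩
        have hx' : σ x = x := hx
        have hy' : σ y = y := hy
        show Point.map σ.toAlgHom (Point.some x y h) = _
        rw [Point.map_some]
        simp only [Point.some.injEq]
        exact ⟨hx', hy'⟩
    rw [h3]
    exact h1.inter h2

/-- Galois descent -/
theorem exists_rat_of_fixed (z : Qbar) (hz : ∀ σ : GQ, σ z = z) :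
    ∃ q : ℚ, algebraMap ℚ Qbar q = z :=
  (InfiniteGalois.mem_range_algebraMap_iff_fixed z).mpr hz

end Galois

section RatVal

lemma fm_val_nat_eq_pow (A : ValuationSubring Qbar) {ℓ : ℕ} (hℓ : ℓ.Prime)
    (hA : A.LiesOverPrime ℓ) (n : ℕ) (hn : n ≠ 0) :
    ∃ e : ℕ, A.valuation (n : Qbar) = A.valuation (ℓ : Qbar) ^ e := by
  have hvℓ : A.valuation (ℓ : Qbar) < 1 := (A.mem_nonunits_iff).mp hA
  obtain ⟨e, n', hn', rfl⟩ := Nat.exists_eq_pow_mul_and_not_dvd hn ℓ hℓ.ne_one
  refine ⟨e, ?_⟩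
  have h1 : A.valuation ((n' : ℤ) : Qbar) = 1 :=
    S05.val_int_eq_one A.valuation hℓ hvℓ (by exact_mod_cast hn')
  push_cast at h1 ⊢
  rw [map_mul, map_pow, h1, mul_one]

lemma fm_rat_cast_eq (q : ℚ) : algebraMap ℚ Qbar q = ((q.num : ℤ) : Qbar) / ((q.den : ℕ) : Qbar) := by
  rw [eq_ratCast]
  conv_lhs => rw [← Rat.num_div_den q]
  push_cast
  rfl

/-- valuations of rational numbers -/
theorem val_rat_eq_zpow (A : ValuationSubring Qbar) {ℓ : ℕ} (hℓ : ℓ.Prime)
    (hA : A.LiesOverPrime ℓ) (q : ℚ) (hq : q ≠ 0) :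
    ∃ m : ℤ, A.valuation (algebraMap ℚ Qbar q) = A.valuation (ℓ : Qbar) ^ m := by
  have hℓ0 : A.valuation (ℓ : Qbar) ≠ 0 :=
    (A.valuation.ne_zero_iff).mpr (by exact_mod_cast hℓ.ne_zero)
  obtain ⟨e1, h1⟩ := fm_val_nat_eq_pow A hℓ hA q.num.natAbs (by simpa using hq)
  obtain ⟨e2, h2⟩ := fm_val_nat_eq_pow A hℓ hA q.den q.den_ne_zero
  have h3 : A.valuation ((q.num : ℤ) : Qbar) = A.valuation ((q.num.natAbs : ℕ) : Qbar) := by
    rcases Int.natAbs_eq q.num with h | h
    · conv_lhs => rw [h]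
      simp
    · conv_lhs => rw [h]
      simp
  refine ⟨(e1 : ℤ) - e2, ?_⟩
  rw [fm_rat_cast_eq, map_div₀, h3, h1, h2, zpow_sub₀ hℓ0, zpow_natCast, zpow_natCast]

theorem val_rat_le_one_iff (A : ValuationSubring Qbar) {ℓ : ℕ} (hℓ : ℓ.Prime)
    (hA : A.LiesOverPrime ℓ) (q : ℚ) :
    A.valuation (algebraMap ℚ Qbar q) ≤ 1 ↔ ¬ ℓ ∣ q.den := by
  have hvℓ : A.valuation (ℓ : Qbar) < 1 := (A.mem_nonunits_iff).mp hA
  rw [fm_rat_cast_eq, map_div₀]
  constructor
  · intro h hdvd
    have hnum : A.valuation ((q.num : ℤ) : Qbar) = 1 := by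
      apply S05.val_int_eq_one A.valuation hℓ hvℓ
      intro hd
      have h1 : ℓ ∣ q.num.natAbs := Int.natCast_dvd.mp hd
      have h3 := Nat.dvd_gcd h1 hdvd
      rw [q.reduced] at h3
      exact hℓ.one_lt.ne' (Nat.dvd_one.mp h3)
    have hden : A.valuation ((q.den : ℕ) : Qbar) < 1 := by
      have := S05.val_int_lt_one A.valuation hvℓ (n := (q.den : ℤ)) (by exact_mod_cast hdvd)
      simpa using this
    have hden0 : 0 < A.valuation ((q.den : ℕ) : Qbar) :=
      zero_lt_iff.mpr ((A.valuation.ne_zero_iff).mpr (by exact_mod_cast q.den_ne_zero))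
    rw [hnum, div_le_one₀ hden0] at h
    exact absurd hden (not_lt.mpr h)
  · intro h
    have hden : A.valuation ((q.den : ℕ) : Qbar) = 1 := by
      have := S05.val_int_eq_one A.valuation hℓ hvℓ (n := (q.den : ℤ)) (by exact_mod_cast h)
      simpa using this
    rw [hden, div_one]
    exact S05.val_int_le_one A.valuation q.num

theorem val_rat_sub_one_lt (A : ValuationSubring Qbar) (hA : A.LiesOverPrime 2) (q : ℚ)
    (hq : A.valuation (algebraMap ℚ Qbar q) = 1) :
    A.valuation (algebraMap ℚ Qbar q - 1) < 1 := by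
  have hv2 : A.valuation ((2 : ℕ) : Qbar) < 1 := (A.mem_nonunits_iff).mp hA
  have hden2 : ¬ 2 ∣ q.den := (val_rat_le_one_iff A Nat.prime_two hA q).mp hq.le
  have hden : A.valuation ((q.den : ℕ) : Qbar) = 1 := by
    have := S05.val_int_eq_one A.valuation Nat.prime_two hv2 (n := (q.den : ℤ))
      (by exact_mod_cast hden2)
    simpa using this
  have hden0 : ((q.den : ℕ) : Qbar) ≠ 0 := by exact_mod_cast q.den_ne_zero
  rw [fm_rat_cast_eq, map_div₀, hden, div_one] at hq
  have hnum2 : ¬ (2 : ℤ) ∣ q.num := by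
    intro h
    have := S05.val_int_lt_one A.valuation hv2 (n := q.num) (by exact_mod_cast h)
    rw [hq] at this
    exact lt_irrefl _ this
  have hsub : (2 : ℤ) ∣ q.num - q.den := by
    have : ¬ (2 : ℤ) ∣ (q.den : ℤ) := by exact_mod_cast hden2
    omega
  have h1 : algebraMap ℚ Qbar q - 1 = ((q.num - q.den : ℤ) : Qbar) / ((q.den : ℕ) : Qbar) := by
    rw [fm_rat_cast_eq]
    push_cast
    field_simp
  rw [h1, map_div₀, hden, div_one]
  exact S05.val_int_lt_one A.valuation hv2 (by exact_mod_cast hsub)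

end RatVal

end Fermat.Agent.S13
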