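import Mathlib

/-!
# The homogeneous `x`-only ladder for `Y² + a₁XY = X³ + a₂X² + sX`

`β = a₁² + 4a₂`, `D(X) = 4X³ + βX² + 4sX`.
For ring elements `β s x z` we define `ladA n`, `ladC n` such that
`X(nP) = ladA n / (z * ladC n)` whenever `X(P) = x / z`.
-/

set_option autoImplicit false

namespace Fermat.Agent.S13

open Polynomial

section Defs

variable {R : Type*} [CommRing R]

/-- homogeneous ladder: `lad β s x z n = (A_n, C_n)`. -/
def lad (β s x z : R) : ℕ → R × R
  | 0 => (1, 0)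
  | 1 => (x, 1)
  | (n + 2) =>
    if h : (n + 2) % 2 = 0 then
      let A := (lad β s x z ((n + 2) / 2)).1
      let C := (lad β s x z ((n + 2) / 2)).2
      ((A ^ 2 - s * z ^ 2 * C ^ 2) ^ 2,
        A * C * (4 * A ^ 2 + β * z * A * C + 4 * s * z ^ 2 * C ^ 2))
    else
      let A := (lad β s x z ((n + 2) / 2)).1
      let C := (lad β s x z ((n + 2) / 2)).2
      let A' := (lad β s x z ((n + 2) / 2 + 1)).1
      let C' := (lad β s x z ((n + 2) / 2 + 1)).2
      (2 * (A * C' + A' * C) * (A * A' + s * z ^ 2 * C * C') + β * z * A * A' * C * C'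
          - x * (A * C' - A' * C) ^ 2,
        (A * C' - A' * C) ^ 2)
  termination_by n => n
  decreasing_by all_goals omega

/-- numerator -/
def ladA (β s x z : R) (n : ℕ) : R := (lad β s x z n).1

/-- denominator (up to the factor `z`) -/
def ladC (β s x z : R) (n : ℕ) : R := (lad β s x z n).2

/-- `ladW k ^ 2 = ladC (2k+1)`. -/
def ladW (β s x z : R) (k : ℕ) : R :=
  ladA β s x z k * ladC β s x z (k + 1) - ladA β s x z (k + 1) * ladC β s x z k

variable (β s x z : R)

@[simp] lemma ladA_zero : ladA β s x z 0 = 1 := by simp [ladA, lad]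
@[simp] lemma ladC_zero : ladC β s x z 0 = 0 := by simp [ladC, lad]
@[simp] lemma ladA_one : ladA β s x z 1 = x := by simp [ladA, lad]
@[simp] lemma ladC_one : ladC β s x z 1 = 1 := by simp [ladC, lad]

lemma lad_two_mul (k : ℕ) (hk : 1 ≤ k) :
    lad β s x z (2 * k) = ((ladA β s x z k ^ 2 - s * z ^ 2 * ladC β s x z k ^ 2) ^ 2,
      ladA β s x z k * ladC β s x z k * (4 * ladA β s x z k ^ 2
        + β * z * ladA β s x z k * ladC β s x z k + 4 * s * z ^ 2 * ladC β s x z k ^ 2)) := by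
  obtain ⟨n, rfl⟩ : ∃ n, k = n + 1 := ⟨k - 1, by omega⟩
  have e : 2 * (n + 1) = 2 * n + 2 := by ring
  rw [e, lad]
  have h1 : (2 * n + 2) % 2 = 0 := by omega
  have h2 : (2 * n + 2) / 2 = n + 1 := by omega
  simp only [h1, h2, dite_true, ladA, ladC]

lemma ladA_two_mul (k : ℕ) (hk : 1 ≤ k) :
    ladA β s x z (2 * k) = (ladA β s x z k ^ 2 - s * z ^ 2 * ladC β s x z k ^ 2) ^ 2 := by
  rw [ladA, lad_two_mul β s x z k hk]

lemma ladC_two_mul (k : ℕ) (hk : 1 ≤ k) :
    ladC β s x z (2 * k) = ladA β s x z k * ladC β s x z k * (4 * ladA β s x z k ^ 2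
        + β * z * ladA β s x z k * ladC β s x z k + 4 * s * z ^ 2 * ladC β s x z k ^ 2) := by
  rw [ladC, lad_two_mul β s x z k hk]

lemma lad_two_mul_add_one (k : ℕ) (hk : 1 ≤ k) :
    lad β s x z (2 * k + 1) =
      (2 * (ladA β s x z k * ladC β s x z (k + 1) + ladA β s x z (k + 1) * ladC β s x z k)
          * (ladA β s x z k * ladA β s x z (k + 1)
            + s * z ^ 2 * ladC β s x z k * ladC β s x z (k + 1))
        + β * z * ladA β s x z k * ladA β s x z (k + 1) * ladC β s x z k * ladC β s x z (k + 1)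
        - x * ladW β s x z k ^ 2, ladW β s x z k ^ 2) := by
  obtain ⟨n, rfl⟩ : ∃ n, k = n + 1 := ⟨k - 1, by omega⟩
  have e : 2 * (n + 1) + 1 = (2 * n + 1) + 2 := by ring
  rw [e, lad]
  have h1 : ¬ ((2 * n + 1 + 2) % 2 = 0) := by omega
  have h2 : (2 * n + 1 + 2) / 2 = n + 1 := by omega
  simp only [h1, h2, dite_false, ladA, ladC, ladW]

lemma ladA_two_mul_add_one (k : ℕ) (hk : 1 ≤ k) :
    ladA β s x z (2 * k + 1) =
      2 * (ladA β s x z k * ladC β s x z (k + 1) + ladA β s x z (k + 1) * ladC β s x z k)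
          * (ladA β s x z k * ladA β s x z (k + 1)
            + s * z ^ 2 * ladC β s x z k * ladC β s x z (k + 1))
        + β * z * ladA β s x z k * ladA β s x z (k + 1) * ladC β s x z k * ladC β s x z (k + 1)
        - x * ladW β s x z k ^ 2 := by
  rw [ladA, lad_two_mul_add_one β s x z k hk]

lemma ladC_two_mul_add_one (k : ℕ) : ladC β s x z (2 * k + 1) = ladW β s x z k ^ 2 := by
  rcases Nat.eq_zero_or_pos k with rfl | hk
  · simp [ladW]
  · rw [ladC, lad_two_mul_add_one β s x z k hk]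

/-- induction principle along the ladder -/
lemma lad_induction {P : ℕ → Prop} (h0 : P 0) (h1 : P 1)
    (he : ∀ k, 1 ≤ k → P k → P (2 * k))
    (ho : ∀ k, 1 ≤ k → P k → P (k + 1) → P (2 * k + 1)) (n : ℕ) : P n := by
  induction n using Nat.strong_induction_on with
  | _ n ih =>
    rcases n with _ | _ | n
    · exact h0
    · exact h1
    · rcases Nat.even_or_odd' (n + 2) with ⟨k, hk | hk⟩
      · rw [hk]; exact he k (by omega) (ih k (by omega))
      · rw [hk]; exact ho k (by omega) (ih k (by omega)) (ih (k + 1) (by omega))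

section Map

variable {R' : Type*} [CommRing R'] (f : R →+* R')

lemma map_ladA_ladC (n : ℕ) : f (ladA β s x z n) = ladA (f β) (f s) (f x) (f z) n ∧
    f (ladC β s x z n) = ladC (f β) (f s) (f x) (f z) n := by
  induction n using lad_induction with
  | h0 => simp
  | h1 => simp
  | he k hk ih =>
    rw [ladA_two_mul _ _ _ _ k hk, ladC_two_mul _ _ _ _ k hk, ladA_two_mul _ _ _ _ k hk,
      ladC_two_mul _ _ _ _ k hk]
    simp [ih.1, ih.2, map_ofNat]
  | ho k hk ih ih' =>
    rw [ladA_two_mul_add_one _ _ _ _ k hk, ladC_two_mul_add_one, ladA_two_mul_add_one _ _ _ _ k hk,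
      ladC_two_mul_add_one]
    simp [ladW, ih.1, ih.2, ih'.1, ih'.2, map_ofNat]

lemma map_ladA (n : ℕ) : f (ladA β s x z n) = ladA (f β) (f s) (f x) (f z) n :=
  (map_ladA_ladC β s x z f n).1

lemma map_ladC (n : ℕ) : f (ladC β s x z n) = ladC (f β) (f s) (f x) (f z) n :=
  (map_ladA_ladC β s x z f n).2

lemma map_ladW (k : ℕ) : f (ladW β s x z k) = ladW (f β) (f s) (f x) (f z) k := by
  simp [ladW, map_ladA, map_ladC]

end Map

/-- the ladder at the point at infinity -/
lemma ladA_ladC_one_zero (n : ℕ) : ladA β s 1 0 n = 1 ∧ ladC β s 1 0 n = (n : R) ^ 2 := by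
  induction n using lad_induction with
  | h0 => simp
  | h1 => simp
  | he k hk ih =>
    rw [ladA_two_mul _ _ _ _ k hk, ladC_two_mul _ _ _ _ k hk, ih.1, ih.2]
    constructor
    · ring
    · push_cast; ring
  | ho k hk ih ih' =>
    rw [ladA_two_mul_add_one _ _ _ _ k hk, ladC_two_mul_add_one, ladW, ih.1, ih.2, ih'.1, ih'.2]
    constructor
    · push_cast; ring
    · push_cast; ring

lemma ladA_one_zero (n : ℕ) : ladA β s 1 0 n = 1 := (ladA_ladC_one_zero β s n).1

lemma ladC_one_zero (n : ℕ) : ladC β s 1 0 n = (n : R) ^ 2 := (ladA_ladC_one_zero β s n).2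

lemma ladW_one_zero (k : ℕ) : ladW β s 1 0 k = ((2 * k + 1 : ℕ) : R) := by
  rw [ladW, ladA_one_zero, ladA_one_zero, ladC_one_zero, ladC_one_zero]
  push_cast; ring

end Defs


section Degree

variable {R : Type*} [CommRing R] (β s : R)

/-- the ladder polynomials -/
noncomputable def polA (n : ℕ) : R[X] := ladA (C β) (C s) X 1 n

/-- the ladder polynomials -/
noncomputable def polC (n : ℕ) : R[X] := ladC (C β) (C s) X 1 n

/-- the ladder polynomials: `polW k ^ 2 = polC (2k+1)` -/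
noncomputable def polW (k : ℕ) : R[X] := ladW (C β) (C s) X 1 k

lemma polW_def (k : ℕ) :
    polW β s k = polA β s k * polC β s (k + 1) - polA β s (k + 1) * polC β s k := rfl

lemma eval_polA (ξ : R) (n : ℕ) : (polA β s n).eval ξ = ladA β s ξ 1 n := by
  have := map_ladA (C β) (C s) X 1 (evalRingHom ξ) n
  simpa [polA] using this

lemma eval_polC (ξ : R) (n : ℕ) : (polC β s n).eval ξ = ladC β s ξ 1 n := by
  have := map_ladC (C β) (C s) X 1 (evalRingHom ξ) n
  simpa [polC] using this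

lemma eval_polW (ξ : R) (n : ℕ) : (polW β s n).eval ξ = ladW β s ξ 1 n := by
  have := map_ladW (C β) (C s) X 1 (evalRingHom ξ) n
  simpa [polW] using this

lemma map_polA {R' : Type*} [CommRing R'] (f : R →+* R') (n : ℕ) :
    (polA β s n).map f = polA (f β) (f s) n := by
  have := map_ladA (C β) (C s) X 1 (mapRingHom f) n
  simpa [polA] using this

lemma map_polC {R' : Type*} [CommRing R'] (f : R →+* R') (n : ℕ) :
    (polC β s n).map f = polC (f β) (f s) n := by
  have := map_ladC (C β) (C s) X 1 (mapRingHom f) n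
  simpa [polC] using this

lemma map_polW {R' : Type*} [CommRing R'] (f : R →+* R') (n : ℕ) :
    (polW β s n).map f = polW (f β) (f s) n := by
  have := map_ladW (C β) (C s) X 1 (mapRingHom f) n
  simpa [polW] using this

lemma lad_natDegree_sub_le {p q : R[X]} {n : ℕ} (hp : p.natDegree ≤ n) (hq : q.natDegree ≤ n) :
    (p - q).natDegree ≤ n :=
  (natDegree_sub_le_of_le hp hq).trans (by simp)

/-- degree and leading coefficient of `polA` and `polC` -/
lemma degree_polA_polC (n : ℕ) :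
    ((polA β s n).natDegree ≤ n ^ 2 ∧ (polA β s n).coeff (n ^ 2) = 1) ∧
    ((polC β s n).natDegree ≤ n ^ 2 - 1 ∧ (polC β s n).coeff (n ^ 2 - 1) = (n : R) ^ 2) := by
  induction n using lad_induction with
  | h0 => simp [polA, polC]
  | h1 => simpa [polA, polC] using natDegree_X_le
  | he k hk ih =>
    obtain ⟨⟨hx, hx1⟩, ⟨hz, hz1⟩⟩ := ih
    obtain ⟨m, hm⟩ : ∃ m, k ^ 2 = m + 1 := ⟨k ^ 2 - 1, by
      have : 1 ≤ k ^ 2 := Nat.one_le_pow _ _ hk
      omega⟩
    rw [hm] at hx hx1 hz hz1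
    simp only [Nat.add_sub_cancel] at hz hz1
    have e1 : (2 * k) ^ 2 = 2 * (2 * (m + 1)) := by rw [← hm]; ring
    have e2 : (2 * k) ^ 2 - 1 = (m + 1) + m + 2 * (m + 1) := by rw [e1]; omega
    have eA : polA β s (2 * k) = (polA β s k ^ 2 - C s * polC β s k ^ 2) ^ 2 := by
      rw [polA, ladA_two_mul _ _ _ _ k hk]; simp [polA, polC]
    have eC : polC β s (2 * k) = polA β s k * polC β s k * (4 * polA β s k ^ 2
        + C β * polA β s k * polC β s k + 4 * C s * polC β s k ^ 2) := by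
      rw [polC, ladC_two_mul _ _ _ _ k hk]; simp [polA, polC]
    generalize polA β s k = A at *
    generalize polC β s k = Z at *
    have ha : (A ^ 2 - C s * Z ^ 2).natDegree ≤ 2 * (m + 1) := by
      refine (lad_natDegree_sub_le (natDegree_pow_le_of_le 2 hx) ?_)
      refine (natDegree_C_mul_le _ _).trans ((natDegree_pow_le_of_le 2 hz).trans (by omega))
    have ha1 : (A ^ 2 - C s * Z ^ 2).coeff (2 * (m + 1)) = 1 := by
      rw [coeff_sub, coeff_pow_of_natDegree_le hx, hx1, coeff_C_mul,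
        coeff_eq_zero_of_natDegree_lt (lt_of_le_of_lt (natDegree_pow_le_of_le 2 hz) (by omega))]
      simp
    have h4 : (4 : R[X]) = C 4 := (map_ofNat C 4).symm
    have hb : (4 * A ^ 2 + C β * A * Z + 4 * C s * Z ^ 2).natDegree ≤ 2 * (m + 1) := by
      refine natDegree_add_le_of_degree_le (natDegree_add_le_of_degree_le ?_ ?_) ?_
      · rw [h4]
        exact (natDegree_C_mul_le _ _).trans (natDegree_pow_le_of_le 2 hx)
      · rw [mul_assoc]
        exact (natDegree_C_mul_le _ _).trans ((natDegree_mul_le_of_le hx hz).trans (by omega))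
      · rw [h4, ← C_mul]
        exact (natDegree_C_mul_le _ _).trans ((natDegree_pow_le_of_le 2 hz).trans (by omega))
    have hb1 : (4 * A ^ 2 + C β * A * Z + 4 * C s * Z ^ 2).coeff (2 * (m + 1)) = 4 := by
      rw [coeff_add, coeff_add, h4, coeff_C_mul, coeff_pow_of_natDegree_le hx, hx1, mul_assoc,
        coeff_C_mul, ← C_mul, coeff_C_mul,
        coeff_eq_zero_of_natDegree_lt (lt_of_le_of_lt (natDegree_pow_le_of_le 2 hz) (by omega)),
        coeff_eq_zero_of_natDegree_lt (lt_of_le_of_lt (natDegree_mul_le_of_le hx hz) (by omega))]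
      simp
    rw [eA, eC, e2, e1]
    refine ⟨⟨natDegree_pow_le_of_le 2 ha, ?_⟩, ⟨?_, ?_⟩⟩
    · rw [coeff_pow_of_natDegree_le ha, ha1, one_pow]
    · exact natDegree_mul_le_of_le (natDegree_mul_le_of_le hx hz) hb
    · rw [coeff_mul_add_eq_of_natDegree_le (natDegree_mul_le_of_le hx hz) hb,
        coeff_mul_add_eq_of_natDegree_le hx hz, hx1, hz1, hb1]
      push_cast
      ring
  | ho k hk ih ih' =>
    obtain ⟨⟨hx, hx1⟩, ⟨hz, hz1⟩⟩ := ih
    obtain ⟨⟨hx', hx1'⟩, ⟨hz', hz1'⟩⟩ := ih'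
    obtain ⟨m, hm⟩ : ∃ m, k ^ 2 = m + 1 := ⟨k ^ 2 - 1, by
      have : 1 ≤ k ^ 2 := Nat.one_le_pow _ _ hk
      omega⟩
    obtain ⟨m', hm'⟩ : ∃ m', (k + 1) ^ 2 = m' + 1 := ⟨(k + 1) ^ 2 - 1, by
      have : 1 ≤ (k + 1) ^ 2 := Nat.one_le_pow _ _ (by omega)
      omega⟩
    rw [hm] at hx hx1 hz hz1
    rw [hm'] at hx' hx1' hz' hz1'
    simp only [Nat.add_sub_cancel] at hz hz1 hz' hz1'
    have e1 : (2 * k + 1) ^ 2 = 2 * (m + m' + 1) + 1 := by
      have : (2 * k + 1) ^ 2 + 1 = 2 * (k ^ 2 + (k + 1) ^ 2) := by ring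
      omega
    have e2 : (2 * k + 1) ^ 2 - 1 = 2 * (m + m' + 1) := by omega
    have eA : polA β s (2 * k + 1) =
        C 2 * ((polA β s k * polC β s (k + 1) + polA β s (k + 1) * polC β s k)
          * (polA β s k * polA β s (k + 1) + C s * (polC β s k * polC β s (k + 1))))
        + C β * ((polA β s k * polA β s (k + 1)) * (polC β s k * polC β s (k + 1)))
        - X * (polA β s k * polC β s (k + 1) - polA β s (k + 1) * polC β s k) ^ 2 := by
      rw [polA, ladA_two_mul_add_one _ _ _ _ k hk, ladW]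
      simp only [polA, polC, one_pow, mul_one, map_ofNat]
      ring
    have eC : polC β s (2 * k + 1) =
        (polA β s k * polC β s (k + 1) - polA β s (k + 1) * polC β s k) ^ 2 := by
      rw [polC, ladC_two_mul_add_one, ladW]; rfl
    generalize polA β s k = A at *
    generalize polC β s k = Z at *
    generalize polA β s (k + 1) = A' at *
    generalize polC β s (k + 1) = Z' at *
    have d1 : (A * Z').natDegree ≤ m + m' + 1 := (natDegree_mul_le_of_le hx hz').trans (by omega)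
    have d2 : (A' * Z).natDegree ≤ m + m' + 1 := (natDegree_mul_le_of_le hx' hz).trans (by omega)
    have c1 : (A * Z').coeff (m + m' + 1) = ((k + 1 : ℕ) : R) ^ 2 := by
      rw [show m + m' + 1 = (m + 1) + m' by ring, coeff_mul_add_eq_of_natDegree_le hx hz', hx1,
        hz1', one_mul]
    have c2 : (A' * Z).coeff (m + m' + 1) = (k : R) ^ 2 := by
      rw [show m + m' + 1 = (m' + 1) + m by ring, coeff_mul_add_eq_of_natDegree_le hx' hz, hx1',
        hz1, one_mul]
    have ht : (A * Z' - A' * Z).natDegree ≤ m + m' + 1 := lad_natDegree_sub_le d1 d2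
    have ht1 : (A * Z' - A' * Z).coeff (m + m' + 1) = ((2 * k + 1 : ℕ) : R) := by
      rw [coeff_sub, c1, c2]; push_cast; ring
    have hp : (A * Z' + A' * Z).natDegree ≤ m + m' + 1 := natDegree_add_le_of_degree_le d1 d2
    have hp1 : (A * Z' + A' * Z).coeff (m + m' + 1) = ((k + 1 : ℕ) : R) ^ 2 + (k : R) ^ 2 := by
      rw [coeff_add, c1, c2]
    have d3 : (A * A').natDegree ≤ m + m' + 1 + 1 :=
      (natDegree_mul_le_of_le hx hx').trans (by omega)
    have d4 : (Z * Z').natDegree ≤ m + m' := natDegree_mul_le_of_le hz hz'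
    have hq : (A * A' + C s * (Z * Z')).natDegree ≤ m + m' + 1 + 1 :=
      natDegree_add_le_of_degree_le d3 ((natDegree_C_mul_le _ _).trans (d4.trans (by omega)))
    have hq1 : (A * A' + C s * (Z * Z')).coeff (m + m' + 1 + 1) = 1 := by
      rw [coeff_add, show m + m' + 1 + 1 = (m + 1) + (m' + 1) by ring,
        coeff_mul_add_eq_of_natDegree_le hx hx', hx1, hx1', coeff_C_mul,
        coeff_eq_zero_of_natDegree_lt (lt_of_le_of_lt d4 (by omega))]
      simp
    have hpq : ((A * Z' + A' * Z) * (A * A' + C s * (Z * Z'))).natDegree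
        ≤ 2 * (m + m' + 1) + 1 := (natDegree_mul_le_of_le hp hq).trans (by omega)
    have hr : ((A * A') * (Z * Z')).natDegree ≤ 2 * (m + m' + 1) :=
      (natDegree_mul_le_of_le d3 d4).trans (by omega)
    rw [eA, eC, e2, e1]
    refine ⟨⟨?_, ?_⟩, ⟨natDegree_pow_le_of_le 2 ht, ?_⟩⟩
    · refine lad_natDegree_sub_le (natDegree_add_le_of_degree_le
        ((natDegree_C_mul_le _ _).trans hpq)
        ((natDegree_C_mul_le _ _).trans (hr.trans (by omega)))) ?_
      exact (natDegree_mul_le_of_le natDegree_X_le (natDegree_pow_le_of_le 2 ht)).trans (by omega)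
    · rw [coeff_sub, coeff_add, coeff_C_mul, coeff_C_mul, coeff_X_mul,
        coeff_pow_of_natDegree_le ht, ht1,
        coeff_eq_zero_of_natDegree_lt (lt_of_le_of_lt hr (by omega)),
        show 2 * (m + m' + 1) + 1 = (m + m' + 1) + (m + m' + 1 + 1) by ring,
        coeff_mul_add_eq_of_natDegree_le hp hq, hp1, hq1]
      push_cast
      ring
    · rw [coeff_pow_of_natDegree_le ht, ht1]

lemma natDegree_polW_le (k : ℕ) : (polW β s k).natDegree ≤ 2 * k ^ 2 + 2 * k := by
  rcases Nat.eq_zero_or_pos k with rfl | hk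
  · simp [polW, ladW]
  have h1 : 1 ≤ k ^ 2 := Nat.one_le_pow _ _ hk
  obtain ⟨⟨hx, -⟩, ⟨hz, -⟩⟩ := degree_polA_polC β s k
  obtain ⟨⟨hx', -⟩, ⟨hz', -⟩⟩ := degree_polA_polC β s (k + 1)
  have e : (k + 1) ^ 2 = k ^ 2 + 2 * k + 1 := by ring
  rw [polW_def]
  refine lad_natDegree_sub_le ((natDegree_mul_le_of_le hx hz').trans ?_)
        ((natDegree_mul_le_of_le hx' hz).trans ?_)
  · rw [e]; omega
  · rw [e]; omega

lemma coeff_polW (k : ℕ) : (polW β s k).coeff (2 * k ^ 2 + 2 * k) = ((2 * k + 1 : ℕ) : R) := by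
  rcases Nat.eq_zero_or_pos k with rfl | hk
  · simp [polW, ladW]
  obtain ⟨⟨hx, hx1⟩, ⟨hz, hz1⟩⟩ := degree_polA_polC β s k
  obtain ⟨⟨hx', hx1'⟩, ⟨hz', hz1'⟩⟩ := degree_polA_polC β s (k + 1)
  have e : (k + 1) ^ 2 = k ^ 2 + 2 * k + 1 := by ring
  have h1 : 1 ≤ k ^ 2 := Nat.one_le_pow _ _ hk
  rw [polW_def, coeff_sub, show 2 * k ^ 2 + 2 * k = k ^ 2 + ((k + 1) ^ 2 - 1) by rw [e]; omega,
    coeff_mul_add_eq_of_natDegree_le hx hz',
    show k ^ 2 + ((k + 1) ^ 2 - 1) = (k + 1) ^ 2 + (k ^ 2 - 1) by rw [e]; omega,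
    coeff_mul_add_eq_of_natDegree_le hx' hz, hx1, hx1', hz1, hz1']
  push_cast
  ring

end Degree

section Valuation

variable {L : Type*} [Field L] {Γ₀ : Type*} [LinearOrderedCommGroupWithZero Γ₀]
  (v : Valuation L Γ₀)

/-- the maximal ideal of the valuation ring -/
def lad_ltIdeal : Ideal v.integer where
  carrier := {a | v (a : L) < 1}
  add_mem' := by
    intro a b ha hb
    exact lt_of_le_of_lt (v.map_add _ _) (max_lt ha hb)
  zero_mem' := by simp
  smul_mem' := by
    intro c a ha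
    have hc : v (c : L) ≤ 1 := c.2
    change v ((c : L) * (a : L)) < 1
    rw [map_mul]
    exact lt_of_le_of_lt (mul_le_of_le_one_left zero_le hc) ha

lemma lad_mem_ltIdeal (a : v.integer) : a ∈ lad_ltIdeal v ↔ v (a : L) < 1 := Iff.rfl

variable {v} {β s : L}

/-- the ladder in the chart at infinity, modulo the maximal ideal -/
lemma val_lad_sub_lt (hβ : v β ≤ 1) (hs : v s ≤ 1) {u : L} (hu : v u < 1) (n : ℕ) :
    v (ladA β s 1 u n - 1) < 1 ∧ v (ladC β s 1 u n - (n : L) ^ 2) < 1 := by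
  let β' : v.integer := ⟨β, hβ⟩
  let s' : v.integer := ⟨s, hs⟩
  let u' : v.integer := ⟨u, hu.le⟩
  have hu' : Ideal.Quotient.mk (lad_ltIdeal v) u' = 0 :=
    Ideal.Quotient.eq_zero_iff_mem.mpr hu
  have hA := map_ladA β' s' 1 u' (Ideal.Quotient.mk (lad_ltIdeal v)) n
  have hC := map_ladC β' s' 1 u' (Ideal.Quotient.mk (lad_ltIdeal v)) n
  rw [hu', map_one, ladA_one_zero] at hA
  rw [hu', map_one, ladC_one_zero] at hC
  have hA' := map_ladA β' s' 1 u' v.integer.subtype n
  have hC' := map_ladC β' s' 1 u' v.integer.subtype n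
  simp only [map_one] at hA' hC'
  change _ = ladA β s 1 u n at hA'
  change _ = ladC β s 1 u n at hC'
  constructor
  · have : ladA β' s' 1 u' n - 1 ∈ lad_ltIdeal v := by
      rw [← Ideal.Quotient.eq_zero_iff_mem, map_sub, hA, map_one, sub_self]
    rw [lad_mem_ltIdeal] at this
    rw [← hA']
    simpa using this
  · have : ladC β' s' 1 u' n - (n : v.integer) ^ 2 ∈ lad_ltIdeal v := by
      rw [← Ideal.Quotient.eq_zero_iff_mem, map_sub, hC, map_pow, map_natCast, sub_self]
    rw [lad_mem_ltIdeal] at this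
    rw [← hC']
    simpa using this

lemma lad_val_eq_one_of_sub_lt {a b : L} (hb : v b = 1) (h : v (a - b) < 1) : v a = 1 := by
  have : v (b + (a - b)) = v b := v.map_add_eq_of_lt_left (by rw [hb]; exact h)
  rwa [add_sub_cancel, hb] at this

lemma val_ladA_eq_one (hβ : v β ≤ 1) (hs : v s ≤ 1) {u : L} (hu : v u < 1) (n : ℕ) :
    v (ladA β s 1 u n) = 1 :=
  lad_val_eq_one_of_sub_lt (map_one v) (val_lad_sub_lt hβ hs hu n).1

lemma val_ladC_eq_one (hβ : v β ≤ 1) (hs : v s ≤ 1) {u : L} (hu : v u < 1) {n : ℕ}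
    (hn : v (n : L) = 1) : v (ladC β s 1 u n) = 1 :=
  lad_val_eq_one_of_sub_lt (by rw [map_pow, hn, one_pow]) (val_lad_sub_lt hβ hs hu n).2

end Valuation

/-- The `x`-only data of a group `G` of points of `Y² + a₁XY = X³ + a₂X² + sX`
(`β = a₁² + 4 a₂`); `X 0` is a junk value. -/
structure XOnly (G : Type*) [AddCommGroup G] (L : Type*) [Field L] (β s : L) where
  X : G → L
  X_neg : ∀ P, X (-P) = X P
  eq_or_eq_neg : ∀ P Q, P ≠ 0 → Q ≠ 0 → X P = X Q → P = Q ∨ P = -Q
  sum : ∀ P Q, P ≠ 0 → Q ≠ 0 → X P ≠ X Q →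
    (X (P + Q) + X (P - Q)) * (X P - X Q) ^ 2 =
      2 * (X P + X Q) * (X P * X Q + s) + β * (X P * X Q)
  dbl : ∀ P, P ≠ 0 → P + P ≠ 0 →
    X (P + P) * (4 * X P ^ 3 + β * X P ^ 2 + 4 * s * X P) = (X P ^ 2 - s) ^ 2
  D_eq_zero_iff : ∀ P, P ≠ 0 → (4 * X P ^ 3 + β * X P ^ 2 + 4 * s * X P = 0 ↔ P + P = 0)
  nonsing : ∀ ξ : L, 4 * ξ ^ 3 + β * ξ ^ 2 + 4 * s * ξ = 0 → ξ ^ 2 - s ≠ 0

namespace XOnly

variable {G : Type*} [AddCommGroup G] {L : Type*} [Field L] {β s : L} (M : XOnly G L β s)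

/-- Correctness of the ladder. -/
theorem spec {Q : G} (hQ : Q ≠ 0) {x z : L} (hz : z ≠ 0) (hx : M.X Q * z = x) (n : ℕ) :
    (n • Q = 0 ∧ ladC β s x z n = 0 ∧ ladA β s x z n ≠ 0) ∨
    (n • Q ≠ 0 ∧ ladC β s x z n ≠ 0 ∧ M.X (n • Q) * (z * ladC β s x z n) = ladA β s x z n) := by
  induction n using lad_induction with
  | h0 => left; simp
  | h1 => right; simp [hQ, hx]
  | he k hk ih =>
    rw [ladA_two_mul _ _ _ _ k hk, ladC_two_mul _ _ _ _ k hk]
    have e2 : (2 * k) • Q = k • Q + k • Q := by rw [two_mul, add_smul]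
    rw [e2]
    generalize ladA β s x z k = A at ih ⊢
    generalize ladC β s x z k = C at ih ⊢
    generalize k • Q = U at ih ⊢
    rcases ih with ⟨hU, hC, hA⟩ | ⟨hU, hC, hA⟩
    · left
      subst hU hC
      refine ⟨by simp, by simp, ?_⟩
      simpa using hA
    · set ξ := M.X U with hξ
      have hA' : A = ξ * (z * C) := hA.symm
      have h1 : (A ^ 2 - s * z ^ 2 * C ^ 2) ^ 2 = (z * C) ^ 4 * (ξ ^ 2 - s) ^ 2 := by
        rw [hA']; ring
      have h2 : A * C * (4 * A ^ 2 + β * z * A * C + 4 * s * z ^ 2 * C ^ 2) =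
          z ^ 3 * C ^ 4 * (4 * ξ ^ 3 + β * ξ ^ 2 + 4 * s * ξ) := by
        rw [hA']; ring
      rw [h1, h2]
      by_cases h2U : U + U = 0
      · left
        have hD := (M.D_eq_zero_iff U hU).mpr h2U
        refine ⟨h2U, by rw [hD, mul_zero], ?_⟩
        exact mul_ne_zero (pow_ne_zero _ (mul_ne_zero hz hC)) (pow_ne_zero _ (M.nonsing _ hD))
      · right
        have hD : 4 * ξ ^ 3 + β * ξ ^ 2 + 4 * s * ξ ≠ 0 := fun h =>
          h2U ((M.D_eq_zero_iff U hU).mp h)
        refine ⟨h2U, mul_ne_zero (mul_ne_zero (pow_ne_zero _ hz) (pow_ne_zero _ hC)) hD, ?_⟩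
        have := M.dbl U hU h2U
        rw [← hξ] at this
        linear_combination (z * C) ^ 4 * this
  | ho k hk ih ih' =>
    rw [ladA_two_mul_add_one _ _ _ _ k hk, ladC_two_mul_add_one, ladW]
    have e2 : (2 * k + 1) • Q = (k + 1) • Q + k • Q := by
      rw [← add_smul]; congr 1; ring
    have e1 : (k + 1) • Q - k • Q = Q := by rw [add_smul, one_smul]; abel
    rw [e2]
    generalize ladA β s x z k = A at ih ⊢
    generalize ladC β s x z k = C at ih ⊢
    generalize ladA β s x z (k + 1) = A' at ih' ⊢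
    generalize ladC β s x z (k + 1) = C' at ih' ⊢
    generalize k • Q = U at ih e1 ⊢
    generalize (k + 1) • Q = U' at ih' e1 ⊢
    rcases ih with ⟨hU, hC, hA⟩ | ⟨hU, hC, hA⟩
    · -- U = 0, U' = Q
      subst hU hC
      have hU' : U' = Q := by simpa using e1
      subst hU'
      rcases ih' with ⟨hU', -, -⟩ | ⟨-, hC', hA'⟩
      · exact absurd hU' hQ
      · right
        refine ⟨by simpa using hQ, by simpa using mul_ne_zero hA hC', ?_⟩
        have hA'' : A' = x * C' := by rw [← hA', ← hx]; ring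
        rw [add_zero, hA'', ← hx]
        ring
    · rcases ih' with ⟨hU', hC', hA'⟩ | ⟨hU', hC', hA'⟩
      · -- U' = 0, U = -Q
        subst hU' hC'
        have hUQ : U = -Q := by
          have : -U = Q := by simpa using e1
          rw [← this, neg_neg]
        right
        subst hUQ
        rw [M.X_neg] at hA
        refine ⟨by simpa using hQ, by simpa using mul_ne_zero hA' hC, ?_⟩
        have hA'' : A = x * C := by rw [← hA, ← hx]; ring
        rw [zero_add, M.X_neg, hA'', ← hx]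
        ring
      · set ξ := M.X U with hξ
        set ξ' := M.X U' with hξ'
        have hAe : A = ξ * (z * C) := hA.symm
        have hAe' : A' = ξ' * (z * C') := hA'.symm
        have hW : A * C' - A' * C = z * C * C' * (ξ - ξ') := by rw [hAe, hAe']; ring
        by_cases hξξ : ξ' = ξ
        · left
          have hUU : U' = -U := by
            rcases M.eq_or_eq_neg U' U hU' hU hξξ with h | h
            · exfalso; apply hQ; rw [← e1, h, sub_self]
            · exact h
          refine ⟨by rw [hUU, neg_add_cancel], by rw [hW, hξξ]; ring, ?_⟩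
          have h2U : U + U ≠ 0 := by
            intro h
            apply hQ
            rw [← e1, hUU]
            have : -U - U = -(U + U) := by abel
            rw [this, h, neg_zero]
          have hD : 4 * ξ ^ 3 + β * ξ ^ 2 + 4 * s * ξ ≠ 0 := fun h =>
            h2U ((M.D_eq_zero_iff U hU).mp h)
          have : 2 * (A * C' + A' * C) * (A * A' + s * z ^ 2 * C * C') + β * z * A * A' * C * C'
              - x * (A * C' - A' * C) ^ 2
              = z ^ 3 * (C * C') ^ 2 * (4 * ξ ^ 3 + β * ξ ^ 2 + 4 * s * ξ) := by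
            rw [hAe, hAe', hξξ]; ring
          rw [this]
          exact mul_ne_zero (mul_ne_zero (pow_ne_zero _ hz)
            (pow_ne_zero _ (mul_ne_zero hC hC'))) hD
        · right
          have hne : U' + U ≠ 0 := by
            intro h
            apply hξξ
            have : U' = -U := eq_neg_of_add_eq_zero_left h
            rw [hξ', this, M.X_neg]
          have hsub : ξ - ξ' ≠ 0 := sub_ne_zero.mpr (Ne.symm hξξ)
          refine ⟨hne, ?_, ?_⟩
          · rw [hW]
            exact pow_ne_zero _ (mul_ne_zero (mul_ne_zero (mul_ne_zero hz hC) hC') hsub)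
          · have := M.sum U' U hU' hU hξξ
            rw [e1, ← hξ, ← hξ'] at this
            rw [hW, hAe, hAe', ← hx]
            linear_combination z ^ 3 * (C * C') ^ 2 * this


/-- `ladW` detects `(2k+1)`-torsion. -/
theorem ladW_eq_zero_iff {Q : G} (hQ : Q ≠ 0) {x z : L} (hz : z ≠ 0) (hx : M.X Q * z = x)
    (k : ℕ) : ladW β s x z k = 0 ↔ (2 * k + 1) • Q = 0 := by
  have h := M.spec hQ hz hx (2 * k + 1)
  rw [ladC_two_mul_add_one] at h
  rcases h with ⟨h1, h2, -⟩ | ⟨h1, h2, -⟩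
  · exact ⟨fun _ => h1, fun _ => by simpa using h2⟩
  · exact ⟨fun h => absurd (by rw [h]; ring) h2, fun h => absurd h h1⟩

theorem eval_polW_eq_zero_iff {Q : G} (hQ : Q ≠ 0) (k : ℕ) :
    (polW β s k).eval (M.X Q) = 0 ↔ (2 * k + 1) • Q = 0 := by
  rw [eval_polW]
  exact M.ladW_eq_zero_iff hQ one_ne_zero (mul_one _) k

lemma polW_ne_zero (k : ℕ) (hp : ((2 * k + 1 : ℕ) : L) ≠ 0) : polW β s k ≠ 0 := by
  intro h
  apply hp
  rw [← coeff_polW β s k, h, coeff_zero]

include M in
/-- (F2) there are at most `(2k+1)²` points killed by `2k+1`. -/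
theorem torsion_finite_card_le (k : ℕ) (hp : ((2 * k + 1 : ℕ) : L) ≠ 0) :
    {Q : G | (2 * k + 1) • Q = 0}.Finite ∧ {Q : G | (2 * k + 1) • Q = 0}.ncard ≤ (2 * k + 1) ^ 2 := by
  classical
  set W := polW β s k with hW
  have hW0 : W ≠ 0 := polW_ne_zero k hp
  set S := W.roots.toFinset with hS
  have hScard : S.card ≤ 2 * k ^ 2 + 2 * k :=
    (Multiset.toFinset_card_le _).trans ((card_roots' W).trans (natDegree_polW_le β s k))
  let g : L → G := fun ξ => if h : ∃ Q, Q ≠ 0 ∧ M.X Q = ξ then h.choose else 0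
  set F : Finset G := insert 0 (S.image g ∪ S.image (fun ξ => - g ξ)) with hF
  have hsub : {Q : G | (2 * k + 1) • Q = 0} ⊆ (F : Set G) := by
    intro Q hQ
    replace hQ : (2 * k + 1) • Q = 0 := hQ
    by_cases hQ0 : Q = 0
    · simp [hF, hQ0]
    have hroot : M.X Q ∈ S := by
      rw [hS, Multiset.mem_toFinset, mem_roots hW0, IsRoot.def]
      exact (M.eval_polW_eq_zero_iff hQ0 k).mpr hQ
    have hex : ∃ Q', Q' ≠ 0 ∧ M.X Q' = M.X Q := ⟨Q, hQ0, rfl⟩
    have hg : g (M.X Q) = hex.choose := dif_pos hex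
    obtain ⟨h1, h2⟩ := hex.choose_spec
    rw [← hg] at h1 h2
    rcases M.eq_or_eq_neg Q _ hQ0 h1 h2.symm with h | h
    · simp only [hF, Finset.coe_insert, Finset.coe_union, Finset.coe_image]
      right; left
      exact ⟨M.X Q, hroot, h.symm⟩
    · simp only [hF, Finset.coe_insert, Finset.coe_union, Finset.coe_image]
      right; right
      exact ⟨M.X Q, hroot, h.symm⟩
  refine ⟨F.finite_toSet.subset hsub, ?_⟩
  calc {Q : G | (2 * k + 1) • Q = 0}.ncard ≤ (F : Set G).ncard :=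
        Set.ncard_le_ncard hsub F.finite_toSet
    _ = F.card := Set.ncard_coe_finset F
    _ ≤ (S.image g ∪ S.image (fun ξ => - g ξ)).card + 1 := Finset.card_insert_le _ _
    _ ≤ (S.image g).card + (S.image (fun ξ => - g ξ)).card + 1 := by
        gcongr; exact Finset.card_union_le _ _
    _ ≤ S.card + S.card + 1 := by
        gcongr <;> exact Finset.card_image_le
    _ ≤ (2 * k + 1) ^ 2 := by nlinarith

include M in
/-- (F1) existence of a nonzero point killed by `2k+1`. -/
theorem exists_torsion [IsAlgClosed L] (hsurj : ∀ ξ : L, ∃ Q, Q ≠ 0 ∧ M.X Q = ξ)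
    (k : ℕ) (hk : 1 ≤ k) (hp : ((2 * k + 1 : ℕ) : L) ≠ 0) :
    ∃ Q : G, Q ≠ 0 ∧ (2 * k + 1) • Q = 0 := by
  have hdeg : (polW β s k).natDegree = 2 * k ^ 2 + 2 * k := by
    refine le_antisymm (natDegree_polW_le β s k) (le_natDegree_of_ne_zero ?_)
    rw [coeff_polW]; exact hp
  have hdeg' : (polW β s k).degree ≠ 0 := by
    rw [degree_eq_natDegree (polW_ne_zero k hp), hdeg]
    have : 0 < 2 * k ^ 2 + 2 * k := by positivity
    exact_mod_cast this.ne'
  obtain ⟨ξ, hξ⟩ := IsAlgClosed.exists_root _ hdeg'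
  obtain ⟨Q, hQ, rfl⟩ := hsurj ξ
  exact ⟨Q, hQ, (M.eval_polW_eq_zero_iff hQ k).mp hξ⟩


section Valuation

variable {Γ₀ : Type*} [LinearOrderedCommGroupWithZero Γ₀] {v : Valuation L Γ₀}

/-- (F3) the kernel of reduction has no torsion prime to the residue characteristic, and is
stable under multiplication by such integers. -/
theorem one_lt_val_nsmul (hβ : v β ≤ 1) (hs : v s ≤ 1) {Q : G} (hQ : Q ≠ 0)
    (hX : 1 < v (M.X Q)) {n : ℕ} (hn : v (n : L) = 1) :
    n • Q ≠ 0 ∧ 1 < v (M.X (n • Q)) := by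
  have hX0 : M.X Q ≠ 0 := by
    intro h; rw [h, map_zero] at hX; exact absurd hX (by simp)
  have hu : v (M.X Q)⁻¹ < 1 := by
    rw [map_inv₀]
    exact inv_lt_one_of_one_lt₀ hX
  have hA := val_ladA_eq_one hβ hs hu n
  have hC := val_ladC_eq_one hβ hs hu hn
  have hC0 : ladC β s 1 (M.X Q)⁻¹ n ≠ 0 := by
    intro h; rw [h, map_zero] at hC; exact zero_ne_one hC
  rcases M.spec hQ (inv_ne_zero hX0) (mul_inv_cancel₀ hX0) n with ⟨-, h, -⟩ | ⟨h1, -, h3⟩
  · exact absurd h hC0
  · refine ⟨h1, ?_⟩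
    have := congrArg v h3
    rw [map_mul, map_mul, hC, hA, mul_one] at this
    by_contra hle
    rw [not_lt] at hle
    have : v (M.X (n • Q)) * v (M.X Q)⁻¹ < 1 :=
      lt_of_le_of_lt (mul_le_of_le_one_left zero_le hle) hu
    simp_all

/-- (F4) Newton polygon bound. -/
theorem val_mul_prod_le_one (hβ : v β ≤ 1) (hs : v s ≤ 1) (k : ℕ) (S : Finset L)
    (hS : ∀ r ∈ S, 1 ≤ v r ∧ ∃ Q : G, Q ≠ 0 ∧ (2 * k + 1) • Q = 0 ∧ M.X Q = r) :
    v ((2 * k + 1 : ℕ) : L) * ∏ r ∈ S, v r ≤ 1 := by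
  classical
  by_cases hp : ((2 * k + 1 : ℕ) : L) = 0
  · rw [hp, map_zero, zero_mul]; exact zero_le
  let β' : v.integer := ⟨β, hβ⟩
  let s' : v.integer := ⟨s, hs⟩
  let g : (v.integer)[X] := ladW (C β') (C s') 1 Polynomial.X k
  have hev : ∀ a : v.integer, ((g.eval a : v.integer) : L) = ladW β s 1 (a : L) k := by
    intro a
    have h1 := map_ladW (C β') (C s') 1 Polynomial.X (evalRingHom a) k
    simp only [coe_evalRingHom, eval_C, eval_one, eval_X] at h1
    have h2 := map_ladW β' s' 1 a v.integer.subtype k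
    simp only [map_one] at h2
    change ((g.eval a : v.integer) : L) = _
    rw [show g.eval a = ladW β' s' 1 a k from h1]
    exact h2
  have hg0 : ((g.eval 0 : v.integer) : L) = ((2 * k + 1 : ℕ) : L) := by
    rw [hev 0]; exact ladW_one_zero β s k
  have hgne : g ≠ 0 := by
    intro h
    apply hp
    rw [← hg0, h, eval_zero]; rfl
  have hr0 : ∀ r ∈ S, r ≠ 0 := by
    intro r hr h
    have := (hS r hr).1
    rw [h, map_zero] at this
    exact absurd this (by simp)
  have hinv : ∀ r : L, r ∈ S → v r⁻¹ ≤ 1 := by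
    intro r hr
    rw [map_inv₀]
    exact inv_le_one_of_one_le₀ (hS r hr).1
  let ι : {r // r ∈ S} → v.integer := fun r => ⟨(r : L)⁻¹, hinv r r.2⟩
  have hι : Function.Injective ι := by
    intro a b hab
    have : (a : L)⁻¹ = (b : L)⁻¹ := congrArg Subtype.val hab
    exact Subtype.ext (inv_injective this)
  let T : Finset v.integer := S.attach.image ι
  have hTroots : T.val ≤ g.roots := by
    rw [Multiset.le_iff_subset T.nodup]
    intro a ha
    obtain ⟨r, -, rfl⟩ := Finset.mem_image.mp ha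
    rw [mem_roots hgne, IsRoot.def]
    apply Subtype.ext
    rw [hev]
    obtain ⟨-, Q, hQ, hpQ, hXQ⟩ := hS r r.2
    have hr := hr0 r r.2
    change ladW β s 1 (r : L)⁻¹ k = 0
    exact (M.ladW_eq_zero_iff hQ (inv_ne_zero hr) (by rw [hXQ, mul_inv_cancel₀ hr]) k).mpr hpQ
  obtain ⟨h, hh⟩ := (Multiset.prod_X_sub_C_dvd_iff_le_roots hgne T.val).mpr hTroots
  have hval : v ((2 * k + 1 : ℕ) : L) = (∏ r ∈ S, (v r)⁻¹) * v ((h.eval 0 : v.integer) : L) := by
    rw [← hg0, hh, eval_mul, eval_multiset_prod]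
    simp only [Multiset.map_map, Function.comp, eval_sub, eval_X, eval_C, zero_sub]
    change v (((Multiset.map (fun a => -a) T.val).prod * h.eval 0 : v.integer) : L) = _
    rw [show (Multiset.map (fun a : v.integer => -a) T.val).prod = ∏ a ∈ T, (-a) from rfl,
      Finset.prod_image (fun a _ b _ hab => hι hab)]
    push_cast
    rw [map_mul, map_prod]
    congr 1
    rw [← Finset.prod_attach S (fun r => (v r)⁻¹)]
    refine Finset.prod_congr rfl fun r _ => ?_
    change v (-(r : L)⁻¹) = _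
    rw [Valuation.map_neg, map_inv₀]
  have hne : ∀ r ∈ S, v r ≠ 0 := fun r hr => (Valuation.ne_zero_iff v).mpr (hr0 r hr)
  rw [hval, mul_comm (∏ r ∈ S, (v r)⁻¹), mul_assoc, ← Finset.prod_mul_distrib]
  rw [Finset.prod_congr rfl (fun r hr => inv_mul_cancel₀ (hne r hr)), Finset.prod_const_one, mul_one]
  exact (h.eval 0).2

end Valuation

end XOnly

end Fermat.Agent.S13
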