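import Fermat.Agent.S13.Defs
import Fermat.Agent.S13.LadderCore

/-!
# S13, piece B: consequences of the `x`-only ladder for a `WModel`
-/

set_option autoImplicit false

namespace Fermat.Agent.S13

variable {G : Type*} [AddCommGroup G] {L : Type*} [Field L] {a₁ a₂ s : L}
variable {Γ₀ : Type*} [LinearOrderedCommGroupWithZero Γ₀]

/-- The `x`-only data of a `WModel`. -/
def WModel.toXOnly (M : WModel G L a₁ a₂ s) (hs0 : s ≠ 0)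
    (hdisc : (a₁ ^ 2 + 4 * a₂) ^ 2 - 64 * s ≠ 0) : XOnly G L (a₁ ^ 2 + 4 * a₂) s where
  X := M.X
  X_neg := M.X_neg
  eq_or_eq_neg := fun _ _ hP hQ h => M.eq_or_eq_neg hP hQ h
  sum := fun _ _ hP hQ h => M.add_sub_sum hP hQ h
  dbl := fun _ hP h => M.dbl_mul hP h
  D_eq_zero_iff := fun P hP => by
    rw [← M.H_sq hP, M.add_self_eq_zero_iff hP]
    exact pow_eq_zero_iff (two_ne_zero)
  nonsing := fun ξ h h' => by
    have h1 : ξ ^ 2 = s := sub_eq_zero.mp h'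
    have h2 : s * (8 * ξ + (a₁ ^ 2 + 4 * a₂)) = 0 := by
      linear_combination h - (4 * ξ + (a₁ ^ 2 + 4 * a₂)) * h1
    have h3 : 8 * ξ + (a₁ ^ 2 + 4 * a₂) = 0 := (mul_eq_zero.mp h2).resolve_left hs0
    apply hdisc
    linear_combination ((a₁ ^ 2 + 4 * a₂) - 8 * ξ) * h3 + 64 * h1

@[simp] lemma WModel.toXOnly_X (M : WModel G L a₁ a₂ s) (hs0 : s ≠ 0)
    (hdisc : (a₁ ^ 2 + 4 * a₂) ^ 2 - 64 * s ≠ 0) : (M.toXOnly hs0 hdisc).X = M.X := rfl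

lemma lad_val_beta_le (v : Valuation L Γ₀) (h1 : v a₁ ≤ 1) (h2 : v a₂ ≤ 1) :
    v (a₁ ^ 2 + 4 * a₂) ≤ 1 := by
  have h1' : a₁ ∈ v.integer := h1
  have h2' : a₂ ∈ v.integer := h2
  have : a₁ ^ 2 + 4 * a₂ ∈ v.integer := by
    apply_rules [add_mem, mul_mem, pow_mem, ofNat_mem]
  exact this

section B
variable (M : WModel G L a₁ a₂ s)

include M in
theorem WModel.card_torsion_le [CharZero L] (hs0 : s ≠ 0)
    (hdisc : (a₁ ^ 2 + 4 * a₂) ^ 2 - 64 * s ≠ 0) {n : ℕ} (hn : Odd n) :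
    {Q : G | n • Q = 0}.Finite ∧ {Q : G | n • Q = 0}.ncard ≤ n ^ 2 := by
  obtain ⟨k, rfl⟩ := hn
  exact (M.toXOnly hs0 hdisc).torsion_finite_card_le k (Nat.cast_ne_zero.mpr (by omega))

include M in
theorem WModel.exists_torsion [IsAlgClosed L] [CharZero L] (hs0 : s ≠ 0)
    (hdisc : (a₁ ^ 2 + 4 * a₂) ^ 2 - 64 * s ≠ 0) {n : ℕ} (hn : Odd n) (hn1 : 1 < n) :
    ∃ Q : G, Q ≠ 0 ∧ n • Q = 0 := by
  obtain ⟨k, rfl⟩ := hn
  refine (M.toXOnly hs0 hdisc).exists_torsion ?_ k (by omega) (Nat.cast_ne_zero.mpr (by omega))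
  intro ξ
  obtain ⟨y, hy⟩ := IsAlgClosed.exists_root
    (Polynomial.X ^ 2 + Polynomial.C (a₁ * ξ) * Polynomial.X
      - Polynomial.C (ξ ^ 3 + a₂ * ξ ^ 2 + s * ξ) : Polynomial L) (by
      have : (Polynomial.X ^ 2 + Polynomial.C (a₁ * ξ) * Polynomial.X
          - Polynomial.C (ξ ^ 3 + a₂ * ξ ^ 2 + s * ξ) : Polynomial L).degree = 2 := by
        compute_degree!
      rw [this]; norm_num)
  simp only [Polynomial.IsRoot.def, Polynomial.eval_sub, Polynomial.eval_add, Polynomial.eval_pow,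
    Polynomial.eval_X, Polynomial.eval_mul, Polynomial.eval_C] at hy
  obtain ⟨P, hP, hX, -⟩ := M.surj ξ y (by linear_combination hy)
  exact ⟨P, hP, hX⟩

theorem WModel.prod_val_le [IsAlgClosed L] [CharZero L] (hs0 : s ≠ 0)
    (hdisc : (a₁ ^ 2 + 4 * a₂) ^ 2 - 64 * s ≠ 0) (v : Valuation L Γ₀)
    (h1 : v a₁ ≤ 1) (h2 : v a₂ ≤ 1) (hs : v s ≤ 1) {n : ℕ} (hn : Odd n) (hn1 : 1 < n)
    (hall : ∀ Q : G, Q ≠ 0 → n • Q = 0 → 1 < v (M.X Q))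
    (S : Finset L) (hS : ∀ x ∈ S, ∃ Q : G, Q ≠ 0 ∧ n • Q = 0 ∧ M.X Q = x) :
    v (n : L) * ∏ x ∈ S, v x ≤ 1 := by
  obtain ⟨k, rfl⟩ := hn
  refine (M.toXOnly hs0 hdisc).val_mul_prod_le_one (lad_val_beta_le v h1 h2) hs k S ?_
  intro r hr
  obtain ⟨Q, hQ, hnQ, hX⟩ := hS r hr
  exact ⟨hX ▸ (hall Q hQ hnQ).le, Q, hQ, hnQ, hX⟩

/-- Stronger form of `prod_val_le`: only the members of `S` need to be non-integral or units. -/
theorem WModel.prod_val_le' (hs0 : s ≠ 0)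
    (hdisc : (a₁ ^ 2 + 4 * a₂) ^ 2 - 64 * s ≠ 0) (v : Valuation L Γ₀)
    (h1 : v a₁ ≤ 1) (h2 : v a₂ ≤ 1) (hs : v s ≤ 1) {n : ℕ} (hn : Odd n)
    (S : Finset L) (hS : ∀ x ∈ S, 1 ≤ v x ∧ ∃ Q : G, Q ≠ 0 ∧ n • Q = 0 ∧ M.X Q = x) :
    v (n : L) * ∏ x ∈ S, v x ≤ 1 := by
  obtain ⟨k, rfl⟩ := hn
  exact (M.toXOnly hs0 hdisc).val_mul_prod_le_one (lad_val_beta_le v h1 h2) hs k S hS

/-- multiples (by integers prime to the residue characteristic) of non-integral points are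
nonzero and non-integral. -/
theorem WModel.one_lt_val_nsmul (hs0 : s ≠ 0)
    (hdisc : (a₁ ^ 2 + 4 * a₂) ^ 2 - 64 * s ≠ 0) (v : Valuation L Γ₀)
    (h1 : v a₁ ≤ 1) (h2 : v a₂ ≤ 1) (hs : v s ≤ 1) {Q : G} (hQ : Q ≠ 0)
    (hX : 1 < v (M.X Q)) {n : ℕ} (hn : v (n : L) = 1) :
    n • Q ≠ 0 ∧ 1 < v (M.X (n • Q)) :=
  (M.toXOnly hs0 hdisc).one_lt_val_nsmul (lad_val_beta_le v h1 h2) hs hQ hX hn

end B

end Fermat.Agent.S13
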