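import Fermat.Agent.S13.Defs

/-!
# S13, piece D (first half): how an inertia-like automorphism moves points
-/

set_option autoImplicit false

namespace Fermat.Agent.S13

variable {G : Type*} [AddCommGroup G] {L : Type*} [Field L] {a₁ a₂ s : L}
variable {Γ₀ : Type*} [LinearOrderedCommGroupWithZero Γ₀]

section val
variable (v : Valuation L Γ₀)

lemma val_mul_le_one {a b : L} (ha : v a ≤ 1) (hb : v b ≤ 1) : v (a * b) ≤ 1 := by
  rw [map_mul]; exact mul_le_one' ha hb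

lemma val_pow_le_one {a : L} (ha : v a ≤ 1) (n : ℕ) : v (a ^ n) ≤ 1 := by
  rw [map_pow]; exact pow_le_one' ha n

lemma val_add_le_one {a b : L} (ha : v a ≤ 1) (hb : v b ≤ 1) : v (a + b) ≤ 1 :=
  v.map_add_le ha hb

lemma val_sub_le_one {a b : L} (ha : v a ≤ 1) (hb : v b ≤ 1) : v (a - b) ≤ 1 :=
  v.map_sub_le ha hb

lemma val_mul_lt_one {a b : L} (ha : v a ≤ 1) (hb : v b < 1) : v (a * b) < 1 := by
  rw [map_mul]; exact (mul_le_of_le_one_left' ha).trans_lt hb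

lemma val_mul_lt_one' {a b : L} (ha : v a < 1) (hb : v b ≤ 1) : v (a * b) < 1 := by
  rw [map_mul]; exact (mul_le_of_le_one_right' hb).trans_lt ha

lemma val_add_lt_one {a b : L} (ha : v a < 1) (hb : v b < 1) : v (a + b) < 1 :=
  v.map_add_lt ha hb

lemma val_sub_lt_one {a b : L} (ha : v a < 1) (hb : v b < 1) : v (a - b) < 1 :=
  v.map_sub_lt ha hb

lemma val_natCast_le_one (n : ℕ) : v (n : L) ≤ 1 := by
  induction n with
  | zero => simp
  | succ n ih => push_cast; exact v.map_add_le ih (by simp)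

lemma val_ofNat_le_one (n : ℕ) [n.AtLeastTwo] : v (OfNat.ofNat n : L) ≤ 1 := by
  have := val_natCast_le_one v (OfNat.ofNat n)
  rwa [Nat.cast_ofNat] at this

lemma val_unit_add {a b : L} (ha : v a = 1) (hb : v b < 1) : v (a + b) = 1 := by
  rw [← ha]; exact v.map_add_eq_of_lt_left (by rw [ha]; exact hb)

lemma lt_sq_of_one_lt {x : Γ₀} (hx : 1 < x) : x < x * x := by
  have h0 : (0 : Γ₀) < x := zero_lt_one.trans hx
  calc x = x * 1 := (mul_one x).symm
    _ < x * x := (mul_lt_mul_iff_of_pos_left h0).mpr hx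

lemma one_lt_val_quad {a lam c : L} (h1 : v a ≤ 1) (hc : v c ≤ 1) (hl : 1 < v lam) :
    1 < v (lam ^ 2 + a * lam - c) := by
  have h2 : v (a * lam - c) ≤ v lam := by
    refine v.map_sub_le ?_ (hc.trans hl.le)
    rw [map_mul]; exact mul_le_of_le_one_left' h1
  have h3 : v lam < v (lam ^ 2) := by
    rw [map_pow, sq]; exact lt_sq_of_one_lt hl
  have h4 : v (lam ^ 2 + (a * lam - c)) = v (lam ^ 2) :=
    v.map_add_eq_of_lt_left (h2.trans_lt h3)
  have e : lam ^ 2 + a * lam - c = lam ^ 2 + (a * lam - c) := by ring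
  rw [e, h4]
  exact hl.trans h3

/-- slope at a point close to the node -/
lemma node_slope {a₁ a₂ s x y : L} (h1 : v a₁ ≤ 1) (h2 : v a₂ ≤ 1)
    (hβ : v (a₁ ^ 2 + 4 * a₂) = 1)
    (e : y ^ 2 + a₁ * x * y = x ^ 3 + a₂ * x ^ 2 + s * x)
    (hlo : v s < v x) (hhi : v x < 1) :
    (y / x) ^ 2 + a₁ * (y / x) = x + a₂ + s / x ∧ v (s / x) < 1 ∧ v (y / x) ≤ 1 ∧
      v (2 * (y / x) + a₁) = 1 := by
  have hx0 : x ≠ 0 := by
    intro h; rw [h, map_zero] at hlo; exact not_lt_zero hlo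
  have hvx0 : 0 < v x := (Valuation.pos_iff v).mpr hx0
  have e1 : (y / x) ^ 2 + a₁ * (y / x) = x + a₂ + s / x := by
    field_simp
    linear_combination e
  have hsx : v (s / x) < 1 := by
    rw [map_div₀]; exact (div_lt_one₀ hvx0).mpr hlo
  have hc : v (x + a₂ + s / x) ≤ 1 :=
    val_add_le_one v (val_add_le_one v hhi.le h2) hsx.le
  have hl : v (y / x) ≤ 1 := by
    by_contra hcon
    rw [not_le] at hcon
    have := one_lt_val_quad v h1 hc hcon
    rw [e1, sub_self, map_zero] at this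
    exact not_lt_zero this
  refine ⟨e1, hsx, hl, ?_⟩
  have e2 : (2 * (y / x) + a₁) ^ 2 = (a₁ ^ 2 + 4 * a₂) + 4 * (x + s / x) := by
    linear_combination 4 * e1
  have h3 : v ((2 * (y / x) + a₁) ^ 2) = 1 := by
    rw [e2]
    exact val_unit_add v hβ (val_mul_lt_one v (val_ofNat_le_one v 4) (val_add_lt_one v hhi hsx))
  rw [map_pow] at h3
  exact (pow_eq_one_iff.mp h3).resolve_right two_ne_zero

/-- the key computation at the node -/
lemma node_val {a₁ a₂ s x y x' y' : L} (h1 : v a₁ ≤ 1) (h2 : v a₂ ≤ 1)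
    (hβ : v (a₁ ^ 2 + 4 * a₂) = 1)
    (e : y ^ 2 + a₁ * x * y = x ^ 3 + a₂ * x ^ 2 + s * x)
    (e' : y' ^ 2 + a₁ * x' * y' = x' ^ 3 + a₂ * x' ^ 2 + s * x')
    (hlo : v s < v x) (hhi : v x < 1) (hvx : v x' = v x) (hlam : v (y' / x' - y / x) < 1)
    (hne : x' ≠ x) :
    v (((y' + y + a₁ * x) / (x' - x)) ^ 2 + a₁ * ((y' + y + a₁ * x) / (x' - x)) - a₂ - x' - x)
      = (v x / v (x' - x)) ^ 2 ∧ 1 ≤ v x / v (x' - x) := by
  obtain ⟨e1, hsx, hl, hu⟩ := node_slope v h1 h2 hβ e hlo hhi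
  obtain ⟨e1', hsx', hl', hu'⟩ := node_slope v h1 h2 hβ e' (hvx ▸ hlo) (hvx ▸ hhi)
  have hx0 : x ≠ 0 := by
    intro h; rw [h, map_zero] at hlo; exact not_lt_zero hlo
  have hx0' : x' ≠ 0 := by
    intro h; rw [h, map_zero] at hvx; rw [← hvx] at hlo; exact not_lt_zero hlo
  have hd : x' - x ≠ 0 := sub_ne_zero.mpr hne
  have hvd0 : 0 < v (x' - x) := (Valuation.pos_iff v).mpr hd
  have hvx0 : 0 < v x := (Valuation.pos_iff v).mpr hx0
  set lam := y / x with hlamdef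
  set lam' := y' / x' with hlamdef'
  have hy : y = lam * x := by rw [hlamdef]; field_simp
  have hy' : y' = lam' * x' := by rw [hlamdef']; field_simp
  have hr : 1 ≤ v x / v (x' - x) := by
    rw [one_le_div₀ hvd0]
    exact v.map_sub_le hvx.le le_rfl
  -- W and W + u
  have hW : v ((lam' + lam + a₁) * x / (x' - x)) = v x / v (x' - x) := by
    have : v (lam' + lam + a₁) = 1 := by
      have e3 : lam' + lam + a₁ = (2 * lam + a₁) + (lam' - lam) := by ring
      rw [e3]; exact val_unit_add v hu hlam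
    rw [map_div₀, map_mul, this, one_mul]
  have hWu : v (((2 * lam' + a₁) * x' + (lam - lam') * x) / (x' - x)) = v x / v (x' - x) := by
    have h3 : v ((2 * lam' + a₁) * x') = v x := by rw [map_mul, hu', one_mul, hvx]
    have h4 : v ((lam - lam') * x) < v x := by
      rw [map_mul, Valuation.map_sub_swap]
      calc v (lam' - lam) * v x < 1 * v x := (mul_lt_mul_iff_of_pos_right hvx0).mpr hlam
        _ = v x := one_mul _
    have h5 : v ((2 * lam' + a₁) * x' + (lam - lam') * x) = v x := by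
      rw [← h3]; exact v.map_add_eq_of_lt_left (by rw [h3]; exact h4)
    rw [map_div₀, h5]
  have key : ((y' + y + a₁ * x) / (x' - x)) ^ 2 + a₁ * ((y' + y + a₁ * x) / (x' - x)) - a₂ - x' - x
      = ((lam' + lam + a₁) * x / (x' - x)) *
          (((2 * lam' + a₁) * x' + (lam - lam') * x) / (x' - x)) + (s / x' - x) := by
    have e4 : s / x' = lam' ^ 2 + a₁ * lam' - x' - a₂ := by linear_combination -e1'
    rw [e4, hy, hy']
    field_simp
    ring
  refine ⟨?_, hr⟩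
  rw [key]
  have hsmall : v (s / x' - x) < 1 := val_sub_lt_one v hsx' hhi
  have hbig : v (((lam' + lam + a₁) * x / (x' - x)) *
          (((2 * lam' + a₁) * x' + (lam - lam') * x) / (x' - x))) = (v x / v (x' - x)) ^ 2 := by
    rw [map_mul, hW, hWu, sq]
  rw [← hbig]
  apply v.map_add_eq_of_lt_left
  rw [hbig]
  exact hsmall.trans_le (one_le_pow₀ hr)

end val

namespace WModel
variable (M : WModel G L a₁ a₂ s) (v : Valuation L Γ₀)

lemma val_Y_le_one (h1 : v a₁ ≤ 1) (h2 : v a₂ ≤ 1) (hs : v s ≤ 1) {P : G} (hP : P ≠ 0)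
    (hX : v (M.X P) ≤ 1) : v (M.Y P) ≤ 1 := by
  by_contra hcon
  rw [not_le] at hcon
  have e := M.eqn P hP
  have e2 : M.Y P ^ 2 = (M.X P ^ 3 + a₂ * M.X P ^ 2 + s * M.X P) - a₁ * M.X P * M.Y P := by
    linear_combination e
  have hA : v (M.X P ^ 3 + a₂ * M.X P ^ 2 + s * M.X P) ≤ 1 :=
    val_add_le_one v (val_add_le_one v (val_pow_le_one v hX 3)
      (val_mul_le_one v h2 (val_pow_le_one v hX 2))) (val_mul_le_one v hs hX)
  have hB : v (a₁ * M.X P * M.Y P) ≤ v (M.Y P) := by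
    rw [map_mul]; exact mul_le_of_le_one_left' (val_mul_le_one v h1 hX)
  have h3 : v (M.Y P ^ 2) ≤ v (M.Y P) := by
    rw [e2]; exact v.map_sub_le (hA.trans hcon.le) hB
  rw [map_pow, sq] at h3
  exact absurd h3 (not_le.mpr (lt_sq_of_one_lt hcon))

end WModel

section D
variable {M : WModel G L a₁ a₂ s} {v : Valuation L Γ₀}

/-- D1: a point of nonsingular, non-2-torsion reduction moves inside the kernel of reduction. -/
theorem Act.sub_mem_E1_of_unit (A : Act M v) (h1 : v a₁ ≤ 1) (h2 : v a₂ ≤ 1) (hs : v s ≤ 1)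
    {P : G} (hP : P ≠ 0) (hX : v (M.X P) ≤ 1) (hH : v (2 * M.Y P + a₁ * M.X P) = 1) :
    M.E1 v (A.τ P - P) := by
  have hY : v (M.Y P) ≤ 1 := M.val_Y_le_one v h1 h2 hs hP hX
  have hτ : A.τ P ≠ 0 := A.τ_ne P hP
  have hXτ := A.X_τ P hP
  have hYτ := A.Y_τ P hP
  have hx : v (M.X (A.τ P) - M.X P) < 1 := by rw [hXτ]; exact A.inert _ hX
  have hy : v (M.Y (A.τ P) - M.Y P) < 1 := by rw [hYτ]; exact A.inert _ hY
  have hX' : v (M.X (A.τ P)) ≤ 1 := by rw [hXτ, A.v_φ]; exact hX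
  have hnum : v (M.Y (A.τ P) + M.Y P + a₁ * M.X P) = 1 := by
    have e : M.Y (A.τ P) + M.Y P + a₁ * M.X P
        = (2 * M.Y P + a₁ * M.X P) + (M.Y (A.τ P) - M.Y P) := by ring
    rw [e]; exact val_unit_add v hH hy
  by_cases hxx : M.X (A.τ P) = M.X P
  · rcases M.eq_or_eq_neg hτ hP hxx with h | h
    · left; rw [h, sub_self]
    · exfalso
      have h3 := M.Y_neg P hP
      rw [← h] at h3
      rw [h3] at hnum
      have : -M.Y P - a₁ * M.X P + M.Y P + a₁ * M.X P = 0 := by ring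
      rw [this, map_zero] at hnum
      exact zero_ne_one hnum
  · right
    rw [M.sub hτ hP hxx]
    have hd : M.X (A.τ P) - M.X P ≠ 0 := sub_ne_zero.mpr hxx
    have hl : 1 < v ((M.Y (A.τ P) + M.Y P + a₁ * M.X P) / (M.X (A.τ P) - M.X P)) := by
      rw [map_div₀, hnum, one_div]
      exact (one_lt_inv₀ ((Valuation.pos_iff v).mpr hd)).mpr hx
    have := one_lt_val_quad v (c := a₂ + M.X (A.τ P) + M.X P) h1
      (val_add_le_one v (val_add_le_one v h2 hX') hX) hl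
    convert this using 2
    ring

theorem Act.node_aux (A : Act M v) (h1 : v a₁ ≤ 1) (h2 : v a₂ ≤ 1)
    (hβ : v (a₁ ^ 2 + 4 * a₂) = 1) {P : G} (hP : P ≠ 0)
    (hlo : v s < v (M.X P)) (hhi : v (M.X P) < 1) :
    A.τ P = P ∨ (M.X (A.τ P) ≠ M.X P ∧
      v (M.X (A.τ P - P)) = (v (M.X P) / v (M.X (A.τ P) - M.X P)) ^ 2 ∧
      1 ≤ v (M.X P) / v (M.X (A.τ P) - M.X P)) := by
  have hτ : A.τ P ≠ 0 := A.τ_ne P hP
  have hXτ := A.X_τ P hP
  have hYτ := A.Y_τ P hP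
  obtain ⟨-, -, hl, hu⟩ := node_slope v h1 h2 hβ (M.eqn P hP) hlo hhi
  have hx0 : M.X P ≠ 0 := by
    intro h; rw [h, map_zero] at hlo; exact not_lt_zero hlo
  have hlam : v (M.Y (A.τ P) / M.X (A.τ P) - M.Y P / M.X P) < 1 := by
    rw [hXτ, hYτ, ← map_div₀]; exact A.inert _ hl
  have hvx : v (M.X (A.τ P)) = v (M.X P) := by rw [hXτ, A.v_φ]
  by_cases hxx : M.X (A.τ P) = M.X P
  · left
    rcases M.eq_or_eq_neg hτ hP hxx with h | h
    · exact h
    · exfalso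
      have h3 := M.Y_neg P hP
      rw [← h] at h3
      rw [h3, hxx] at hlam
      have e : (-M.Y P - a₁ * M.X P) / M.X P - M.Y P / M.X P = -(2 * (M.Y P / M.X P) + a₁) := by
        field_simp
        ring
      rw [e, Valuation.map_neg, hu] at hlam
      exact lt_irrefl _ hlam
  · right
    refine ⟨hxx, ?_⟩
    rw [M.sub hτ hP hxx]
    exact node_val v h1 h2 hβ (M.eqn P hP) (M.eqn _ hτ) hlo hhi hvx hlam hxx

/-- D2: a point reducing to the node moves inside `E⁰` (same branch argument). -/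
theorem Act.one_le_of_node (A : Act M v) (h1 : v a₁ ≤ 1) (h2 : v a₂ ≤ 1)
    (hβ : v (a₁ ^ 2 + 4 * a₂) = 1) (hs : v s < 1) {P : G} (hP : P ≠ 0)
    (hlo : v s < v (M.X P)) (hhi : v (M.X P) < 1) :
    A.τ P = P ∨ 1 ≤ v (M.X (A.τ P - P)) := by
  rcases A.node_aux h1 h2 hβ hP hlo hhi with h | ⟨-, h, hr⟩
  · exact Or.inl h
  · right; rw [h]; exact one_le_pow₀ hr

/-- D3: the same with a uniformiser fixed by the automorphism. -/
theorem Act.sub_mem_E1_of_node (A : Act M v) (h1 : v a₁ ≤ 1) (h2 : v a₂ ≤ 1)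
    (hβ : v (a₁ ^ 2 + 4 * a₂) = 1) (hs : v s < 1) {P : G} (hP : P ≠ 0)
    (hlo : v s < v (M.X P)) (hhi : v (M.X P) < 1) {ϖ : L} (hϖ : A.φ ϖ = ϖ)
    (hvϖ : v ϖ = v (M.X P)) : M.E1 v (A.τ P - P) := by
  rcases A.node_aux h1 h2 hβ hP hlo hhi with h | ⟨hne, h, -⟩
  · left; rw [h, sub_self]
  · right
    rw [h]
    have hx0 : M.X P ≠ 0 := by
      intro h; rw [h, map_zero] at hlo; exact not_lt_zero hlo
    have hvx0 : 0 < v (M.X P) := (Valuation.pos_iff v).mpr hx0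
    have hϖ0 : ϖ ≠ 0 := by
      intro h0; rw [h0, map_zero] at hvϖ; exact hvx0.ne hvϖ
    have hd : M.X (A.τ P) - M.X P ≠ 0 := sub_ne_zero.mpr hne
    have hvd0 : 0 < v (M.X (A.τ P) - M.X P) := (Valuation.pos_iff v).mpr hd
    have h3 : v (M.X P / ϖ) ≤ 1 := by rw [map_div₀, hvϖ, div_self hvx0.ne']
    have h4 := A.inert _ h3
    rw [map_div₀, hϖ, ← A.X_τ P hP, ← sub_div, map_div₀, hvϖ, div_lt_one₀ hvx0] at h4
    have h5 : 1 < v (M.X P) / v (M.X (A.τ P) - M.X P) := (one_lt_div₀ hvd0).mpr h4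
    exact one_lt_pow₀ h5 two_ne_zero

/-- D4 -/
theorem WModel.H_unit_of_good (M : WModel G L a₁ a₂ s) (h1 : v a₁ ≤ 1) (h2 : v a₂ ≤ 1)
    (hs : v s = 1) (hdisc : v ((a₁ ^ 2 + 4 * a₂) ^ 2 - 64 * s) = 1) {P : G} (hP : P ≠ 0)
    (h2P : P + P ≠ 0) (hX : v (M.X P) ≤ 1) (hX2 : v (M.X (P + P)) ≤ 1) :
    v (2 * M.Y P + a₁ * M.X P) = 1 := by
  have hY : v (M.Y P) ≤ 1 := M.val_Y_le_one v h1 h2 hs.le hP hX
  have hH : v (2 * M.Y P + a₁ * M.X P) ≤ 1 :=
    val_add_le_one v (val_mul_le_one v (val_ofNat_le_one v 2) hY) (val_mul_le_one v h1 hX)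
  by_contra hcon
  have hlt : v (2 * M.Y P + a₁ * M.X P) < 1 := lt_of_le_of_ne hH hcon
  have hβ : v (a₁ ^ 2 + 4 * a₂) ≤ 1 :=
    val_add_le_one v (val_pow_le_one v h1 2) (val_mul_le_one v (val_ofNat_le_one v 4) h2)
  set x := M.X P with hx
  set β := a₁ ^ 2 + 4 * a₂ with hβdef
  have hD : v (4 * x ^ 3 + β * x ^ 2 + 4 * s * x) < 1 := by
    rw [← M.H_sq hP, sq]; exact val_mul_lt_one v hH hlt
  have he2 : v ((x ^ 2 - s) ^ 2) < 1 := by
    rw [← M.dbl_mul hP h2P]; exact val_mul_lt_one v hX2 hD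
  have he : v (x ^ 2 - s) < 1 := by
    by_contra h
    rw [not_lt] at h
    rw [map_pow] at he2
    exact absurd he2 (not_lt.mpr (one_le_pow₀ h))
  have h8 : v (8 : L) ≤ 1 := val_ofNat_le_one v 8
  have h4 : v (4 : L) ≤ 1 := val_ofNat_le_one v 4
  have key : x * s * (β ^ 2 - 64 * s)
      = ((4 * x ^ 3 + β * x ^ 2 + 4 * s * x) - 4 * x * (x ^ 2 - s)) * (β * x - 8 * s)
        - x * β ^ 2 * (x ^ 2 - s) := by ring
  have hsmall : v (x * s * (β ^ 2 - 64 * s)) < 1 := by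
    rw [key]
    refine val_sub_lt_one v (val_mul_lt_one' v (val_sub_lt_one v hD
      (val_mul_lt_one v (val_mul_le_one v h4 hX) he))
      (val_sub_le_one v (val_mul_le_one v hβ hX) (val_mul_le_one v h8 hs.le)))
      (val_mul_lt_one v (val_mul_le_one v hX (val_pow_le_one v hβ 2)) he)
  rw [map_mul, map_mul, hs, hdisc, mul_one, mul_one] at hsmall
  have : v (x ^ 2 - s) = 1 := by
    have e : x ^ 2 - s = -s + x ^ 2 := by ring
    rw [e]
    refine val_unit_add v (by rw [Valuation.map_neg, hs]) ?_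
    rw [sq]; exact val_mul_lt_one v hX hsmall
  rw [this] at he
  exact lt_irrefl _ he

/-- D5 -/
theorem WModel.H_unit_of_unit (M : WModel G L a₁ a₂ s) (h1 : v a₁ ≤ 1) (h2 : v a₂ ≤ 1)
    (hs : v s < 1) {P : G} (hP : P ≠ 0) (h2P : P + P ≠ 0) (hX : v (M.X P) = 1)
    (hX2 : v (M.X (P + P)) ≤ 1) : v (2 * M.Y P + a₁ * M.X P) = 1 := by
  have hY : v (M.Y P) ≤ 1 := M.val_Y_le_one v h1 h2 hs.le hP hX.le
  have hH : v (2 * M.Y P + a₁ * M.X P) ≤ 1 :=
    val_add_le_one v (val_mul_le_one v (val_ofNat_le_one v 2) hY) (val_mul_le_one v h1 hX.le)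
  have h3 : v (M.X P ^ 2 - s) = 1 := by
    rw [sub_eq_add_neg]
    exact val_unit_add v (by rw [map_pow, hX, one_pow]) (by rw [Valuation.map_neg]; exact hs)
  have h4 := congrArg v (M.dbl_mul hP h2P)
  rw [← M.H_sq hP, map_mul, map_pow, map_pow, h3, one_pow] at h4
  by_contra hcon
  have hlt : v (2 * M.Y P + a₁ * M.X P) < 1 := lt_of_le_of_ne hH hcon
  have : v (M.X (P + P)) * v (2 * M.Y P + a₁ * M.X P) ^ 2 < 1 := by
    refine (mul_le_of_le_one_left' hX2).trans_lt ?_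
    rw [sq]
    exact (mul_le_of_le_one_left' hH).trans_lt hlt
  rw [h4] at this
  exact lt_irrefl _ this

end D

end Fermat.Agent.S13
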