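import Fermat.Agent.S13.Local
import Fermat.Agent.S13.Inertia

/-!
# S13, piece D (second half): CLAIM 1 and unipotence of inertia
-/

set_option autoImplicit false

namespace Fermat.Agent.S13

variable {G : Type*} [AddCommGroup G] {L : Type*} [Field L] {a₁ a₂ s : L}
variable {Γ₀ : Type*} [LinearOrderedCommGroupWithZero Γ₀]
variable {M : WModel G L a₁ a₂ s} {v : Valuation L Γ₀}

/-- in a group of prime order every nonzero multiple generates -/
lemma exists_nsmul_eq_of_prime {p : ℕ} (hp : p.Prime) {Q : G} (hQ : p • Q = 0) {n : ℕ}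
    (hn : n • Q ≠ 0) : ∃ m : ℕ, m • (n • Q) = Q := by
  have hpn : ¬ p ∣ n := by
    rintro ⟨k, rfl⟩
    apply hn
    rw [mul_comm, mul_smul, hQ, smul_zero]
  have hcop : Nat.Coprime n p := ((Nat.Prime.coprime_iff_not_dvd hp).mpr hpn).symm
  obtain ⟨m, -, hm⟩ := Nat.exists_mul_mod_eq_one_of_coprime hcop hp.one_lt
  refine ⟨m, ?_⟩
  rw [← mul_smul, mul_comm]
  have h := Nat.div_add_mod (n * m) p
  rw [hm] at h
  rw [← h, add_smul, mul_smul, one_smul]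
  have : p • ((n * m / p) • Q) = 0 := by
    rw [smul_comm, hQ, smul_zero]
  rw [this, zero_add]

lemma two_nsmul_ne_zero_of_prime {p : ℕ} (hp : p.Prime) (hp2 : p ≠ 2) {Q : G} (hQ0 : Q ≠ 0)
    (hQ : p • Q = 0) : Q + Q ≠ 0 := by
  intro h
  apply hQ0
  obtain ⟨k, hk⟩ := hp.odd_of_ne_two hp2
  rw [hk, add_smul, mul_smul, one_smul, two_smul] at hQ
  have : k • Q + k • Q = k • (Q + Q) := by rw [smul_add]
  rw [this, h, smul_zero, zero_add] at hQ
  exact hQ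

lemma Act.E1_τ (A : Act M v) {Q : G} (hQ : M.E1 v Q) : M.E1 v (A.τ Q) := by
  rcases hQ with rfl | h
  · left; simp
  · by_cases hQ0 : Q = 0
    · left; rw [hQ0]; simp
    · right; rw [A.X_τ Q hQ0, A.v_φ]; exact h

/-- if `Q` is not in the kernel of reduction, no nonzero multiple of it is -/
lemma WModel.integral_multiples (M : WModel G L a₁ a₂ s) (h1 : v a₁ ≤ 1) (h2 : v a₂ ≤ 1)
    (hs : v s ≤ 1) {p : ℕ} (hp : p.Prime) {Q : G} (hQ : p • Q = 0) (hE : ¬ M.E1 v Q) (n : ℕ)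
    (hn : n • Q ≠ 0) : v (M.X (n • Q)) ≤ 1 := by
  by_contra hcon
  rw [not_le] at hcon
  obtain ⟨m, hm⟩ := exists_nsmul_eq_of_prime hp hQ hn
  apply hE
  rw [← hm]
  exact M.E1_nsmul v h1 h2 hs (Or.inr hcon) m

/-- CLAIM 1, good reduction (residue characteristic may be `p`). -/
theorem Act.claim1_good (A : Act M v) (h1 : v a₁ ≤ 1) (h2 : v a₂ ≤ 1) (hs : v s = 1)
    (hdisc : v ((a₁ ^ 2 + 4 * a₂) ^ 2 - 64 * s) = 1) {p : ℕ} (hp : p.Prime) (hp2 : p ≠ 2)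
    {Q : G} (hQ : p • Q = 0) : M.E1 v (A.τ Q - Q) := by
  by_cases hE : M.E1 v Q
  · exact M.E1_sub v h1 h2 hs.le (A.E1_τ hE) hE
  have hQ0 : Q ≠ 0 := fun h => hE (Or.inl h)
  have h2Q : Q + Q ≠ 0 := two_nsmul_ne_zero_of_prime hp hp2 hQ0 hQ
  have hint := M.integral_multiples h1 h2 hs.le hp hQ hE
  have hX : v (M.X Q) ≤ 1 := by simpa using hint 1 (by simpa using hQ0)
  have hX2 : v (M.X (Q + Q)) ≤ 1 := by
    have := hint 2 (by rw [two_smul]; exact h2Q)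
    rwa [two_smul] at this
  exact A.sub_mem_E1_of_unit h1 h2 hs.le hQ0 hX (M.H_unit_of_good h1 h2 hs hdisc hQ0 h2Q hX hX2)

/-- CLAIM 1, multiplicative reduction with `v s = v δ ^ p`, `δ` fixed. -/
theorem Act.claim1_mult (A : Act M v) (h1 : v a₁ ≤ 1) (h2 : v a₂ ≤ 1)
    (hβ : v (a₁ ^ 2 + 4 * a₂) = 1) (hs : v s < 1) (hs0 : s ≠ 0) {p : ℕ} (hp : p.Prime)
    (hp2 : p ≠ 2) {δ : L} (hδ : A.φ δ = δ) (hvs : v s = v δ ^ p)
    {Q : G} (hQ : p • Q = 0) : M.E1 v (A.τ Q - Q) := by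
  by_cases hE : M.E1 v Q
  · exact M.E1_sub v h1 h2 hs.le (A.E1_τ hE) hE
  have hQ0 : Q ≠ 0 := fun h => hE (Or.inl h)
  have h2Q : Q + Q ≠ 0 := two_nsmul_ne_zero_of_prime hp hp2 hQ0 hQ
  have hint := M.integral_multiples h1 h2 hs.le hp hQ hE
  have h1Q : 1 • Q ≠ 0 := by simpa using hQ0
  rcases M.mult_dichotomy v h1 h2 hβ hs hs0 hp hp2 hQ0 hQ hint with hu | ⟨hnode, m, hm, hmp, hk⟩
  · have hX : v (M.X Q) = 1 := by simpa using hu 1 h1Q
    have hX2 : v (M.X (Q + Q)) ≤ 1 := by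
      have := hint 2 (by rw [two_smul]; exact h2Q)
      rwa [two_smul] at this
    exact A.sub_mem_E1_of_unit h1 h2 hs.le hQ0 hX.le (M.H_unit_of_unit h1 h2 hs hQ0 h2Q hX hX2)
  · obtain ⟨k, hk⟩ := hk 1 h1Q
    have hn := hnode 1 h1Q
    rw [one_smul] at hk hn
    have hm2 : v (M.X (m • Q)) = v δ ^ 2 := by
      have : v (M.X (m • Q)) ^ p = (v δ ^ 2) ^ p := by
        rw [hmp, hvs, ← pow_mul, ← pow_add, two_mul]
      exact (pow_left_injective hp.ne_zero) this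
    refine A.sub_mem_E1_of_node h1 h2 hβ hs hQ0 hn.1 hn.2 (ϖ := (δ ^ 2) ^ k) ?_ ?_
    · rw [map_pow, map_pow, hδ]
    · rw [map_pow, map_pow, hk, hm2]

/-- unipotent inertia at a multiplicative prime different from `p`. -/
theorem Act.unipotent_mult (A : Act M v) (h1 : v a₁ ≤ 1) (h2 : v a₂ ≤ 1)
    (hβ : v (a₁ ^ 2 + 4 * a₂) = 1) (hs : v s < 1) (hs0 : s ≠ 0) {p : ℕ} (hp : p.Prime)
    (hp2 : p ≠ 2) (hvp : v (p : L) = 1) {Q : G} (hQ : p • Q = 0) :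
    A.τ (A.τ Q - Q) = A.τ Q - Q := by
  -- T1
  have T1 : ∀ R : G, R ≠ 0 → p • R = 0 → v (M.X R) ≤ 1 := fun R hR hpR =>
    M.integral_of_torsion v h1 h2 hs.le hR hpR hvp
  -- a torsion point with unit abscissa is fixed
  have hfix : ∀ R : G, R ≠ 0 → p • R = 0 → v (M.X R) = 1 → A.τ R = R := by
    intro R hR hpR hX
    have h2R : R + R ≠ 0 := two_nsmul_ne_zero_of_prime hp hp2 hR hpR
    have hX2 : v (M.X (R + R)) ≤ 1 := T1 _ h2R (by rw [smul_add, hpR, add_zero])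
    have hE := A.sub_mem_E1_of_unit h1 h2 hs.le hR hX.le
      (M.H_unit_of_unit h1 h2 hs hR h2R hX hX2)
    rcases hE with h | h
    · exact sub_eq_zero.mp h
    · by_contra hne
      have h0 : A.τ R - R ≠ 0 := sub_ne_zero.mpr hne
      have := T1 _ h0 (by rw [smul_sub, ← map_nsmul, hpR, map_zero, sub_zero])
      exact absurd h (not_lt.mpr this)
  by_cases hQ0 : Q = 0
  · rw [hQ0]; simp
  have hint : ∀ n : ℕ, n • Q ≠ 0 → v (M.X (n • Q)) ≤ 1 := fun n hn =>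
    T1 _ hn (by rw [smul_comm, hQ, smul_zero])
  have h1Q : 1 • Q ≠ 0 := by simpa using hQ0
  rcases M.mult_dichotomy v h1 h2 hβ hs hs0 hp hp2 hQ0 hQ hint with hu | ⟨hnode, -⟩
  · have hX : v (M.X Q) = 1 := by simpa using hu 1 h1Q
    rw [hfix Q hQ0 hQ hX]; simp
  · have hn := hnode 1 h1Q
    rw [one_smul] at hn
    rcases A.one_le_of_node h1 h2 hβ hs hQ0 hn.1 hn.2 with h | h
    · rw [h]; simp
    · by_cases hR : A.τ Q - Q = 0
      · rw [hR]; simp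
      · have hpR : p • (A.τ Q - Q) = 0 := by
          rw [smul_sub, ← map_nsmul, hQ, map_zero, sub_zero]
        exact hfix _ hR hpR (le_antisymm (T1 _ hR hpR) h)

end Fermat.Agent.S13
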