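import Mathlib
import Fermat.Agent.S54.Frobenius

set_option autoImplicit false

namespace Fermat.Agent.S13

open scoped Pointwise NumberField

noncomputable section

namespace Minkowski

section Abstract

variable {G B : Type*} [Group G] [CommRing B] [MulSemiringAction G B]
  [TopologicalSpace G] [CompactSpace G] [TotallyDisconnectedSpace G] [IsTopologicalGroup G]
  [TopologicalSpace B] [DiscreteTopology B] [ContinuousSMul G B]

/-- Lifting inertia: if `γ` acts trivially on `B^H` modulo `Q`, some element of `H γ` acts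
trivially on `B` modulo `Q`. -/
theorem exists_mul_mem_inertia (H : Subgroup G) [H.Normal] (hH : IsClosed (H : Set G))
    (Q : Ideal B) [Q.IsPrime] (γ : G)
    (hγ : ∀ x : B, (∀ h ∈ H, h • x = x) → γ • x - x ∈ Q) :
    ∃ h ∈ H, ∀ x : B, (h * γ) • x - x ∈ Q := by
  have : CompactSpace H := isCompact_iff_compactSpace.mp hH.isCompact
  let A := FixedPoints.subalgebra ℤ B H
  have hAmem : ∀ a : A, ∀ h ∈ H, h • (a : B) = a := fun a h hh => a.2 ⟨h, hh⟩
  have : SMulCommClass H A B := ⟨fun h a b => by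
    change h • ((a : B) * b) = (a : B) * h • b
    rw [smul_mul', a.2 h]⟩
  have : Algebra.IsInvariant A B H := ⟨fun b hb => ⟨⟨b, hb⟩, rfl⟩⟩
  -- `γ⁻¹` also acts trivially
  have hfix : ∀ x : B, (∀ h ∈ H, h • x = x) → ∀ g : G, ∀ h ∈ H, h • (g • x) = g • x := by
    intro x hx g h hh
    have h1 : g⁻¹ * h * g ∈ H := by
      have := ‹H.Normal›.conj_mem h hh g⁻¹
      simpa using this
    have h2 := hx _ h1
    rw [mul_smul, mul_smul, inv_smul_eq_iff] at h2
    exact h2
  have hγ' : ∀ x : B, (∀ h ∈ H, h • x = x) → γ⁻¹ • x - x ∈ Q := by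
    intro x hx
    have := hγ (γ⁻¹ • x) (hfix x hx γ⁻¹)
    rw [smul_inv_smul] at this
    rw [← neg_sub]
    exact Q.neg_mem this
  have hunder : (γ • Q).under A = Q.under A := by
    ext a
    simp only [Ideal.under_def, Ideal.mem_comap]
    change (a : B) ∈ γ • Q ↔ (a : B) ∈ Q
    rw [Ideal.mem_pointwise_smul_iff_inv_smul_mem]
    have h1 := hγ' a (hAmem a)
    constructor
    · intro h
      have := Q.sub_mem h h1
      simpa using this
    · intro h
      have := Q.add_mem h1 h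
      simpa using this
  obtain ⟨h1, hh1⟩ := Algebra.IsInvariant.exists_smul_of_under_eq_of_profinite (A := A) (G := H)
    (γ • Q) Q hunder
  set σ₁ : G := (h1 : G) * γ with hσ₁
  have hσ₁Q : σ₁ • Q = Q := by
    rw [hσ₁, mul_smul]
    exact hh1.symm
  have hσ₁A : ∀ a : A, σ₁ • (a : B) - a ∈ Q := by
    intro a
    rw [hσ₁, mul_smul, hfix a (hAmem a) γ h1 h1.2]
    exact hγ a (hAmem a)
  let P : Ideal A := Q.under A
  have : Q.LiesOver P := ⟨rfl⟩
  let φ₀ : (B ⧸ Q) ≃+* (B ⧸ Q) :=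
    Ideal.quotientEquiv Q Q (MulSemiringAction.toRingEquiv G B σ₁) hσ₁Q.symm
  have hφ₀ : ∀ x : B, φ₀ (Ideal.Quotient.mk Q x) = Ideal.Quotient.mk Q (σ₁ • x) := fun x => rfl
  let φ : (B ⧸ Q) ≃ₐ[A ⧸ P] (B ⧸ Q) := AlgEquiv.ofRingEquiv (f := φ₀) (by
    intro r
    obtain ⟨a, rfl⟩ := Ideal.Quotient.mk_surjective r
    change φ₀ (Ideal.Quotient.mk Q (a : B)) = Ideal.Quotient.mk Q (a : B)
    rw [hφ₀, Ideal.Quotient.eq]
    exact hσ₁A a)
  obtain ⟨⟨h2, hh2⟩, hh2φ⟩ := Ideal.Quotient.stabilizerHom_surjective_of_profinite (G := H) P Q φ.symm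
  refine ⟨(h2 : G) * h1, H.mul_mem h2.2 h1.2, fun x => ?_⟩
  have h3 := DFunLike.congr_fun hh2φ (Ideal.Quotient.mk Q (σ₁ • x))
  rw [Ideal.Quotient.stabilizerHom_apply] at h3
  have h4 : φ.symm (Ideal.Quotient.mk Q (σ₁ • x)) = Ideal.Quotient.mk Q x := by
    rw [AlgEquiv.symm_apply_eq]
    rfl
  rw [h4, Ideal.Quotient.eq] at h3
  rw [mul_assoc, mul_smul]
  exact h3

end Abstract

local notation "Qb" => AlgebraicClosure ℚ
local notation "GQ" => (AlgebraicClosure ℚ ≃ₐ[ℚ] AlgebraicClosure ℚ)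
local notation "Zb" => integralClosure ℤ (AlgebraicClosure ℚ)

open Fermat.Agent.S54

attribute [local instance] isAlgClosure_Qbar isAlgebraic_int_Qbar isFractionRing_Zbar

/-- An automorphism acting trivially on `ℤ̄/Q` lies in the inertia group of `ℤ̄_Q`. -/
theorem mem_inertiaSubgroupIn_loc (ℓ : ℕ) (hℓ : ℓ.Prime) (Q : Ideal Zb) [Q.IsPrime]
    (hℓQ : (ℓ : Zb) ∈ Q) (σ : GQ) (hσF : ∀ x : Zb, σ • x - x ∈ Q) :
    σ ∈ (locValuationSubring ℓ hℓ Q hℓQ).inertiaSubgroupIn ℚ := by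
  have hσQ : ∀ x : Zb, x ∈ Q ↔ σ • x ∈ Q := by
    intro x
    constructor
    · intro h
      have := Q.add_mem (hσF x) h
      simpa using this
    · intro h
      have := Q.sub_mem h (hσF x)
      simpa using this
  have hfwd : ∀ x, x ∈ locValuationSubring ℓ hℓ Q hℓQ → σ x ∈ locValuationSubring ℓ hℓ Q hℓQ := by
    rintro x ⟨b, s, hs, h⟩
    refine ⟨σ • b, σ • s, fun hm => hs ((hσQ s).mpr hm), ?_⟩
    change σ x * σ (s : Qb) = σ (b : Qb)
    rw [← map_mul, h]
  have hbwd : ∀ x, x ∈ locValuationSubring ℓ hℓ Q hℓQ →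
      σ⁻¹ x ∈ locValuationSubring ℓ hℓ Q hℓQ := by
    rintro x ⟨b, s, hs, h⟩
    refine ⟨σ⁻¹ • b, σ⁻¹ • s, fun hm => hs ?_, ?_⟩
    · have := (hσQ (σ⁻¹ • s)).mp hm
      rwa [smul_inv_smul] at this
    · change σ⁻¹ x * σ⁻¹ (s : Qb) = σ⁻¹ (b : Qb)
      rw [← map_mul, h]
  have hσ : σ ∈ (locValuationSubring ℓ hℓ Q hℓQ).decompositionSubgroup ℚ := by
    rw [MulAction.mem_stabilizer_iff]
    ext x
    rw [ValuationSubring.mem_pointwise_smul_iff_inv_smul_mem]
    constructor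
    · intro h
      have := hfwd _ h
      change σ • (σ⁻¹ • x) ∈ _ at this
      rwa [smul_inv_smul] at this
    · intro h
      exact hbwd _ h
  unfold ValuationSubring.inertiaSubgroupIn
  rw [Subgroup.mem_map]
  refine ⟨⟨σ, hσ⟩, ?_, rfl⟩
  unfold ValuationSubring.inertiaSubgroup
  rw [MonoidHom.mem_ker]
  ext x
  obtain ⟨⟨a, ha⟩, rfl⟩ := IsLocalRing.residue_surjective x
  change (⟨σ, hσ⟩ : (locValuationSubring ℓ hℓ Q hℓQ).decompositionSubgroup ℚ) •
    IsLocalRing.residue _ (⟨a, ha⟩ : locValuationSubring ℓ hℓ Q hℓQ) = IsLocalRing.residue _ _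
  rw [← IsLocalRing.ResidueField.residue_smul, ← sub_eq_zero, ← map_sub,
    IsLocalRing.residue_eq_zero_iff, ← ValuationSubring.coe_mem_nonunits_iff]
  change σ a - a ∈ _
  obtain ⟨b, s, hs, h⟩ := ha
  have hZA : ∀ y : Zb, (y : Qb) ∈ locValuationSubring ℓ hℓ Q hℓQ := fun y =>
    ⟨y, 1, fun h => (Ideal.IsPrime.ne_top inferInstance) ((Ideal.eq_top_iff_one Q).mpr h),
      by simp⟩
  have ha : a ∈ locValuationSubring ℓ hℓ Q hℓQ := ⟨b, s, hs, h⟩
  have hσs : σ • s ∉ Q := fun hm => hs ((hσQ s).mpr hm)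
  let a' : locValuationSubring ℓ hℓ Q hℓQ := ⟨a, ha⟩
  let σa' : locValuationSubring ℓ hℓ Q hℓQ := ⟨σ a, hfwd a ha⟩
  let u : locValuationSubring ℓ hℓ Q hℓQ := ⟨((σ • s : Zb) : Qb), hZA _⟩
  let n1 : locValuationSubring ℓ hℓ Q hℓQ := ⟨((σ • b - b : Zb) : Qb), hZA _⟩
  let n2 : locValuationSubring ℓ hℓ Q hℓQ := ⟨((σ • s - s : Zb) : Qb), hZA _⟩
  have hn1 : n1 ∈ IsLocalRing.maximalIdeal (locValuationSubring ℓ hℓ Q hℓQ) := by
    rw [← ValuationSubring.coe_mem_nonunits_iff]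
    exact coe_mem_nonunits_loc (hσF b)
  have hn2 : n2 ∈ IsLocalRing.maximalIdeal (locValuationSubring ℓ hℓ Q hℓQ) := by
    rw [← ValuationSubring.coe_mem_nonunits_iff]
    exact coe_mem_nonunits_loc (hσF s)
  have hu : u ∉ IsLocalRing.maximalIdeal (locValuationSubring ℓ hℓ Q hℓQ) := by
    rw [← ValuationSubring.coe_mem_nonunits_iff, ValuationSubring.mem_nonunits_iff_or]
    have hu0 : ((σ • s : Zb) : Qb) ≠ 0 := by
      intro h0
      apply hσs
      have : (σ • s : Zb) = 0 := Subtype.ext h0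
      rw [this]; exact Q.zero_mem
    rintro (h0 | h0)
    · exact hu0 h0
    · exact h0 ⟨1, σ • s, hσs, by
        change ((σ • s : Zb) : Qb)⁻¹ * ((σ • s : Zb) : Qb) = ((1 : Zb) : Qb)
        rw [inv_mul_cancel₀ hu0]; rfl⟩
  have key : (σa' - a') * u = n1 - a' * n2 := by
    apply Subtype.ext
    change (σ a - a) * σ (s : Qb) =
      (σ (b : Qb) - (b : Qb)) - a * (σ (s : Qb) - (s : Qb))
    rw [← h, map_mul]
    ring
  have hmem : (σa' - a') * u ∈ IsLocalRing.maximalIdeal (locValuationSubring ℓ hℓ Q hℓQ) := by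
    rw [key]
    exact Ideal.sub_mem _ hn1 (Ideal.mul_mem_left _ _ hn2)
  have := (Ideal.IsPrime.mem_or_mem inferInstance hmem).resolve_right hu
  rw [← ValuationSubring.coe_mem_nonunits_iff] at this
  exact this

/-- Minkowski + `e = |I|`: in a Galois number field `K ≠ ℚ` there is a prime `p` such that every
prime of `K` above `p` has a nontrivial inertia group. -/
theorem exists_inertia_ne_one (K : Type*) [Field K] [NumberField K] [IsGalois ℚ K]
    (H : 1 < Module.finrank ℚ K) :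
    ∃ p : ℕ, p.Prime ∧ ∀ (P : Ideal (𝓞 K)) (_ : P.IsPrime), (p : 𝓞 K) ∈ P →
      ∃ γ : Gal(K/ℚ), γ ≠ 1 ∧ ∀ x : 𝓞 K, γ • x - x ∈ P := by
  obtain ⟨p, hp, h⟩ := NumberField.exists_not_isUnramifiedAt_int_of_isGalois (𝒪 := 𝓞 K) H
  refine ⟨p, hp, fun P hP hpP => ?_⟩
  have h1 := h P hP hpP
  have hpp : Prime (p : ℤ) := Nat.prime_iff_prime_int.mp hp
  have : (Ideal.span {(p : ℤ)}).IsPrime := (Ideal.span_singleton_prime hpp.ne_zero).mpr hpp
  have : (Ideal.span {(p : ℤ)}).IsMaximal :=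
    PrincipalIdealRing.isMaximal_of_irreducible hpp.irreducible
  have hlo : P.LiesOver (Ideal.span {(p : ℤ)}) :=
    (Ideal.liesOver_span_iff Ideal.IsPrime.ne_top' hpp).mpr (by simpa using hpP)
  rw [← Ideal.ramificationIdx_eq_one_iff,
    ← Ideal.ramificationIdxIn_eq_ramificationIdx (Ideal.span {(p : ℤ)}) P Gal(K/ℚ),
    ← Ideal.card_inertia_eq_ramificationIdxIn (G := Gal(K/ℚ)) (Ideal.span {(p : ℤ)}) P] at h1
  by_contra hcon
  push Not at hcon
  apply h1
  rw [Nat.card_eq_one_iff_unique]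
  refine ⟨⟨fun a b => ?_⟩, ⟨1⟩⟩
  have key : ∀ a : P.inertia Gal(K/ℚ), a = 1 := by
    intro a
    by_contra ha
    obtain ⟨x, hx⟩ := hcon a.1 (fun h => ha (Subtype.ext h))
    exact hx (a.2 x)
  rw [key a, key b]

end Minkowski

open Minkowski Fermat.Agent.S54 in
attribute [local instance] isAlgClosure_Qbar isAlgebraic_int_Qbar isFractionRing_Zbar in
/-- (C) MINKOWSKI: an open normal subgroup of `G_ℚ` containing all inertia groups is everything. -/
theorem eq_top_of_inertia_le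
    (H : Subgroup (AlgebraicClosure ℚ ≃ₐ[ℚ] AlgebraicClosure ℚ)) (hN : H.Normal)
    (hO : IsOpen (H : Set (AlgebraicClosure ℚ ≃ₐ[ℚ] AlgebraicClosure ℚ)))
    (hI : ∀ ℓ : ℕ, ℓ.Prime → ∀ A : ValuationSubring (AlgebraicClosure ℚ), A.LiesOverPrime ℓ →
      A.inertiaSubgroupIn ℚ ≤ H) : H = ⊤ := by
  by_contra hne
  have hcl : IsClosed (H : Set (AlgebraicClosure ℚ ≃ₐ[ℚ] AlgebraicClosure ℚ)) :=
    H.isClosed_of_isOpen hO
  let K : IntermediateField ℚ (AlgebraicClosure ℚ) := IntermediateField.fixedField H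
  have hfix : K.fixingSubgroup = H := InfiniteGalois.fixingSubgroup_fixedField ⟨H, hcl⟩
  have : FiniteDimensional ℚ K := (InfiniteGalois.isOpen_iff_finite K).mp (by rw [hfix]; exact hO)
  have : IsGalois ℚ K := (InfiniteGalois.normal_iff_isGalois K).mp (by rw [hfix]; exact hN)
  have : NumberField K := ⟨⟩
  have hfr : 1 < Module.finrank ℚ K := by
    by_contra h
    have h1 : Module.finrank ℚ K = 1 := le_antisymm (not_lt.mp h) Module.finrank_pos
    have h2 : K = ⊥ := IntermediateField.finrank_eq_one_iff.mp h1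
    apply hne
    rw [← hfix, h2]
    exact IntermediateField.fixingSubgroup_bot
  obtain ⟨p, hp, hram⟩ := exists_inertia_ne_one K hfr
  -- topology on `ℤ̄`
  let _ : TopologicalSpace (integralClosure ℤ (AlgebraicClosure ℚ)) := ⊥
  have : DiscreteTopology (integralClosure ℤ (AlgebraicClosure ℚ)) := ⟨rfl⟩
  have : ContinuousSMul (AlgebraicClosure ℚ ≃ₐ[ℚ] AlgebraicClosure ℚ)
      (integralClosure ℤ (AlgebraicClosure ℚ)) := by
    rw [continuousSMul_iff_stabilizer_isOpen]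
    intro x
    have := stabilizer_isOpen_of_isIntegral (K := ℚ) (L := AlgebraicClosure ℚ)
      (x : AlgebraicClosure ℚ)
    convert this using 1
    ext g
    simp only [SetLike.mem_coe, MulAction.mem_stabilizer_iff]
    constructor
    · intro h; exact congrArg Subtype.val h
    · intro h; exact Subtype.ext h
  -- a prime of `ℤ̄` above `p`
  let P0 : Ideal ℤ := Ideal.span {(p : ℤ)}
  have hPmax : P0.IsMaximal := by
    have hp' : Prime (p : ℤ) := Nat.prime_iff_prime_int.mp hp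
    exact PrincipalIdealRing.isMaximal_of_irreducible hp'.irreducible
  obtain ⟨Q, hQmax, hQP⟩ := Ideal.exists_ideal_over_maximal_of_isIntegral
    (S := integralClosure ℤ (AlgebraicClosure ℚ)) P0 (by
    rw [(RingHom.injective_iff_ker_eq_bot _).mp
      (FaithfulSMul.algebraMap_injective ℤ (integralClosure ℤ (AlgebraicClosure ℚ)))]
    exact bot_le)
  have hQprime : Q.IsPrime := hQmax.isPrime
  have hpQ : (p : integralClosure ℤ (AlgebraicClosure ℚ)) ∈ Q := by
    have : (p : ℤ) ∈ Q.comap (algebraMap ℤ (integralClosure ℤ (AlgebraicClosure ℚ))) := by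
      rw [hQP]; exact Ideal.subset_span rfl
    simpa using this
  -- the prime of `K` below
  let ι : 𝓞 K →+* integralClosure ℤ (AlgebraicClosure ℚ) :=
    { toFun := fun y => ⟨((y : K) : AlgebraicClosure ℚ), by
        have h := y.2
        exact h.map (IsScalarTower.toAlgHom ℤ K (AlgebraicClosure ℚ))⟩
      map_one' := rfl
      map_mul' := fun _ _ => rfl
      map_zero' := rfl
      map_add' := fun _ _ => rfl }
  let P : Ideal (𝓞 K) := Q.comap ι
  have hPprime : P.IsPrime := Ideal.comap_isPrime ι Q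
  have hpP : (p : 𝓞 K) ∈ P := by
    change ι (p : 𝓞 K) ∈ Q
    rw [map_natCast]; exact hpQ
  obtain ⟨γ, hγ1, hγ⟩ := hram P hPprime hpP
  obtain ⟨γ', hγ'⟩ := AlgEquiv.restrictNormalHom_surjective (AlgebraicClosure ℚ) γ
  obtain ⟨h, hh, hσ⟩ := exists_mul_mem_inertia H hcl Q γ' (by
    intro x hx
    have hxK : (x : AlgebraicClosure ℚ) ∈ K := by
      rw [IntermediateField.mem_fixedField_iff]
      intro g hg
      exact congrArg Subtype.val (hx g hg)
    have hint : IsIntegral ℤ (⟨x, hxK⟩ : K) := by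
      have h1 : IsIntegral ℤ (algebraMap K (AlgebraicClosure ℚ) ⟨x, hxK⟩) := x.2
      exact (isIntegral_algebraMap_iff (algebraMap K (AlgebraicClosure ℚ)).injective).mp h1
    let xK : 𝓞 K := ⟨⟨x, hxK⟩, hint⟩
    have h2 : ι (γ • xK - xK) ∈ Q := hγ xK
    have h3 : ι (γ • xK - xK) = γ' • x - x := by
      apply Subtype.ext
      change ((γ (⟨x, hxK⟩ : K) : K) : AlgebraicClosure ℚ) - x = γ' x - x
      rw [← hγ']
      congr 1
      exact AlgEquiv.restrictNormal_commutes γ' K ⟨x, hxK⟩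
    rw [h3] at h2
    exact h2)
  have hin := mem_inertiaSubgroupIn_loc p hp Q hpQ (h * γ') hσ
  have hlies : (locValuationSubring p hp Q hpQ).LiesOverPrime p := by
    have := coe_mem_nonunits_loc (hℓ := hp) (hℓQ := hpQ) hpQ
    simpa [ValuationSubring.LiesOverPrime] using this
  have hmem : h * γ' ∈ H := hI p hp _ hlies hin
  have hγ'H : γ' ∈ H := (Subgroup.mul_mem_cancel_left H hh).mp hmem
  apply hγ1
  rw [← hγ']
  ext y
  have h1 := AlgEquiv.restrictNormal_commutes γ' K y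
  have h2 : γ' ∈ K.fixingSubgroup := hfix.symm ▸ hγ'H
  have h3 : γ' (y : AlgebraicClosure ℚ) = y :=
    (IntermediateField.mem_fixingSubgroup_iff K γ').mp h2 y y.2
  exact h1.trans h3

end

end Fermat.Agent.S13
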