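import Fermat.Agent.S13.Local

/-!
# S13, piece G: no "rational" point of order `p ≥ 5` at a prime of multiplicative reduction
with residue field `𝔽₂` and `p ∤ ord(s²·π⁸)`.
-/

set_option autoImplicit false

namespace Fermat.Agent.S13

variable {G : Type*} [AddCommGroup G] {L : Type*} [Field L] {a₁ a₂ s : L}
variable {Γ₀ : Type*} [LinearOrderedCommGroupWithZero Γ₀]

/-- multiples `n • P`, `0 < n < p`, of a point of exact order `p` are nonzero. -/
theorem norat_nsmul_ne_zero {p : ℕ} (hp : p.Prime) {P : G} (hP : P ≠ 0) (hpP : p • P = 0) {n : ℕ}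
    (hn0 : 0 < n) (hn : n < p) : n • P ≠ 0 := by
  intro h
  have : Fact p.Prime := ⟨hp⟩
  have h1 : addOrderOf P = p := addOrderOf_eq_prime hpP hP
  have h2 : addOrderOf P ∣ n := addOrderOf_dvd_of_nsmul_eq_zero h
  rw [h1] at h2
  exact absurd (Nat.le_of_dvd hn0 h2) (not_le.mpr hn)

variable (M : WModel G L a₁ a₂ s) (v : Valuation L Γ₀)

theorem WModel.no_rational_torsion (h1 : v a₁ ≤ 1) (h2 : v a₂ ≤ 1)
    (hβ : v (a₁ ^ 2 + 4 * a₂) = 1) (hs : v s < 1) (hs0 : s ≠ 0) {p : ℕ} (hp : p.Prime)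
    (hp5 : 5 ≤ p) (hvp : v (p : L) = 1) {π : L} (hπ : v π < 1) (hπ0 : π ≠ 0) (F : Set L)
    (hF1 : ∀ z ∈ F, v z = 1 → v (z - 1) < 1)
    (hF2 : ∀ z ∈ F, z ≠ 0 → ∃ m : ℤ, v z = v π ^ m)
    (hsv : ∃ m : ℤ, v s * v s * v π ^ 8 = (v π ^ m) ^ p)
    {P : G} (hP : P ≠ 0) (hpP : p • P = 0) (hrat : ∀ n : ℕ, M.X (n • P) ∈ F) : False := by
  have hint : ∀ n : ℕ, n • P ≠ 0 → v (M.X (n • P)) ≤ 1 := by
    intro n hn
    refine M.integral_of_torsion v h1 h2 hs.le hn (n := p) ?_ hvp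
    rw [smul_comm, hpP, smul_zero]
  rcases M.mult_dichotomy v h1 h2 hβ hs hs0 hp (by omega) hP hpP hint with hunit | ⟨-, m, hm, hmp, -⟩
  · -- unit type
    have hP2 : 2 • P ≠ 0 := norat_nsmul_ne_zero hp hP hpP (by omega) (by omega)
    have hP3 : 3 • P ≠ 0 := norat_nsmul_ne_zero hp hP hpP (by omega) (by omega)
    have hP1 : 1 • P ≠ 0 := by rwa [one_smul]
    have e3 : 2 • P + P = 3 • P := by rw [show (3 : ℕ) = 2 + 1 from rfl, add_smul, one_smul]
    have e1 : 2 • P - P = P := by rw [two_smul, add_sub_cancel_right]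
    have hne : M.X (2 • P) ≠ M.X P :=
      M.X_ne hP2 hP (by rw [e3]; exact hP3) (by rw [e1]; exact hP)
    have hprod := M.add_sub_prod hP2 hP hne
    rw [e3, e1] at hprod
    have u1 : v (M.X P) = 1 := by simpa using hunit 1 hP1
    have u2 : v (M.X (2 • P)) = 1 := hunit 2 hP2
    have u3 : v (M.X (3 • P)) = 1 := hunit 3 hP3
    have d1 : v (M.X P - 1) < 1 := hF1 _ (by simpa using hrat 1) u1
    have d2 : v (M.X (2 • P) - 1) < 1 := hF1 _ (hrat 2) u2
    have d : v (M.X (2 • P) - M.X P) < 1 := by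
      have : M.X (2 • P) - M.X P = (M.X (2 • P) - 1) - (M.X P - 1) := by ring
      rw [this]
      exact lt_of_le_of_lt (v.map_sub _ _) (max_lt d2 d1)
    have hR : v ((M.X (2 • P) * M.X P - s) ^ 2) = 1 := by
      have h3 : v (M.X (2 • P) * M.X P) = 1 := by rw [map_mul, u1, u2, one_mul]
      have h4 : v (M.X (2 • P) * M.X P - s) = 1 := by
        rw [← h3]
        exact Valuation.map_sub_eq_of_lt_left v (by rw [h3]; exact hs)
      rw [map_pow, h4, one_pow]
    rw [← hprod, map_mul, map_mul, u3, u1, one_mul, one_mul, map_pow] at hR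
    have : v (M.X (2 • P) - M.X P) ^ 2 < 1 := pow_lt_one₀ zero_le d (by norm_num)
    exact absurd hR this.ne
  · -- node type
    obtain ⟨m', hm'⟩ := hsv
    have hπpos : 0 < v π := by
      rw [Valuation.pos_iff]
      exact hπ0
    have hX0 : M.X (m • P) ≠ 0 := by
      intro h0
      rw [h0, map_zero, zero_pow hp.ne_zero] at hmp
      have : v s ≠ 0 := (Valuation.ne_zero_iff v).mpr hs0
      exact mul_ne_zero this this hmp.symm
    obtain ⟨j, hj⟩ := hF2 _ (hrat m) hX0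
    rw [← hmp, hj] at hm'
    have h5 : v π ^ (j * p + 8) = v π ^ (m' * p) := by
      rw [zpow_add₀ hπpos.ne', zpow_mul, zpow_mul, zpow_natCast, zpow_natCast]
      exact_mod_cast hm'
    have h6 : j * p + 8 = m' * p := zpow_right_injective₀ hπpos hπ.ne h5
    have h7 : (p : ℤ) ∣ 8 := ⟨m' - j, by linarith⟩
    have h8 : p ∣ 8 := by exact_mod_cast h7
    have h9 : p ∣ 2 := hp.dvd_of_dvd_pow (show p ∣ 2 ^ 3 by norm_num; exact h8)
    have := Nat.le_of_dvd (by norm_num) h9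
    omega

end Fermat.Agent.S13
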