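import Fermat.Agent.S13.Assembly
import Fermat.Agent.S13.Ladder
import Fermat.Agent.S13.LocalThm
import Fermat.Agent.S13.NoRat
import Fermat.Agent.S13.Minkowski
import Fermat.Agent.S13.FreyModel

/-!
# S13: the inputs of the assembly from the pieces
-/

set_option autoImplicit false

namespace Fermat.Agent.S13

open WeierstrassCurve WeierstrassCurve.Affine WeierstrassCurve.Affine.Point

local notation "Qbar" => AlgebraicClosure ℚ
local notation "GQ" => (AlgebraicClosure ℚ ≃ₐ[ℚ] AlgebraicClosure ℚ)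

attribute [local instance] isAlgClosure_Qbar'

variable {P : FreyPackage}

lemma glue_hp2 (P : FreyPackage) : P.p ≠ 2 := by have := P.hp5; omega

lemma glue_one_lt (P : FreyPackage) : 1 < P.p := by have := P.hp5; omega

lemma glue_tor_set :
    ((Submodule.torsionBy ℤ (Pt P) (P.p : ℤ) : Submodule ℤ (Pt P)) : Set (Pt P))
      = {Q : Pt P | P.p • Q = 0} := by
  ext Q
  simp only [SetLike.mem_coe, Submodule.mem_torsionBy_iff, natCast_zsmul, Set.mem_ofPred_eq]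

/-- `k • Q = Q` as soon as `(k-1)^2` kills the point `Q` of prime order. -/
lemma glue_unip {G : Type*} [AddCommGroup G] {p : ℕ} (hp : p.Prime) {Q : G} (hQ0 : Q ≠ 0)
    (hQ : p • Q = 0) {k : ℕ} (h : k • (k • Q) - k • Q = k • Q - Q) : k • Q = Q := by
  have := Fact.mk hp
  have hord : addOrderOf Q = p := addOrderOf_eq_prime hQ hQ0
  have h1 : (((k : ℤ) - 1) ^ 2) • Q = 0 := by
    have e : (((k : ℤ) - 1) ^ 2) • Q = (k • (k • Q) - k • Q) - (k • Q - Q) := by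
      rw [← natCast_zsmul (k • Q) k, ← natCast_zsmul Q k, smul_smul]
      have e1 : ((k : ℤ) - 1) ^ 2 = (k : ℤ) * k - k - (k - 1) := by ring
      rw [e1, sub_smul, sub_smul, sub_smul, one_smul]
    rw [e, h, sub_self]
  have h2 : (p : ℤ) ∣ ((k : ℤ) - 1) ^ 2 := by
    rw [← hord]; exact addOrderOf_dvd_iff_zsmul_eq_zero.mpr h1
  have h3 : (p : ℤ) ∣ (k : ℤ) - 1 := (Nat.prime_iff_prime_int.mp hp).dvd_of_dvd_pow h2
  have h4 : ((k : ℤ) - 1) • Q = 0 := by
    rw [← hord] at h3; exact addOrderOf_dvd_iff_zsmul_eq_zero.mp h3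
  rw [sub_smul, one_smul, natCast_zsmul] at h4
  exact sub_eq_zero.mp h4

section Two

variable (P)

lemma glue_two_not_dvd : ¬ ((2 : ℕ) : ℤ) ∣ (1 : ℤ) ^ 2 + 4 * P.freyCurveInt.a₂ := by
  intro h
  have h1 : (2 : ℤ) ∣ (1 : ℤ) ^ 2 + 4 * P.freyCurveInt.a₂ := by exact_mod_cast h
  omega

lemma glue_a₄_ne_zero : P.freyCurveInt.a₄ ≠ 0 := by
  intro h
  have h1 := sixteen_mul_a₄ P
  rw [h, mul_zero] at h1
  have : (P.a * P.b) ^ P.p = 0 := by linarith
  exact pow_ne_zero _ (mul_ne_zero P.ha0 P.hb0) this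

variable {P}

/-- the hypotheses of the local theorems at `2` -/
lemma glue_two_hyps (A : ValuationSubring Qbar) (hA : A.LiesOverPrime 2) :
    A.valuation (((1 : ℤ) : Qbar)) ≤ 1 ∧ A.valuation ((P.freyCurveInt.a₂ : Qbar)) ≤ 1 ∧
    A.valuation ((((1 : ℤ) : Qbar)) ^ 2 + 4 * (P.freyCurveInt.a₂ : Qbar)) = 1 ∧
    A.valuation ((P.freyCurveInt.a₄ : Qbar)) < 1 ∧ (P.freyCurveInt.a₄ : Qbar) ≠ 0 ∧
    A.valuation (P.p : Qbar) = 1 := by
  have hv2 : A.valuation ((2 : ℕ) : Qbar) < 1 := (A.mem_nonunits_iff).mp hA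
  refine ⟨S05.val_int_le_one _ _, S05.val_int_le_one _ _, ?_, ?_, ?_, ?_⟩
  · have e : (((1 : ℤ) : Qbar)) ^ 2 + 4 * (P.freyCurveInt.a₂ : Qbar)
        = (((1 : ℤ) ^ 2 + 4 * P.freyCurveInt.a₂ : ℤ) : Qbar) := by push_cast; ring
    rw [e]
    exact S05.val_int_eq_one _ Nat.prime_two hv2 (glue_two_not_dvd P)
  · exact S05.val_int_lt_one _ hv2 (by exact_mod_cast two_dvd_a₄ P)
  · exact_mod_cast glue_a₄_ne_zero P
  · have := S05.val_int_eq_one A.valuation Nat.prime_two hv2 (n := (P.p : ℤ)) (by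
      intro h
      have h' : 2 ∣ P.p := by exact_mod_cast h
      exact glue_hp2 P ((Nat.prime_dvd_prime_iff_eq Nat.prime_two P.pp).mp h').symm)
    simpa using this

lemma glue_ev2 (A : ValuationSubring Qbar) (hA : A.LiesOverPrime 2) (σ : GQ)
    (hσ : σ ∈ A.inertiaSubgroupIn ℚ) (Q : Pt P) (hQ0 : Q ≠ 0) (hQ : P.p • Q = 0)
    (hk : ∃ k : ℕ, σ • Q = k • Q) : σ • Q = Q := by
  obtain ⟨k, hk⟩ := hk
  obtain ⟨h1, h2, hβ, hs, hs0, hvp⟩ := glue_two_hyps (P := P) A hA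
  have h := ((modelTwo P).actOf A σ hσ).unipotent_mult h1 h2 hβ hs hs0 P.pp (glue_hp2 P) hvp hQ
  rw [GalModel.actOf_τ, GalModel.actOf_τ, hk] at h
  have e : σ • (k • Q - Q) = k • (k • Q) - k • Q := by
    rw [smul_sub, hk]
    congr 1
    have : σ • (k • Q) = k • (σ • Q) := (Point.map (W' := P.freyCurve) σ.toAlgHom).map_nsmul k Q
    rw [this, hk]
  rw [e] at h
  rw [hk]
  exact glue_unip P.pp hQ0 hQ h

lemma glue_r2 (Q : Pt P) (hQ0 : Q ≠ 0) (hQ : P.p • Q = 0) : ¬ ∀ σ : GQ, σ • Q = Q := by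
  intro hfix
  obtain ⟨A, -, hA, -⟩ := S54.exists_frobenius 2 Nat.prime_two
  obtain ⟨h1, h2, hβ, hs, hs0, hvp⟩ := glue_two_hyps (P := P) A hA
  have hv2 : A.valuation ((2 : ℕ) : Qbar) < 1 := (A.mem_nonunits_iff).mp hA
  have h20 : ((2 : ℕ) : Qbar) ≠ 0 := by norm_num
  have hv20 : A.valuation ((2 : ℕ) : Qbar) ≠ 0 := (A.valuation.ne_zero_iff).mpr h20
  refine (modelTwo P).M.no_rational_torsion A.valuation h1 h2 hβ hs hs0 P.pp P.hp5 hvp
    (π := ((2 : ℕ) : Qbar)) hv2 h20 (Set.range (algebraMap ℚ Qbar)) ?_ ?_ ?_ hQ0 hQ ?_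
  · rintro _ ⟨q, rfl⟩ hq
    exact val_rat_sub_one_lt A hA q hq
  · rintro _ ⟨q, rfl⟩ hq
    exact val_rat_eq_zpow A Nat.prime_two hA q (fun h => hq (by rw [h, _root_.map_zero]))
  · have hab : ((P.a * P.b : ℤ) : ℚ) ≠ 0 := by exact_mod_cast mul_ne_zero P.ha0 P.hb0
    obtain ⟨m, hm⟩ := val_rat_eq_zpow A Nat.prime_two hA ((P.a * P.b : ℤ) : ℚ) hab
    have hm' : A.valuation (((P.a * P.b : ℤ) : Qbar)) = A.valuation ((2 : ℕ) : Qbar) ^ m := by
      rw [← hm]; congr 1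
    refine ⟨2 * m, ?_⟩
    have e : (P.freyCurveInt.a₄ : Qbar) * ((2 : ℕ) : Qbar) ^ 4 = -(((P.a * P.b : ℤ) : Qbar)) ^ P.p := by
      have := congrArg (Int.cast : ℤ → Qbar) (sixteen_mul_a₄ P)
      push_cast at this ⊢
      linear_combination this
    have e' := congrArg A.valuation e
    rw [map_mul, map_pow, Valuation.map_neg, map_pow, hm'] at e'
    calc A.valuation (P.freyCurveInt.a₄ : Qbar) * A.valuation (P.freyCurveInt.a₄ : Qbar)
          * A.valuation ((2 : ℕ) : Qbar) ^ 8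
        = (A.valuation (P.freyCurveInt.a₄ : Qbar) * A.valuation ((2 : ℕ) : Qbar) ^ 4) *
          (A.valuation (P.freyCurveInt.a₄ : Qbar) * A.valuation ((2 : ℕ) : Qbar) ^ 4) := by
          rw [show (8 : ℕ) = 4 + 4 from rfl, pow_add, mul_mul_mul_comm]
      _ = _ := by
          rw [e', ← mul_pow, ← zpow_add₀ hv20, two_mul]
  · intro n
    obtain ⟨q, hq⟩ := rat_of_fixed' ((modelTwo P).M.X (n • Q)) (by
      intro σ
      rw [← (modelTwo P).X_smul]
      congr 1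
      have : σ • (n • Q) = n • (σ • Q) := (Point.map (W' := P.freyCurve) σ.toAlgHom).map_nsmul n Q
      rw [this, hfix σ])
    exact ⟨q, by rw [← hq, eq_ratCast]⟩

end Two

/-- All inputs from a model which satisfies CLAIM 1 at `p`. -/
theorem inputs_of_model {a₁ a₂ s : ℤ} (Mg : GalModel P a₁ a₂ s) (hs0 : s ≠ 0)
    (hdisc : (a₁ ^ 2 + 4 * a₂) ^ 2 - 64 * s ≠ 0)
    (hclaim : ∀ (A : ValuationSubring Qbar), A.LiesOverPrime P.p → ∀ (σ : GQ)
      (hσ : σ ∈ A.inertiaSubgroupIn ℚ) (Q : Pt P), P.p • Q = 0 →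
        Mg.M.E1 A.valuation ((Mg.actOf A σ hσ).τ Q - Q)) :
    Inputs P Mg.M.X := by
  have hs0' : (s : Qbar) ≠ 0 := by exact_mod_cast hs0
  have hdisc' : ((a₁ : Qbar) ^ 2 + 4 * (a₂ : Qbar)) ^ 2 - 64 * (s : Qbar) ≠ 0 := by
    exact_mod_cast hdisc
  have hE1 : ∀ (A : ValuationSubring Qbar) (Q : Pt P),
      (Q = 0 ∨ Mg.M.X Q ∉ A) ↔ Mg.M.E1 A.valuation Q := by
    intro A Q
    unfold WModel.E1
    rw [← not_le, A.valuation_le_one_iff]
  have hcard := Mg.M.card_torsion_le hs0' hdisc' P.hp_odd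
  refine
    { X_smul := Mg.X_smul
      X_inj := fun Q R hQ hR h => Mg.M.eq_or_eq_neg hQ hR h
      exists_tor := Mg.M.exists_torsion hs0' hdisc' P.hp_odd (glue_one_lt P)
      finite_tor := ?_
      card_tor := ?_
      minkowski := eq_top_of_inertia_le
      ev2 := glue_ev2
      r2 := glue_r2
      evp := ?_
      e1_add := ?_
      f4 := ?_ }
  · have : Finite ((Submodule.torsionBy ℤ (Pt P) (P.p : ℤ) : Submodule ℤ (Pt P)) : Set (Pt P)) := by
      rw [glue_tor_set]; exact hcard.1.to_subtype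
    exact this
  · have : Nat.card ((Submodule.torsionBy ℤ (Pt P) (P.p : ℤ) : Submodule ℤ (Pt P)) : Set (Pt P))
        ≤ P.p ^ 2 := by
      rw [glue_tor_set, Nat.card_coe_set_eq]; exact hcard.2
    exact this
  · intro A hA σ hσ Q hQ0 hQ hint ⟨k, hk⟩
    have h := hclaim A hA σ hσ Q hQ
    rw [GalModel.actOf_τ] at h
    have e : σ • Q - Q = (k + (P.p - 1)) • Q := by
      have h1 : (P.p - 1) • Q + Q = 0 := by
        rw [← succ_nsmul, Nat.sub_add_cancel P.pp.one_lt.le, hQ]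
      rw [hk, add_nsmul, eq_neg_of_add_eq_zero_left h1, sub_eq_add_neg]
    rcases h with h | h
    · exact sub_eq_zero.mp h
    · by_cases h0 : (k + (P.p - 1)) • Q = 0
      · rw [← e] at h0; exact sub_eq_zero.mp h0
      · exfalso
        have := hint _ h0
        rw [← e, ← A.valuation_le_one_iff] at this
        exact absurd h (not_lt.mpr this)
  · intro A _ Q R hQ hR
    rw [hE1] at hQ hR ⊢
    exact Mg.M.E1_add A.valuation (S05.val_int_le_one _ _) (S05.val_int_le_one _ _)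
      (S05.val_int_le_one _ _) hQ hR
  · intro A _ hall S hS
    refine Mg.M.prod_val_le hs0' hdisc' A.valuation (S05.val_int_le_one _ _)
      (S05.val_int_le_one _ _) (S05.val_int_le_one _ _) P.hp_odd (glue_one_lt P) ?_ S hS
    intro Q hQ0 hQ
    rw [← not_le, A.valuation_le_one_iff]
    exact hall Q hQ0 hQ

section AtP

variable (P)

lemma glue_prime : Prime (P.p : ℤ) := Nat.prime_iff_prime_int.mp P.pp

lemma glue_not_dvd_const {n : ℤ} (h0 : 0 < n) (h : n < 5) : ¬ (P.p : ℤ) ∣ n := by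
  intro hd
  have h1 := Int.le_of_dvd h0 hd
  have h2 : (5 : ℤ) ≤ P.p := by exact_mod_cast P.hp5
  omega

lemma glue_not_dvd_of_gcd {x y : ℤ} (hg : gcd x y = 1) (hx : (P.p : ℤ) ∣ x) : ¬ (P.p : ℤ) ∣ y := by
  intro hy
  have h1 : (P.p : ℤ) ∣ gcd x y := dvd_gcd hx hy
  rw [hg] at h1
  exact (glue_prime P).not_isUnit (isUnit_of_dvd_one h1)

lemma glue_dvd_pow_iff {x : ℤ} : (P.p : ℤ) ∣ x ^ P.p ↔ (P.p : ℤ) ∣ x :=
  ⟨fun h => (glue_prime P).dvd_of_dvd_pow h, fun h => dvd_pow h P.hp0⟩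

theorem exists_inputs : ∃ X : Pt P → Qbar, Inputs P X := by
  have hpr := glue_prime P
  have h4 : ¬ (P.p : ℤ) ∣ 4 := glue_not_dvd_const P (by norm_num) (by norm_num)
  have hvp : ∀ A : ValuationSubring Qbar, A.LiesOverPrime P.p → A.valuation (P.p : Qbar) < 1 :=
    fun A hA => (A.mem_nonunits_iff).mp hA
  by_cases hc : (P.p : ℤ) ∣ P.c
  · -- multiplicative reduction, node at `x = a ^ p / 4`
    have hna : ¬ (P.p : ℤ) ∣ P.a := by
      intro ha
      exact glue_not_dvd_of_gcd P P.hgcdac ha hc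
    have hs0 : (P.a * P.c) ^ P.p ≠ 0 := pow_ne_zero _ (mul_ne_zero P.ha0 P.hc0)
    have hd : ((0 : ℤ) ^ 2 + 4 * (2 * P.a ^ P.p + P.b ^ P.p)) ^ 2 - 64 * (P.a * P.c) ^ P.p
        = 16 * (P.b ^ P.p) ^ 2 := by
      rw [mul_pow, ← P.hFLT]; ring
    refine ⟨_, inputs_of_model (modelOddC P) hs0 ?_ ?_⟩
    · rw [hd]
      exact mul_ne_zero (by norm_num) (pow_ne_zero _ (pow_ne_zero _ P.hb0))
    · intro A hA σ hσ Q hQ
      refine ((modelOddC P).actOf A σ hσ).claim1_mult (S05.val_int_le_one _ _)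
        (S05.val_int_le_one _ _) ?_ ?_ (by exact_mod_cast hs0) P.pp (glue_hp2 P)
        (δ := ((P.a * P.c : ℤ) : Qbar)) ?_ ?_ hQ
      · have e : (((0 : ℤ) : Qbar)) ^ 2 + 4 * ((2 * P.a ^ P.p + P.b ^ P.p : ℤ) : Qbar)
            = (((0 : ℤ) ^ 2 + 4 * (2 * P.a ^ P.p + P.b ^ P.p) : ℤ) : Qbar) := by push_cast; ring
        rw [e]
        apply S05.val_int_eq_one _ P.pp (hvp A hA)
        intro h
        have e2 : (0 : ℤ) ^ 2 + 4 * (2 * P.a ^ P.p + P.b ^ P.p) = 4 * (P.a ^ P.p + P.c ^ P.p) := by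
          rw [← P.hFLT]; ring
        rw [e2] at h
        rcases hpr.dvd_or_dvd h with h | h
        · exact h4 h
        · have h5 : (P.p : ℤ) ∣ P.a ^ P.p :=
            (dvd_add_left ((glue_dvd_pow_iff P).mpr hc)).mp h
          exact hna ((glue_dvd_pow_iff P).mp h5)
      · exact S05.val_int_lt_one _ (hvp A hA) ((glue_dvd_pow_iff P).mpr (Dvd.dvd.mul_left hc _))
      · rw [GalModel.actOf_φ]; exact map_intCast σ _
      · rw [← map_pow]; congr 1; push_cast; ring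
  · have hs0 : -(P.a * P.b) ^ P.p ≠ 0 :=
      neg_ne_zero.mpr (pow_ne_zero _ (mul_ne_zero P.ha0 P.hb0))
    have hd : ((0 : ℤ) ^ 2 + 4 * (P.b ^ P.p - P.a ^ P.p)) ^ 2 - 64 * -(P.a * P.b) ^ P.p
        = 16 * (P.c ^ P.p) ^ 2 := by
      rw [mul_pow, ← P.hFLT]; ring
    have hd0 : ((0 : ℤ) ^ 2 + 4 * (P.b ^ P.p - P.a ^ P.p)) ^ 2 - 64 * -(P.a * P.b) ^ P.p ≠ 0 := by
      rw [hd]
      exact mul_ne_zero (by norm_num) (pow_ne_zero _ (pow_ne_zero _ P.hc0))
    refine ⟨_, inputs_of_model (modelOdd P) hs0 hd0 ?_⟩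
    intro A hA σ hσ Q hQ
    by_cases hab : (P.p : ℤ) ∣ P.a * P.b
    · -- multiplicative reduction, node at `x = 0`
      refine ((modelOdd P).actOf A σ hσ).claim1_mult (S05.val_int_le_one _ _)
        (S05.val_int_le_one _ _) ?_ ?_ (by exact_mod_cast hs0) P.pp (glue_hp2 P)
        (δ := ((-(P.a * P.b) : ℤ) : Qbar)) ?_ ?_ hQ
      · have e : (((0 : ℤ) : Qbar)) ^ 2 + 4 * ((P.b ^ P.p - P.a ^ P.p : ℤ) : Qbar)
            = (((0 : ℤ) ^ 2 + 4 * (P.b ^ P.p - P.a ^ P.p) : ℤ) : Qbar) := by push_cast; ring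
        rw [e]
        apply S05.val_int_eq_one _ P.pp (hvp A hA)
        intro h
        have e2 : (0 : ℤ) ^ 2 + 4 * (P.b ^ P.p - P.a ^ P.p) = 4 * (P.b ^ P.p - P.a ^ P.p) := by ring
        rw [e2] at h
        rcases hpr.dvd_or_dvd h with h | h
        · exact h4 h
        · rcases hpr.dvd_or_dvd hab with ha | hb
          · have h5 : (P.p : ℤ) ∣ P.b ^ P.p :=
              (dvd_sub_left ((glue_dvd_pow_iff P).mpr ha)).mp h
            exact glue_not_dvd_of_gcd P P.hgcdab ha ((glue_dvd_pow_iff P).mp h5)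
          · have h5 : (P.p : ℤ) ∣ P.a ^ P.p :=
              (dvd_sub_right ((glue_dvd_pow_iff P).mpr hb)).mp h
            exact glue_not_dvd_of_gcd P P.hgcdab ((glue_dvd_pow_iff P).mp h5) hb
      · exact S05.val_int_lt_one _ (hvp A hA) ((dvd_neg).mpr ((glue_dvd_pow_iff P).mpr hab))
      · rw [GalModel.actOf_φ]; exact map_intCast σ _
      · rw [← map_pow]; congr 1
        rw [← Int.cast_pow, P.hp_odd.neg_pow]
    · -- good reduction
      refine ((modelOdd P).actOf A σ hσ).claim1_good (S05.val_int_le_one _ _)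
        (S05.val_int_le_one _ _) ?_ ?_ P.pp (glue_hp2 P) hQ
      · apply S05.val_int_eq_one _ P.pp (hvp A hA)
        intro h
        exact hab ((glue_dvd_pow_iff P).mp ((dvd_neg).mp h))
      · have e : ((((0 : ℤ) : Qbar)) ^ 2 + 4 * ((P.b ^ P.p - P.a ^ P.p : ℤ) : Qbar)) ^ 2
            - 64 * ((-(P.a * P.b) ^ P.p : ℤ) : Qbar)
            = ((16 * (P.c ^ P.p) ^ 2 : ℤ) : Qbar) := by
          rw [← hd]; push_cast; ring
        rw [e]
        apply S05.val_int_eq_one _ P.pp (hvp A hA)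
        intro h
        rcases hpr.dvd_or_dvd h with h | h
        · have e16 : (16 : ℤ) = 4 * 4 := by norm_num
          rw [e16] at h
          rcases hpr.dvd_or_dvd h with h | h <;> exact h4 h
        · exact hc ((glue_dvd_pow_iff P).mp (hpr.dvd_of_dvd_pow h))

end AtP

end Fermat.Agent.S13
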