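import Mathlib

/-!
# S13: abstract linear algebra over `𝔽_p` for a group acting on a plane with a stable line
-/

set_option autoImplicit false

namespace Fermat.Agent.S13

section Abstract

variable {p : ℕ} [hp : Fact p.Prime]
variable {V : Type*} [AddCommGroup V] [Module (ZMod p) V]

lemma zmod_smul_eq_nsmul (a : ZMod p) (v : V) : a • v = a.val • v := by
  conv_lhs => rw [← ZMod.natCast_zmod_val a]
  exact Nat.cast_smul_eq_nsmul (ZMod p) a.val v

variable {G : Type*} [Group G] [DistribMulAction G V]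

lemma smul_zmod_smul (σ : G) (a : ZMod p) (v : V) : σ • (a • v) = a • (σ • v) := by
  rw [zmod_smul_eq_nsmul, zmod_smul_eq_nsmul]
  exact (DistribSMul.toAddMonoidHom V σ).map_nsmul a.val v

/-- A plane is spanned by a nonzero vector of a proper subspace and a vector outside of it. -/
lemma exists_decomp [Finite V] (hcard : Nat.card V ≤ p ^ 2) (N : Submodule (ZMod p) V)
    {P0 x0 : V} (hP0 : P0 ∈ N) (hP0' : P0 ≠ 0) (hx0 : x0 ∉ N) (y : V) :
    ∃ a b : ZMod p, y = a • x0 + b • P0 := by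
  classical
  let f : ZMod p × ZMod p → V := fun ab => ab.1 • x0 + ab.2 • P0
  have hinj : Function.Injective f := by
    rintro ⟨a, b⟩ ⟨a', b'⟩ h
    simp only [f] at h
    have h1 : (a - a') • x0 = (b' - b) • P0 := by
      rw [sub_smul, sub_smul, sub_eq_sub_iff_add_eq_add]
      rw [add_comm (b' • P0)]
      exact h
    have ha : a - a' = 0 := by
      by_contra hne
      apply hx0
      have : x0 = (a - a')⁻¹ • ((b' - b) • P0) := by
        rw [← h1, smul_smul, inv_mul_cancel₀ hne, one_smul]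
      rw [this]
      exact N.smul_mem _ (N.smul_mem _ hP0)
    rw [ha, zero_smul] at h1
    have hb : b' - b = 0 := by
      by_contra hne
      apply hP0'
      have : P0 = (b' - b)⁻¹ • ((b' - b) • P0) := by
        rw [smul_smul, inv_mul_cancel₀ hne, one_smul]
      rw [this, ← h1, smul_zero]
    rw [sub_eq_zero.mp ha, (sub_eq_zero.mp hb)]
  have hcard2 : Nat.card (ZMod p × ZMod p) = p ^ 2 := by
    rw [Nat.card_prod, Nat.card_zmod, pow_two]
  have hsurj : Function.Surjective f := by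
    have hle : Nat.card V ≤ Nat.card (ZMod p × ZMod p) := by rw [hcard2]; exact hcard
    exact (Function.Injective.bijective_of_nat_card_le hinj hle).2
  obtain ⟨⟨a, b⟩, hab⟩ := hsurj y
  exact ⟨a, b, hab.symm⟩

/-- Elements of the line are multiples of a nonzero vector. -/
lemma exists_smul_of_mem [Finite V] (hcard : Nat.card V ≤ p ^ 2) (N : Submodule (ZMod p) V)
    {P0 x0 : V} (hP0 : P0 ∈ N) (hP0' : P0 ≠ 0) (hx0 : x0 ∉ N) {y : V} (hy : y ∈ N) :
    ∃ b : ZMod p, y = b • P0 := by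
  obtain ⟨a, b, hab⟩ := exists_decomp hcard N hP0 hP0' hx0 y
  refine ⟨b, ?_⟩
  have ha : a = 0 := by
    by_contra hne
    apply hx0
    have h1 : a • x0 = y - b • P0 := by rw [hab]; abel
    have : x0 = a⁻¹ • (y - b • P0) := by
      rw [← h1, smul_smul, inv_mul_cancel₀ hne, one_smul]
    rw [this]
    exact N.smul_mem _ (N.sub_mem hy (N.smul_mem _ hP0))
  rw [hab, ha, zero_smul, zero_add]

/-- **Eigenvector trick.**  Let `I` be a subgroup of `G` such that every eigenvector `Q` (with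
property `T`) of an element of `I` is fixed.  If every vector outside the stable line `N`
satisfies `T`, then `I` acts trivially on `V / N`. -/
theorem sub_mem_of_eigen [Finite V] (hcard : Nat.card V ≤ p ^ 2) (N : Submodule (ZMod p) V)
    (hstab : ∀ σ : G, ∀ x ∈ N, σ • x ∈ N) (hbot : N ≠ ⊥)
    (I : Subgroup G) (T : V → Prop)
    (hT : ∀ σ ∈ I, ∀ Q : V, Q ≠ 0 → T Q → (∃ k : ℕ, σ • Q = k • Q) → σ • Q = Q)
    (hTN : ∀ Q : V, Q ∉ N → T Q) (σ : G) (hσ : σ ∈ I) (x : V) : σ • x - x ∈ N := by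
  by_cases hx : x ∈ N
  · exact N.sub_mem (hstab σ x hx) hx
  obtain ⟨P0, hP0, hP0'⟩ := (Submodule.ne_bot_iff N).mp hbot
  obtain ⟨c₁, hc₁⟩ := exists_smul_of_mem hcard N hP0 hP0' hx (hstab σ P0 hP0)
  obtain ⟨c₂, d, hc₂⟩ := exists_decomp hcard N hP0 hP0' hx (σ • x)
  have hx0 : x ≠ 0 := fun h => hx (h ▸ N.zero_mem)
  by_cases h1 : c₂ = 1
  · rw [hc₂, h1, one_smul, add_sub_cancel_left]
    exact N.smul_mem _ hP0
  exfalso
  by_cases h12 : c₂ = c₁
  · -- `σ ^ p` acts on `x` by the scalar `c₂`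
    have hpow : ∀ k : ℕ, (σ ^ k) • x = c₂ ^ k • x + ((k : ZMod p) * c₂ ^ (k - 1) * d) • P0 := by
      intro k
      induction k with
      | zero => simp
      | succ k ih =>
        rw [pow_succ', mul_smul, ih, smul_add, smul_zmod_smul, smul_zmod_smul, hc₂, hc₁, ← h12,
          smul_add, smul_smul, smul_smul, smul_smul, add_assoc, ← add_smul, ← pow_succ]
        congr 2
        rcases k with _ | k
        · simp
        · simp only [Nat.add_sub_cancel]
          push_cast
          ring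
    have h2 := hpow p
    rw [ZMod.pow_card, CharP.cast_eq_zero, zero_mul, zero_mul, zero_smul, add_zero] at h2
    have h3 := hT (σ ^ p) (I.pow_mem hσ p) x hx0 (hTN x hx)
      ⟨c₂.val, by rw [h2, zmod_smul_eq_nsmul]⟩
    rw [h2] at h3
    have h4 : (c₂ - 1) • x = 0 := by rw [sub_smul, one_smul, h3, sub_self]
    rcases smul_eq_zero.mp h4 with h5 | h5
    · exact h1 (sub_eq_zero.mp h5)
    · exact hx0 h5
  · have hne : c₂ - c₁ ≠ 0 := sub_ne_zero.mpr h12
    set Q : V := x + ((c₂ - c₁)⁻¹ * d) • P0 with hQ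
    have hQN : Q ∉ N := by
      intro h
      apply hx
      have : x = Q - ((c₂ - c₁)⁻¹ * d) • P0 := by rw [hQ]; abel
      rw [this]
      exact N.sub_mem h (N.smul_mem _ hP0)
    have hQ0 : Q ≠ 0 := fun h => hQN (h ▸ N.zero_mem)
    have hσQ : σ • Q = c₂ • Q := by
      rw [hQ, smul_add, smul_zmod_smul, hc₂, hc₁, smul_add, smul_smul, smul_smul, add_assoc,
        ← add_smul]
      congr 2
      field_simp
      ring
    have h3 := hT σ hσ Q hQ0 (hTN Q hQN) ⟨c₂.val, by rw [hσQ, zmod_smul_eq_nsmul]⟩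
    rw [hσQ] at h3
    have h4 : (c₂ - 1) • Q = 0 := by rw [sub_smul, one_smul, h3, sub_self]
    rcases smul_eq_zero.mp h4 with h5 | h5
    · exact h1 (sub_eq_zero.mp h5)
    · exact hQ0 h5

/-- If every eigenvector in `N` of an element of `I` is fixed, `I` fixes `N` pointwise. -/
theorem fix_of_eigen [Finite V] (hcard : Nat.card V ≤ p ^ 2) (N : Submodule (ZMod p) V)
    (hstab : ∀ σ : G, ∀ x ∈ N, σ • x ∈ N) (htop : N ≠ ⊤)
    (I : Subgroup G) (T : V → Prop)
    (hT : ∀ σ ∈ I, ∀ Q : V, Q ≠ 0 → T Q → (∃ k : ℕ, σ • Q = k • Q) → σ • Q = Q)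
    (hTN : ∀ Q ∈ N, Q ≠ 0 → T Q) (σ : G) (hσ : σ ∈ I) (x : V) (hx : x ∈ N) : σ • x = x := by
  by_cases hx0 : x = 0
  · rw [hx0, smul_zero]
  obtain ⟨x0, -, hx0N⟩ := SetLike.exists_of_lt (lt_top_iff_ne_top.mpr htop)
  obtain ⟨c, hc⟩ := exists_smul_of_mem hcard N hx hx0 hx0N (hstab σ x hx)
  exact hT σ hσ x hx0 (hTN x hx hx0) ⟨c.val, by rw [hc, zmod_smul_eq_nsmul]⟩

end Abstract

end Fermat.Agent.S13

namespace Fermat.Agent.S13

section Subgroups

variable {p : ℕ}
variable {V : Type*} [AddCommGroup V] [Module (ZMod p) V]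
variable {G : Type*} [Group G] [DistribMulAction G V]

/-- The pointwise fixer of a submodule. -/
def fixer (G : Type*) [Group G] [DistribMulAction G V] (N : Submodule (ZMod p) V) : Subgroup G where
  carrier := {σ | ∀ x ∈ N, σ • x = x}
  one_mem' := fun x _ => one_smul G x
  mul_mem' := by
    intro σ τ hσ hτ x hx
    rw [mul_smul, hτ x hx, hσ x hx]
  inv_mem' := by
    intro σ hσ x hx
    rw [inv_smul_eq_iff, hσ x hx]

lemma mem_fixer {N : Submodule (ZMod p) V} {σ : G} : σ ∈ fixer G N ↔ ∀ x ∈ N, σ • x = x := Iff.rfl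

lemma fixer_normal (N : Submodule (ZMod p) V) (hstab : ∀ σ : G, ∀ x ∈ N, σ • x ∈ N) :
    (fixer G N).Normal := by
  constructor
  intro σ hσ τ x hx
  rw [mul_smul, mul_smul, hσ _ (hstab τ⁻¹ x hx), smul_inv_smul]

/-- The subgroup acting trivially on `V / N`. -/
def cofixer (G : Type*) [Group G] [DistribMulAction G V] (N : Submodule (ZMod p) V)
    (hstab : ∀ σ : G, ∀ x ∈ N, σ • x ∈ N) : Subgroup G where
  carrier := {σ | ∀ x : V, σ • x - x ∈ N}
  one_mem' := fun x => by rw [one_smul, sub_self]; exact N.zero_mem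
  mul_mem' := by
    intro σ τ hσ hτ x
    have : (σ * τ) • x - x = σ • (τ • x - x) + (σ • x - x) := by
      rw [mul_smul, smul_sub]; abel
    rw [this]
    exact N.add_mem (hstab σ _ (hτ x)) (hσ x)
  inv_mem' := by
    intro σ hσ x
    have : σ⁻¹ • x - x = - (σ⁻¹ • (σ • x - x)) := by
      rw [smul_sub, inv_smul_smul]; abel
    rw [this]
    exact N.neg_mem (hstab σ⁻¹ _ (hσ x))

lemma mem_cofixer {N : Submodule (ZMod p) V} {hstab : ∀ σ : G, ∀ x ∈ N, σ • x ∈ N} {σ : G} :
    σ ∈ cofixer G N hstab ↔ ∀ x : V, σ • x - x ∈ N := Iff.rfl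

lemma cofixer_normal (N : Submodule (ZMod p) V) (hstab : ∀ σ : G, ∀ x ∈ N, σ • x ∈ N) :
    (cofixer G N hstab).Normal := by
  constructor
  intro σ hσ τ x
  have : (τ * σ * τ⁻¹) • x - x = τ • (σ • (τ⁻¹ • x) - τ⁻¹ • x) := by
    rw [mul_smul, mul_smul, smul_sub, smul_inv_smul]
  rw [this]
  exact hstab τ _ (hσ _)

lemma isOpen_of_fix_mem [TopologicalSpace G] [IsTopologicalGroup G] [Finite V]
    (hopen : ∀ x : V, IsOpen (MulAction.stabilizer G x : Set G)) (H : Subgroup G)
    (hH : ∀ σ : G, (∀ x : V, σ • x = x) → σ ∈ H) : IsOpen (H : Set G) := by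
  have hU : IsOpen ((⨅ x : V, MulAction.stabilizer G x : Subgroup G) : Set G) := by
    rw [Subgroup.coe_iInf]
    exact isOpen_iInter_of_finite hopen
  refine Subgroup.isOpen_mono ?_ hU
  intro σ hσ
  apply hH
  intro x
  exact (Subgroup.mem_iInf.mp hσ) x

end Subgroups

end Fermat.Agent.S13
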