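import Fermat.Statements.S13
import Fermat.Agent.S13.LinAlg
import Fermat.Agent.S05

/-!
# S13: assembly of the proof from the local inputs
-/

set_option autoImplicit false

namespace Fermat.Agent.S13

open WeierstrassCurve WeierstrassCurve.Affine WeierstrassCurve.Affine.Point

local notation "Qbar" => AlgebraicClosure ℚ
local notation "GQ" => (AlgebraicClosure ℚ ≃ₐ[ℚ] AlgebraicClosure ℚ)

/-- Points of the Frey curve over `ℚ̄`. -/
abbrev Pt (P : FreyPackage) : Type := (P.freyCurve⁄Qbar).Point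

/-- The `p`-torsion of the Frey curve. -/
abbrev Tor (P : FreyPackage) : Type := Submodule.torsionBy ℤ (P.freyCurve⁄Qbar).Point P.p

/-- The `x`-coordinate, with junk value `0` at the origin. -/
noncomputable def xc (P : FreyPackage) : Pt P → Qbar
  | .zero => 0
  | .some x _ _ => x

/-- The `y`-coordinate, with junk value `0` at the origin. -/
noncomputable def yc (P : FreyPackage) : Pt P → Qbar
  | .zero => 0
  | .some _ y _ => y

variable {P : FreyPackage}

lemma xc_smul (σ : GQ) (Q : Pt P) : xc P (σ • Q) = σ (xc P Q) := by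
  match Q with
  | .zero => exact (map_zero σ).symm
  | .some x y h => rfl

lemma yc_smul (σ : GQ) (Q : Pt P) : yc P (σ • Q) = σ (yc P Q) := by
  match Q with
  | .zero => exact (map_zero σ).symm
  | .some x y h => rfl

lemma xc_eq_iff {Q R : Pt P} (hQ : Q ≠ 0) (hR : R ≠ 0) :
    xc P Q = xc P R ↔ Q = R ∨ Q = -R := by
  match Q, R with
  | .zero, _ => exact absurd rfl hQ
  | _, .zero => exact absurd rfl hR
  | .some x₁ y₁ h₁, .some x₂ y₂ h₂ => exact Point.X_eq_iff

lemma pt_ext {Q R : Pt P} (hQ : Q ≠ 0) (hR : R ≠ 0) (hx : xc P Q = xc P R)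
    (hy : yc P Q = yc P R) : Q = R := by
  match Q, R with
  | .zero, _ => exact absurd rfl hQ
  | _, .zero => exact absurd rfl hR
  | .some x₁ y₁ h₁, .some x₂ y₂ h₂ =>
    simp only [xc, yc] at hx hy
    subst hx
    subst hy
    rfl

lemma smul_ne_zero_pt (σ : GQ) {Q : Pt P} (hQ : Q ≠ 0) : σ • Q ≠ 0 := by
  intro h
  apply hQ
  have := congrArg (fun R => σ⁻¹ • R) h
  simp only [inv_smul_smul] at this
  rw [this]
  rfl

lemma tor_nsmul (x : Tor P) : P.p • x.1 = 0 := by
  have h := (Submodule.mem_torsionBy_iff _ _).mp x.2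
  rwa [natCast_zsmul] at h

/-- The inputs of the assembly.  `X` is a Galois-equivariant `x`-coordinate used at `p`. -/
structure Inputs (P : FreyPackage) (X : Pt P → Qbar) : Prop where
  X_smul : ∀ (σ : GQ) (Q : Pt P), X (σ • Q) = σ (X Q)
  X_inj : ∀ Q R : Pt P, Q ≠ 0 → R ≠ 0 → X Q = X R → Q = R ∨ Q = -R
  exists_tor : ∃ Q : Pt P, Q ≠ 0 ∧ P.p • Q = 0
  finite_tor : Finite (Tor P)
  card_tor : Nat.card (Tor P) ≤ P.p ^ 2
  minkowski : ∀ H : Subgroup GQ, H.Normal → IsOpen (H : Set GQ) →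
    (∀ ℓ : ℕ, ℓ.Prime → ∀ A : ValuationSubring Qbar, A.LiesOverPrime ℓ →
      A.inertiaSubgroupIn ℚ ≤ H) → H = ⊤
  ev2 : ∀ A : ValuationSubring Qbar, A.LiesOverPrime 2 → ∀ σ ∈ A.inertiaSubgroupIn ℚ,
    ∀ Q : Pt P, Q ≠ 0 → P.p • Q = 0 → (∃ k : ℕ, σ • Q = k • Q) → σ • Q = Q
  r2 : ∀ Q : Pt P, Q ≠ 0 → P.p • Q = 0 → ¬ ∀ σ : GQ, σ • Q = Q
  evp : ∀ A : ValuationSubring Qbar, A.LiesOverPrime P.p → ∀ σ ∈ A.inertiaSubgroupIn ℚ,
    ∀ Q : Pt P, Q ≠ 0 → P.p • Q = 0 → (∀ j : ℕ, j • Q ≠ 0 → X (j • Q) ∈ A) →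
      (∃ k : ℕ, σ • Q = k • Q) → σ • Q = Q
  e1_add : ∀ A : ValuationSubring Qbar, A.LiesOverPrime P.p → ∀ Q R : Pt P,
    (Q = 0 ∨ X Q ∉ A) → (R = 0 ∨ X R ∉ A) → (Q + R = 0 ∨ X (Q + R) ∉ A)
  f4 : ∀ A : ValuationSubring Qbar, A.LiesOverPrime P.p →
    (∀ Q : Pt P, Q ≠ 0 → P.p • Q = 0 → X Q ∉ A) → ∀ S : Finset Qbar,
    (∀ r ∈ S, ∃ Q : Pt P, Q ≠ 0 ∧ P.p • Q = 0 ∧ X Q = r) →
      A.valuation (P.p : Qbar) * ∏ r ∈ S, A.valuation r ≤ 1

lemma Inputs.e1_nsmul {X : Pt P → Qbar} (hI : Inputs P X) (A : ValuationSubring Qbar)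
    (hA : A.LiesOverPrime P.p) {Q : Pt P} (hQ : Q = 0 ∨ X Q ∉ A) (j : ℕ) :
    j • Q = 0 ∨ X (j • Q) ∉ A := by
  induction j with
  | zero => left; exact zero_nsmul Q
  | succ j ih => rw [succ_nsmul]; exact hI.e1_add A hA _ _ ih hQ

section Val

variable (A : ValuationSubring Qbar) {p : ℕ} (hp : p.Prime) (hA : A.LiesOverPrime p)

include hp hA

lemma val_rat_le_one {q : ℚ} (h : ¬ p ∣ q.den) : A.valuation (q : Qbar) ≤ 1 := by
  have hvp : A.valuation (p : Qbar) < 1 := (A.mem_nonunits_iff).mp hA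
  have hden : A.valuation ((q.den : ℤ) : Qbar) = 1 :=
    S05.val_int_eq_one A.valuation hp hvp (by exact_mod_cast h)
  have hq : (q : Qbar) = ((q.num : ℤ) : Qbar) / ((q.den : ℤ) : Qbar) := by
    conv_lhs => rw [← Rat.num_div_den q]
    push_cast
    rfl
  rw [hq, map_div₀, hden, div_one]
  exact S05.val_int_le_one A.valuation q.num

lemma one_le_val_rat_mul {q : ℚ} (h : p ∣ q.den) :
    1 ≤ A.valuation (q : Qbar) * A.valuation (p : Qbar) := by
  have hvp : A.valuation (p : Qbar) < 1 := (A.mem_nonunits_iff).mp hA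
  have hp0 : (p : Qbar) ≠ 0 := by exact_mod_cast hp.ne_zero
  have hvp0 : A.valuation (p : Qbar) ≠ 0 := (A.valuation.ne_zero_iff).mpr hp0
  obtain ⟨d, hd⟩ := h
  have hnum : A.valuation ((q.num : ℤ) : Qbar) = 1 := by
    apply S05.val_int_eq_one A.valuation hp hvp
    intro hdvd
    have h1 : p ∣ q.num.natAbs := Int.natCast_dvd.mp hdvd
    have h2 : p ∣ q.den := ⟨d, hd⟩
    have h3 := Nat.dvd_gcd h1 h2
    rw [q.reduced] at h3
    exact hp.one_lt.ne' (Nat.dvd_one.mp h3)
  have hd0 : (d : Qbar) ≠ 0 := by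
    intro h0
    have : d = 0 := by exact_mod_cast h0
    rw [this, mul_zero] at hd
    exact q.den_ne_zero hd
  have hq : (q : Qbar) = ((q.num : ℤ) : Qbar) / ((p : Qbar) * (d : Qbar)) := by
    conv_lhs => rw [← Rat.num_div_den q, hd]
    push_cast
    rfl
  rw [hq, map_div₀, hnum, map_mul, one_div, mul_inv, mul_comm (A.valuation (p : Qbar))⁻¹,
    mul_assoc, inv_mul_cancel₀ hvp0, mul_one]
  have hvd0 : A.valuation (d : Qbar) ≠ 0 := (A.valuation.ne_zero_iff).mpr hd0
  rw [one_le_inv₀ (zero_lt_iff.mpr hvd0)]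
  have := S05.val_int_le_one A.valuation (d : ℤ)
  simp only [Int.cast_natCast] at this
  exact this

end Val

section Open

theorem isAlgClosure_Qbar' : IsAlgClosure ℚ Qbar := @AlgebraicClosure.instIsAlgClosure ℚ _

attribute [local instance] isAlgClosure_Qbar'

lemma stabilizer_tor_isOpen (x : Tor P) : IsOpen (MulAction.stabilizer GQ x : Set GQ) := by
  by_cases hx : x.1 = 0
  · have : MulAction.stabilizer GQ x = ⊤ := by
      rw [eq_top_iff]
      intro σ _
      rw [MulAction.mem_stabilizer_iff]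
      apply Subtype.ext
      change σ • x.1 = x.1
      rw [hx]
      rfl
    rw [this]
    exact isOpen_univ
  · have h1 := stabilizer_isOpen_of_isIntegral (K := ℚ) (L := Qbar) (xc P x.1)
    have h2 := stabilizer_isOpen_of_isIntegral (K := ℚ) (L := Qbar) (yc P x.1)
    have h3 : IsOpen ((MulAction.stabilizer GQ (xc P x.1) ⊓ MulAction.stabilizer GQ (yc P x.1) :
        Subgroup GQ) : Set GQ) := by
      rw [Subgroup.coe_inf]
      exact h1.inter h2
    refine Subgroup.isOpen_mono ?_ h3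
    intro σ hσ
    obtain ⟨hσ1, hσ2⟩ := Subgroup.mem_inf.mp hσ
    rw [MulAction.mem_stabilizer_iff] at hσ1 hσ2 ⊢
    apply Subtype.ext
    change σ • x.1 = x.1
    apply pt_ext (smul_ne_zero_pt σ hx) hx
    · rw [xc_smul]; exact hσ1
    · rw [yc_smul]; exact hσ2

lemma rat_of_fixed' (x : Qbar) (h : ∀ σ : GQ, σ x = x) : ∃ q : ℚ, (q : Qbar) = x := by
  obtain ⟨q, hq⟩ := (InfiniteGalois.mem_range_algebraMap_iff_fixed x).mpr h
  exact ⟨q, by rw [← hq, eq_ratCast]⟩

end Open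

section Main

attribute [local instance] isAlgClosure_Qbar'

lemma one_lt_prod_val {Γ₀ : Type*} [LinearOrderedCommGroupWithZero Γ₀] {ι : Type*}
    (S : Finset ι) (hS : S.Nonempty) (f : ι → Γ₀) (hf : ∀ i ∈ S, 1 < f i) : 1 < ∏ i ∈ S, f i := by
  refine Finset.prod_induction_nonempty f (fun a => 1 < a) ?_ hS hf
  intro a b ha hb
  exact lt_of_lt_of_le ha (le_mul_of_one_le_right' hb.le)

lemma coe_nsmul_tor (k : ℕ) (x : Tor P) : ((k • x : Tor P) : Pt P) = k • (x : Pt P) := rfl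

lemma coe_smul_tor (σ : GQ) (x : Tor P) : ((σ • x : Tor P) : Pt P) = σ • (x : Pt P) := rfl

lemma tor_ne_zero {x : Tor P} (hx : x ≠ 0) : (x : Pt P) ≠ 0 := fun h => hx (Subtype.ext h)

theorem cofixed_of_inputs {X : Pt P → Qbar} (hI : Inputs P X)
    (hred : ¬ GaloisRepIsIrreducible (K := AlgebraicClosure ℚ) ℚ P.freyCurve P.p) :
    HasGaloisStableCofixedLine (K := AlgebraicClosure ℚ) ℚ P.freyCurve P.p := by
  have : Fact P.p.Prime := ⟨P.pp⟩
  have := hI.finite_tor
  have hcard := hI.card_tor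
  have hnt : Nontrivial (Tor P) := by
    obtain ⟨Q, hQ, hpQ⟩ := hI.exists_tor
    refine ⟨⟨⟨Q, ?_⟩, 0, ?_⟩⟩
    · rw [Submodule.mem_torsionBy_iff, natCast_zsmul]; exact hpQ
    · intro h; exact hQ (congrArg Subtype.val h)
  unfold GaloisRepIsIrreducible at hred
  push Not at hred
  obtain ⟨N, hstab, hbot, htop⟩ := hred hnt
  refine ⟨N, hstab, hbot, htop, ?_⟩
  have hstab' : ∀ σ : GQ, ∀ x ∈ N, σ • x ∈ N := hstab
  obtain ⟨P0, hP0, hP0'⟩ := (Submodule.ne_bot_iff N).mp hbot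
  obtain ⟨x0, -, hx0N⟩ := SetLike.exists_of_lt (lt_top_iff_ne_top.mpr htop)
  -- openness
  have hopen1 : IsOpen (fixer GQ N : Set GQ) :=
    isOpen_of_fix_mem stabilizer_tor_isOpen _ (fun σ hσ x _ => hσ x)
  have hopen2 : IsOpen (cofixer GQ N hstab' : Set GQ) :=
    isOpen_of_fix_mem stabilizer_tor_isOpen _ (fun σ hσ x => by
      rw [hσ x, sub_self]; exact N.zero_mem)
  -- primes different from `2` and `p`
  have hS05 : ∀ ℓ : ℕ, ℓ.Prime → ℓ ≠ 2 → ℓ ≠ P.p → ∀ A : ValuationSubring Qbar,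
      A.LiesOverPrime ℓ → ∀ σ ∈ A.inertiaSubgroupIn ℚ, ∀ x : Tor P, σ • x = x :=
    fun ℓ hℓ h2 hp A hA σ hσ x => S05.result P hℓ h2 hp A hA σ hσ x
  -- the prime `2`
  have h2T : ∀ A : ValuationSubring Qbar, A.LiesOverPrime 2 → ∀ σ ∈ A.inertiaSubgroupIn ℚ,
      ∀ Q : Tor P, Q ≠ 0 → True → (∃ k : ℕ, σ • Q = k • Q) → σ • Q = Q := by
    intro A hA σ hσ Q hQ _ ⟨k, hk⟩
    apply Subtype.ext
    exact hI.ev2 A hA σ hσ Q.1 (tor_ne_zero hQ) (tor_nsmul Q) ⟨k, congrArg Subtype.val hk⟩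
  -- the prime `p`
  have hpT : ∀ A : ValuationSubring Qbar, A.LiesOverPrime P.p → ∀ σ ∈ A.inertiaSubgroupIn ℚ,
      ∀ Q : Tor P, Q ≠ 0 → (∀ j : ℕ, j • Q.1 ≠ 0 → X (j • Q.1) ∈ A) →
        (∃ k : ℕ, σ • Q = k • Q) → σ • Q = Q := by
    intro A hA σ hσ Q hQ hint ⟨k, hk⟩
    apply Subtype.ext
    exact hI.evp A hA σ hσ Q.1 (tor_ne_zero hQ) (tor_nsmul Q) hint ⟨k, congrArg Subtype.val hk⟩
  -- the product of the `x`-coordinates of the line
  have hfin : {r : Qbar | ∃ y : Tor P, y ∈ N ∧ y ≠ 0 ∧ X y.1 = r}.Finite := by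
    refine (Set.finite_range (fun y : Tor P => X y.1)).subset ?_
    rintro r ⟨y, -, -, rfl⟩
    exact ⟨y, rfl⟩
  set SN : Finset Qbar := hfin.toFinset with hSN
  have hmemSN : ∀ r, r ∈ SN ↔ ∃ y : Tor P, y ∈ N ∧ y ≠ 0 ∧ X y.1 = r := by
    intro r
    rw [hSN, Set.Finite.mem_toFinset]
    rfl
  have hSNne : SN.Nonempty := ⟨X P0.1, (hmemSN _).mpr ⟨P0, hP0, hP0', rfl⟩⟩
  have hσSN : ∀ σ : GQ, ∀ r ∈ SN, σ r ∈ SN := by
    intro σ r hr
    obtain ⟨y, hy, hy0, rfl⟩ := (hmemSN r).mp hr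
    refine (hmemSN _).mpr ⟨σ • y, hstab' σ y hy, ?_, ?_⟩
    · intro h
      exact smul_ne_zero_pt σ (tor_ne_zero hy0) (congrArg Subtype.val h)
    · rw [coe_smul_tor, hI.X_smul]
  obtain ⟨q, hq⟩ := rat_of_fixed' (∏ r ∈ SN, r) (by
    intro σ
    rw [map_prod]
    refine Finset.prod_bij (fun r _ => σ r) (fun r hr => hσSN σ r hr)
      (fun a _ b _ hab => σ.injective hab) (fun b hb => ⟨σ⁻¹ b, hσSN σ⁻¹ b hb, ?_⟩)
      (fun _ _ => rfl)
    exact σ.apply_symm_apply b)
  have hvq : ∀ A : ValuationSubring Qbar, A.valuation (q : Qbar) = ∏ r ∈ SN, A.valuation r := by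
    intro A
    rw [hq, map_prod]
  by_cases hden : P.p ∣ q.den
  · -- Case I: every point outside the line is integral at `p`
    have hint : ∀ A : ValuationSubring Qbar, A.LiesOverPrime P.p → ∀ Q : Tor P, Q ∉ N →
        X Q.1 ∈ A := by
      intro A hA Q hQN
      by_contra hQA
      have hQ0 : Q ≠ 0 := fun h => hQN (h ▸ N.zero_mem)
      have hQSN : X Q.1 ∉ SN := by
        intro hmem
        obtain ⟨y, hy, hy0, hxy⟩ := (hmemSN _).mp hmem
        rcases hI.X_inj _ _ (tor_ne_zero hy0) (tor_ne_zero hQ0) hxy with h | h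
        · exact hQN ((Subtype.ext h : y = Q) ▸ hy)
        · have : Q = -y := by
            apply Subtype.ext
            change Q.1 = -y.1
            rw [h, neg_neg]
          exact hQN (this ▸ N.neg_mem hy)
      have h6 := one_le_val_rat_mul A P.pp hA hden
      rw [hvq A] at h6
      have hvp : A.valuation (P.p : Qbar) < 1 := (A.mem_nonunits_iff).mp hA
      -- some point of the line is non-integral
      obtain ⟨y, hy, hy0, hyA⟩ : ∃ y : Tor P, y ∈ N ∧ y ≠ 0 ∧ X y.1 ∉ A := by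
        by_contra hcon
        push Not at hcon
        have h9 : ∏ r ∈ SN, A.valuation r ≤ 1 := by
          refine Finset.prod_le_one' ?_
          intro r hr
          obtain ⟨y, hy, hy0, rfl⟩ := (hmemSN r).mp hr
          exact (A.valuation_le_one_iff _).mpr (hcon y hy hy0)
        have h10 : (∏ r ∈ SN, A.valuation r) * A.valuation (P.p : Qbar) < 1 :=
          lt_of_le_of_lt (mul_le_of_le_one_left' h9) hvp
        exact absurd h6 (not_le.mpr h10)
      -- hence all torsion points are non-integral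
      have hall : ∀ R : Pt P, R ≠ 0 → P.p • R = 0 → X R ∉ A := by
        intro R hR hpR
        let R' : Tor P := ⟨R, by rw [Submodule.mem_torsionBy_iff, natCast_zsmul]; exact hpR⟩
        obtain ⟨a, b, hab⟩ := exists_decomp hcard N hy hy0 hQN R'
        rw [zmod_smul_eq_nsmul, zmod_smul_eq_nsmul] at hab
        have hab' : R = a.val • Q.1 + b.val • y.1 := congrArg Subtype.val hab
        have := hI.e1_add A hA _ _ (hI.e1_nsmul A hA (Or.inr hQA) a.val)
          (hI.e1_nsmul A hA (Or.inr hyA) b.val)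
        rw [← hab'] at this
        exact this.resolve_left hR
      have h4 := hI.f4 A hA hall (insert (X Q.1) SN) (by
        intro r hr
        rcases Finset.mem_insert.mp hr with rfl | hr
        · exact ⟨Q.1, tor_ne_zero hQ0, tor_nsmul Q, rfl⟩
        · obtain ⟨y, -, hy0, hxy⟩ := (hmemSN _).mp hr
          exact ⟨y.1, tor_ne_zero hy0, tor_nsmul y, hxy⟩)
      rw [Finset.prod_insert hQSN] at h4
      have h7 : 1 < A.valuation (X Q.1) := by
        rw [← not_le, A.valuation_le_one_iff]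
        exact hQA
      have h8 : A.valuation (X Q.1) ≤
          A.valuation (P.p : Qbar) * (A.valuation (X Q.1) * ∏ r ∈ SN, A.valuation r) := by
        calc A.valuation (X Q.1) = A.valuation (X Q.1) * 1 := (mul_one _).symm
          _ ≤ A.valuation (X Q.1) * ((∏ r ∈ SN, A.valuation r) * A.valuation (P.p : Qbar)) := by
            gcongr
          _ = _ := by rw [mul_comm (∏ r ∈ SN, A.valuation r), mul_left_comm]
      exact absurd (lt_of_lt_of_le h7 (h8.trans h4)) (lt_irrefl _)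
    have htop2 : cofixer GQ N hstab' = ⊤ := by
      apply hI.minkowski _ (cofixer_normal N hstab') hopen2
      intro ℓ hℓ A hA σ hσ
      rw [mem_cofixer]
      intro x
      by_cases hℓ2 : ℓ = 2
      · subst hℓ2
        exact sub_mem_of_eigen hcard N hstab' hbot (A.inertiaSubgroupIn ℚ) (fun _ => True)
          (h2T A hA) (fun _ _ => trivial) σ hσ x
      by_cases hℓp : ℓ = P.p
      · subst hℓp
        refine sub_mem_of_eigen hcard N hstab' hbot (A.inertiaSubgroupIn ℚ)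
          (fun Q => ∀ j : ℕ, j • Q.1 ≠ 0 → X (j • Q.1) ∈ A) (hpT A hA) ?_ σ hσ x
        intro Q hQN j hj
        rw [← coe_nsmul_tor]
        apply hint A hA
        intro hjQ
        -- `j` is invertible mod `p`
        have hj0 : (j : ZMod P.p) ≠ 0 := by
          intro h0
          apply hj
          rw [← coe_nsmul_tor, ← Nat.cast_smul_eq_nsmul (ZMod P.p) j Q, h0, zero_smul]
          rfl
        apply hQN
        have : Q = (j : ZMod P.p)⁻¹ • (j • Q) := by
          rw [← Nat.cast_smul_eq_nsmul (ZMod P.p) j Q, smul_smul, inv_mul_cancel₀ hj0, one_smul]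
        rw [this]
        exact N.smul_mem _ hjQ
      · rw [hS05 ℓ hℓ hℓ2 hℓp A hA σ hσ x, sub_self]
        exact N.zero_mem
    intro σ x
    have : σ ∈ cofixer GQ N hstab' := by rw [htop2]; exact Subgroup.mem_top σ
    exact this x
  · -- Case II: the line is integral at `p`, hence rational: contradiction
    exfalso
    have hint : ∀ A : ValuationSubring Qbar, A.LiesOverPrime P.p → ∀ y ∈ N, y ≠ 0 →
        X y.1 ∈ A := by
      intro A hA y hy hy0
      by_contra hyA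
      have hall : ∀ r ∈ SN, 1 < A.valuation r := by
        intro r hr
        obtain ⟨z, hz, hz0, rfl⟩ := (hmemSN r).mp hr
        obtain ⟨b, hb⟩ := exists_smul_of_mem hcard N hy hy0 hx0N hz
        rw [zmod_smul_eq_nsmul] at hb
        rw [← not_le, A.valuation_le_one_iff, hb, coe_nsmul_tor]
        refine (hI.e1_nsmul A hA (Or.inr hyA) b.val).resolve_left ?_
        rw [← coe_nsmul_tor, ← hb]
        exact tor_ne_zero hz0
      have h1 := one_lt_prod_val SN hSNne (fun r => A.valuation r) hall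
      rw [← hvq A] at h1
      exact absurd (val_rat_le_one A P.pp hA hden) (not_le.mpr h1)
    have htop1 : fixer GQ N = ⊤ := by
      apply hI.minkowski _ (fixer_normal N hstab') hopen1
      intro ℓ hℓ A hA σ hσ
      rw [mem_fixer]
      intro x hx
      by_cases hℓ2 : ℓ = 2
      · subst hℓ2
        exact fix_of_eigen hcard N hstab' htop (A.inertiaSubgroupIn ℚ) (fun _ => True)
          (h2T A hA) (fun _ _ _ => trivial) σ hσ x hx
      by_cases hℓp : ℓ = P.p
      · subst hℓp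
        refine fix_of_eigen hcard N hstab' htop (A.inertiaSubgroupIn ℚ)
          (fun Q => ∀ j : ℕ, j • Q.1 ≠ 0 → X (j • Q.1) ∈ A) (hpT A hA) ?_ σ hσ x hx
        intro Q hQN _ j hj
        rw [← coe_nsmul_tor]
        apply hint A hA _ (N.smul_of_tower_mem j hQN)
        intro h0
        exact hj (congrArg Subtype.val h0)
      · exact hS05 ℓ hℓ hℓ2 hℓp A hA σ hσ x
    apply hI.r2 P0.1 (tor_ne_zero hP0') (tor_nsmul P0)
    intro σ
    have : σ ∈ fixer GQ N := by rw [htop1]; exact Subgroup.mem_top σ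
    exact congrArg Subtype.val (this P0 hP0)

end Main

end Fermat.Agent.S13
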