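import Mathlib

/-!
# S13: abstract model `Y² + a₁XY = X³ + a₂X² + sX` of the group of points of an elliptic curve
with a rational `2`-torsion point at `(0,0)`.  Shared definitions and basic identities.
-/

set_option autoImplicit false

namespace Fermat.Agent.S13

/-- A group `G` whose nonzero elements are the points `(X, Y)` of
`Y² + a₁XY = X³ + a₂X² + sX`, with the chord and tangent formulas for the `X`-coordinate. -/
structure WModel (G : Type*) [AddCommGroup G] (L : Type*) [Field L] (a₁ a₂ s : L) where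
  X : G → L
  Y : G → L
  eqn : ∀ P, P ≠ 0 → Y P ^ 2 + a₁ * X P * Y P = X P ^ 3 + a₂ * X P ^ 2 + s * X P
  X_neg : ∀ P, X (-P) = X P
  Y_neg : ∀ P, P ≠ 0 → Y (-P) = -Y P - a₁ * X P
  ext : ∀ P Q, P ≠ 0 → Q ≠ 0 → X P = X Q → Y P = Y Q → P = Q
  add : ∀ P Q, P ≠ 0 → Q ≠ 0 → X P ≠ X Q →
    X (P + Q) = ((Y P - Y Q) / (X P - X Q)) ^ 2 + a₁ * ((Y P - Y Q) / (X P - X Q))
      - a₂ - X P - X Q
  dbl : ∀ P, P ≠ 0 → 2 * Y P + a₁ * X P ≠ 0 →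
    X (P + P) = ((3 * X P ^ 2 + 2 * a₂ * X P + s - a₁ * Y P) / (2 * Y P + a₁ * X P)) ^ 2
      + a₁ * ((3 * X P ^ 2 + 2 * a₂ * X P + s - a₁ * Y P) / (2 * Y P + a₁ * X P))
      - a₂ - 2 * X P
  surj : ∀ x y : L, y ^ 2 + a₁ * x * y = x ^ 3 + a₂ * x ^ 2 + s * x →
    ∃ P, P ≠ 0 ∧ X P = x ∧ Y P = y

theorem prod_alg {L : Type*} [Field L] (a₁ a₂ s x1 y1 x2 y2 : L)
    (h1 : y1 ^ 2 + a₁ * x1 * y1 = x1 ^ 3 + a₂ * x1 ^ 2 + s * x1)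
    (h2 : y2 ^ 2 + a₁ * x2 * y2 = x2 ^ 3 + a₂ * x2 ^ 2 + s * x2) :
    ((y1 - y2) ^ 2 + a₁ * (y1 - y2) * (x1 - x2) - (a₂ + x1 + x2) * (x1 - x2) ^ 2) *
      ((y1 + y2 + a₁ * x2) ^ 2 + a₁ * (y1 + y2 + a₁ * x2) * (x1 - x2)
        - (a₂ + x1 + x2) * (x1 - x2) ^ 2)
      = (x1 * x2 - s) ^ 2 * (x1 - x2) ^ 2 := by
  grind

theorem dbl_alg {L : Type*} [Field L] (a₁ a₂ s x1 y1 : L)
    (h1 : y1 ^ 2 + a₁ * x1 * y1 = x1 ^ 3 + a₂ * x1 ^ 2 + s * x1) :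
    (3 * x1 ^ 2 + 2 * a₂ * x1 + s - a₁ * y1) ^ 2
      + a₁ * (3 * x1 ^ 2 + 2 * a₂ * x1 + s - a₁ * y1) * (2 * y1 + a₁ * x1)
      - (a₂ + 2 * x1) * (2 * y1 + a₁ * x1) ^ 2 = (x1 ^ 2 - s) ^ 2 := by
  grind

namespace WModel

variable {G : Type*} [AddCommGroup G] {L : Type*} [Field L] {a₁ a₂ s : L}
  (M : WModel G L a₁ a₂ s)

include M in
lemma eq_or_eq_neg {P Q : G} (hP : P ≠ 0) (hQ : Q ≠ 0) (h : M.X P = M.X Q) :
    P = Q ∨ P = -Q := by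
  have h1 := M.eqn P hP
  have h2 := M.eqn Q hQ
  rw [h] at h1
  have h3 : (M.Y P - M.Y Q) * (M.Y P + M.Y Q + a₁ * M.X Q) = 0 := by
    linear_combination h1 - h2
  rcases mul_eq_zero.mp h3 with h4 | h4
  · left
    exact M.ext P Q hP hQ h (sub_eq_zero.mp h4)
  · right
    refine M.ext P (-Q) hP (neg_ne_zero.mpr hQ) (by rw [M.X_neg, h]) ?_
    rw [M.Y_neg Q hQ]
    linear_combination h4

lemma X_ne {P Q : G} (hP : P ≠ 0) (hQ : Q ≠ 0) (h1 : P + Q ≠ 0) (h2 : P - Q ≠ 0) :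
    M.X P ≠ M.X Q := by
  intro h
  rcases M.eq_or_eq_neg hP hQ h with h3 | h3
  · exact h2 (by rw [h3, sub_self])
  · exact h1 (by rw [h3, neg_add_cancel])

lemma H_sq {P : G} (hP : P ≠ 0) :
    (2 * M.Y P + a₁ * M.X P) ^ 2
      = 4 * M.X P ^ 3 + (a₁ ^ 2 + 4 * a₂) * M.X P ^ 2 + 4 * s * M.X P := by
  linear_combination 4 * M.eqn P hP

lemma add_self_eq_zero_iff {P : G} (hP : P ≠ 0) :
    P + P = 0 ↔ 2 * M.Y P + a₁ * M.X P = 0 := by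
  constructor
  · intro h
    have h1 : -P = P := by rw [neg_eq_iff_add_eq_zero]; exact h
    have h2 := M.Y_neg P hP
    rw [h1] at h2
    linear_combination h2
  · intro h
    have : P = -P := M.ext P (-P) hP (neg_ne_zero.mpr hP) (M.X_neg P).symm (by
      rw [M.Y_neg P hP]; linear_combination h)
    calc P + P = P + -P := by rw [← this]
      _ = 0 := add_neg_cancel P

lemma sub {P Q : G} (hP : P ≠ 0) (hQ : Q ≠ 0) (h : M.X P ≠ M.X Q) :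
    M.X (P - Q) = ((M.Y P + M.Y Q + a₁ * M.X Q) / (M.X P - M.X Q)) ^ 2
      + a₁ * ((M.Y P + M.Y Q + a₁ * M.X Q) / (M.X P - M.X Q)) - a₂ - M.X P - M.X Q := by
  have := M.add P (-Q) hP (neg_ne_zero.mpr hQ) (by rwa [M.X_neg])
  rw [M.X_neg, M.Y_neg Q hQ] at this
  rw [sub_eq_add_neg, this]
  have e : M.Y P - (-M.Y Q - a₁ * M.X Q) = M.Y P + M.Y Q + a₁ * M.X Q := by ring
  rw [e]

lemma add_sub_sum {P Q : G} (hP : P ≠ 0) (hQ : Q ≠ 0) (h : M.X P ≠ M.X Q) :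
    (M.X (P + Q) + M.X (P - Q)) * (M.X P - M.X Q) ^ 2 =
      2 * (M.X P + M.X Q) * (M.X P * M.X Q + s) + (a₁ ^ 2 + 4 * a₂) * (M.X P * M.X Q) := by
  have h1 := M.eqn P hP
  have h2 := M.eqn Q hQ
  have hd : M.X P - M.X Q ≠ 0 := sub_ne_zero.mpr h
  rw [M.add P Q hP hQ h, M.sub hP hQ h]
  field_simp
  linear_combination 2 * h1 + 2 * h2

lemma add_sub_prod {P Q : G} (hP : P ≠ 0) (hQ : Q ≠ 0) (h : M.X P ≠ M.X Q) :
    M.X (P + Q) * M.X (P - Q) * (M.X P - M.X Q) ^ 2 = (M.X P * M.X Q - s) ^ 2 := by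
  have h1 := M.eqn P hP
  have h2 := M.eqn Q hQ
  have hd : M.X P - M.X Q ≠ 0 := sub_ne_zero.mpr h
  have key := prod_alg a₁ a₂ s (M.X P) (M.Y P) (M.X Q) (M.Y Q) h1 h2
  have hd2 : (M.X P - M.X Q) ^ 2 ≠ 0 := pow_ne_zero 2 hd
  apply mul_right_cancel₀ hd2
  rw [← key, M.add P Q hP hQ h, M.sub hP hQ h]
  field_simp
  ring

lemma dbl_mul {P : G} (hP : P ≠ 0) (h2 : P + P ≠ 0) :
    M.X (P + P) * (4 * M.X P ^ 3 + (a₁ ^ 2 + 4 * a₂) * M.X P ^ 2 + 4 * s * M.X P)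
      = (M.X P ^ 2 - s) ^ 2 := by
  have h1 := M.eqn P hP
  have hH : 2 * M.Y P + a₁ * M.X P ≠ 0 := fun h => h2 ((M.add_self_eq_zero_iff hP).2 h)
  rw [← M.H_sq hP, ← dbl_alg a₁ a₂ s (M.X P) (M.Y P) h1, M.dbl P hP hH]
  generalize 2 * M.Y P + a₁ * M.X P = d at hH ⊢
  field_simp
  ring

variable {Γ₀ : Type*} [LinearOrderedCommGroupWithZero Γ₀]

/-- The kernel of reduction: `0` and the points with non-integral `X`. -/
def E1 (v : Valuation L Γ₀) (P : G) : Prop := P = 0 ∨ 1 < v (M.X P)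

end WModel

/-- An automorphism acting like an element of the inertia group of `v`. -/
structure Act {G : Type*} [AddCommGroup G] {L : Type*} [Field L] {a₁ a₂ s : L}
    {Γ₀ : Type*} [LinearOrderedCommGroupWithZero Γ₀]
    (M : WModel G L a₁ a₂ s) (v : Valuation L Γ₀) where
  φ : L →+* L
  τ : G →+ G
  τ_ne : ∀ P, P ≠ 0 → τ P ≠ 0
  X_τ : ∀ P, P ≠ 0 → M.X (τ P) = φ (M.X P)
  Y_τ : ∀ P, P ≠ 0 → M.Y (τ P) = φ (M.Y P)
  v_φ : ∀ z, v (φ z) = v z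
  inert : ∀ z, v z ≤ 1 → v (φ z - z) < 1

end Fermat.Agent.S13
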