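-- S13 piece A, part 1: the kernel of reduction has no torsion prime to the residue characteristic.
import Fermat.Agent.S13.Defs

set_option autoImplicit false

namespace Fermat.Agent.S13

variable {K : Type*} [Field K] {Γ₀ : Type*} [LinearOrderedCommGroupWithZero Γ₀]
  (v : Valuation K Γ₀)

theorem v_natCast_le_one (n : ℕ) : v (n : K) ≤ 1 := by
  induction n with
  | zero => simp
  | succ n ih =>
    push_cast
    exact v.map_add_le ih (by simp)

theorem v_ofNat_le_one (n : ℕ) [n.AtLeastTwo] : v (OfNat.ofNat n : K) ≤ 1 := by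
  rw [← Nat.cast_ofNat]
  exact v_natCast_le_one v _

variable {v}

theorem v_mul_le_one {a b : K} (ha : v a ≤ 1) (hb : v b ≤ 1) : v (a * b) ≤ 1 := by
  rw [map_mul]; exact mul_le_one' ha hb

theorem v_mul_lt_one_left {a b : K} (ha : v a < 1) (hb : v b ≤ 1) : v (a * b) < 1 := by
  rw [map_mul]; exact (mul_le_of_le_one_right' hb).trans_lt ha

theorem v_mul_lt_one_right {a b : K} (ha : v a ≤ 1) (hb : v b < 1) : v (a * b) < 1 := by
  rw [map_mul]; exact (mul_le_of_le_one_left' ha).trans_lt hb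

theorem v_pow_le_one {a : K} (ha : v a ≤ 1) (n : ℕ) : v (a ^ n) ≤ 1 := by
  rw [map_pow]; exact pow_le_one' ha n

theorem v_lt_one_of_sq {a : K} (ha : v (a ^ 2) < 1) : v a < 1 := by
  rw [map_pow] at ha
  by_contra h
  push Not at h
  exact absurd ha (not_lt.2 (one_le_pow_of_one_le' h 2))

variable {G : Type*} [AddCommGroup G] {a₁ a₂ s : K} (M : WModel G K a₁ a₂ s)

/-- The inductive claim in the proof that the kernel of reduction is torsion free. -/
def KClaim (v : Valuation K Γ₀) (M : WModel G K a₁ a₂ s) (R : G) (n : ℕ) : Prop :=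
  ∃ t : K, v t ≤ 1 ∧ v (t - (n : K) ^ 2) < 1 ∧
    ((n • R = 0 ∧ t = 0) ∨ (n • R ≠ 0 ∧ M.X (n • R) * t * (M.X R)⁻¹ = 1))

variable {M}

theorem kclaim_one {R : G} (hR : R ≠ 0) (hξ : 1 < v (M.X R)) : KClaim v M R 1 := by
  have h0 : M.X R ≠ 0 := by
    intro h
    rw [h, map_zero] at hξ
    exact absurd hξ (by simp)
  refine ⟨1, by simp, by simp, Or.inr ⟨by simpa using hR, ?_⟩⟩
  rw [one_smul, mul_one, mul_inv_cancel₀ h0]

theorem kclaim_two_mul (hb : v (a₁ ^ 2 + 4 * a₂) ≤ 1) (hs : v s ≤ 1) {R : G}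
    (hξ : 1 < v (M.X R)) {m : ℕ} (hm : KClaim v M R m) : KClaim v M R (2 * m) := by
  obtain ⟨t, ht1, htm, hcase⟩ := hm
  have h4 : v (4 : K) ≤ 1 := v_ofNat_le_one v 4
  have h0 : M.X R ≠ 0 := by
    intro h
    rw [h, map_zero] at hξ
    exact absurd hξ (by simp)
  set b := a₁ ^ 2 + 4 * a₂ with hbdef
  set u := (M.X R)⁻¹ with hu
  have hu0 : u ≠ 0 := inv_ne_zero h0
  have hu1 : v u < 1 := by
    rw [hu, map_inv₀]
    exact inv_lt_one_of_one_lt₀ hξ
  have hsmul : (2 * m) • R = m • R + m • R := by rw [two_mul, add_smul]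
  have hm1 : v ((m : K) ^ 2) ≤ 1 := v_pow_le_one (v_natCast_le_one v m) 2
  rcases hcase with ⟨hmR, rfl⟩ | ⟨hmR, hrel⟩
  · refine ⟨0, by simp, ?_, Or.inl ⟨by rw [hsmul, hmR, add_zero], rfl⟩⟩
    have : (0 : K) - ((2 * m : ℕ) : K) ^ 2 = 4 * (0 - (m : K) ^ 2) := by push_cast; ring
    rw [this]
    exact v_mul_lt_one_right h4 htm
  · set w := t * u with hw
    have hw1 : v w < 1 := v_mul_lt_one_right ht1 hu1
    have hξw : M.X (m • R) * w = 1 := by rw [hw, ← mul_assoc]; exact hrel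
    have hw0 : w ≠ 0 := by
      rintro h
      rw [h, mul_zero] at hξw
      exact zero_ne_one hξw
    have hξm : M.X (m • R) = w⁻¹ := eq_inv_of_mul_eq_one_left hξw
    have hw2 : v (w ^ 2) < 1 := by rw [pow_two]; exact v_mul_lt_one_left hw1 hw1.le
    have he2 : v (s * w ^ 2) < 1 := v_mul_lt_one_right hs hw2
    have he1 : v (b * w + 4 * s * w ^ 2) < 1 :=
      v.map_add_lt (v_mul_lt_one_right hb hw1) (v_mul_lt_one_right (v_mul_le_one h4 hs) hw2)
    have hd1 : v (1 - s * w ^ 2) = 1 := v.map_one_sub_of_lt he2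
    have hd0 : 1 - s * w ^ 2 ≠ 0 := by
      intro h; rw [h, map_zero] at hd1; exact zero_ne_one hd1
    have hcubic : (4 * M.X (m • R) ^ 3 + b * M.X (m • R) ^ 2 + 4 * s * M.X (m • R)) * w ^ 3
        = 4 + (b * w + 4 * s * w ^ 2) := by
      rw [hξm]; field_simp; ring
    by_cases h2m : m • R + m • R = 0
    · -- then `4` is not a unit
      have hH := (M.add_self_eq_zero_iff hmR).1 h2m
      have hsq := M.H_sq hmR
      rw [hH] at hsq
      have h40 : (4 : K) = -(b * w + 4 * s * w ^ 2) := by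
        have : (4 : K) + (b * w + 4 * s * w ^ 2) = 0 := by
          rw [← hcubic, ← hsq]; ring
        linear_combination this
      have h4lt : v (4 : K) < 1 := by rw [h40, v.map_neg]; exact he1
      refine ⟨0, by simp, ?_, Or.inl ⟨by rw [hsmul, h2m], rfl⟩⟩
      have : (0 : K) - ((2 * m : ℕ) : K) ^ 2 = -(4 * (m : K) ^ 2) := by push_cast; ring
      rw [this, v.map_neg]
      exact v_mul_lt_one_left h4lt hm1
    have hdbl := M.dbl_mul hmR h2m
    have hkey : M.X (m • R + m • R) * (w * (4 + (b * w + 4 * s * w ^ 2)))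
        = (1 - s * w ^ 2) ^ 2 := by
      have h1 : (M.X (m • R) ^ 2 - s) * w ^ 2 = 1 - s * w ^ 2 := by
        rw [hξm]; field_simp
      calc M.X (m • R + m • R) * (w * (4 + (b * w + 4 * s * w ^ 2)))
          = M.X (m • R + m • R) * (4 * M.X (m • R) ^ 3 + b * M.X (m • R) ^ 2
              + 4 * s * M.X (m • R)) * w ^ 4 := by rw [← hcubic]; ring
        _ = ((M.X (m • R) ^ 2 - s) * w ^ 2) ^ 2 := by rw [hdbl]; ring
        _ = _ := by rw [h1]
    set ε := (4 + (b * w + 4 * s * w ^ 2)) / (1 - s * w ^ 2) ^ 2 with hε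
    have hε1 : v (ε - 4) < 1 := by
      have : ε - 4 = (b * w + 4 * s * w ^ 2 + 4 * (s * w ^ 2 * (2 - s * w ^ 2)))
          / (1 - s * w ^ 2) ^ 2 := by
        rw [hε, eq_div_iff (pow_ne_zero 2 hd0), sub_mul, div_mul_cancel₀ _ (pow_ne_zero 2 hd0)]
        ring
      rw [this, map_div₀, map_pow, hd1, one_pow, div_one]
      refine v.map_add_lt he1 (v_mul_lt_one_right h4 (v_mul_lt_one_left he2 ?_))
      exact v.map_sub_le (v_ofNat_le_one v 2) he2.le
    have hεv : v ε ≤ 1 := by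
      have : ε = (ε - 4) + 4 := by ring
      rw [this]
      exact v.map_add_le hε1.le h4
    refine ⟨t * ε, v_mul_le_one ht1 hεv, ?_, Or.inr ⟨by rwa [hsmul], ?_⟩⟩
    · have : t * ε - ((2 * m : ℕ) : K) ^ 2 = t * (ε - 4) + 4 * (t - (m : K) ^ 2) := by
        push_cast; ring
      rw [this]
      exact v.map_add_lt (v_mul_lt_one_right ht1 hε1) (v_mul_lt_one_right h4 htm)
    · rw [hsmul, hε]
      have : M.X (m • R + m • R) * (t * ((4 + (b * w + 4 * s * w ^ 2)) / (1 - s * w ^ 2) ^ 2)) * u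
          = M.X (m • R + m • R) * (w * (4 + (b * w + 4 * s * w ^ 2))) / (1 - s * w ^ 2) ^ 2 := by
        rw [hw]; ring
      rw [this, hkey, div_self (pow_ne_zero _ hd0)]

theorem kclaim_two_mul_add_one (hs : v s ≤ 1) {R : G} (hR : R ≠ 0) (hξ : 1 < v (M.X R))
    {m : ℕ} (hm : KClaim v M R m) (hm1 : KClaim v M R (m + 1)) : KClaim v M R (2 * m + 1) := by
  obtain ⟨a, ha1, ham, hcasea⟩ := hm
  obtain ⟨b, hb1, hbm, hcaseb⟩ := hm1
  have h4 : v (4 : K) ≤ 1 := v_ofNat_le_one v 4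
  have h0 : M.X R ≠ 0 := by
    intro h
    rw [h, map_zero] at hξ
    exact absurd hξ (by simp)
  set u := (M.X R)⁻¹ with hu
  have hu0 : u ≠ 0 := inv_ne_zero h0
  have hu1 : v u < 1 := by
    rw [hu, map_inv₀]
    exact inv_lt_one_of_one_lt₀ hξ
  have hsmul : (2 * m + 1) • R = (m + 1) • R + m • R := by
    rw [← add_smul]; congr 1; ring
  have hsub : (m + 1) • R - m • R = R := by
    rw [add_smul, one_smul]; abel
  have hone : v ((1 : K) - ((2 * m + 1 : ℕ) : K) ^ 2) = v (4 : K) * (v (m : K) * v ((m : K) + 1)) := by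
    rw [← map_mul, ← map_mul, ← v.map_neg]
    congr 1
    push_cast; ring
  rcases hcasea with ⟨hmR, rfl⟩ | ⟨hmR, hrela⟩
  · -- m R = 0
    have hvm : v (m : K) < 1 := by
      apply v_lt_one_of_sq
      rwa [zero_sub, v.map_neg] at ham
    refine ⟨1, by simp, ?_, Or.inr ⟨?_, ?_⟩⟩
    · rw [hone]
      have h1 : v ((m : K) + 1) ≤ 1 := by exact_mod_cast v_natCast_le_one v (m + 1)
      calc v (4 : K) * (v (m : K) * v ((m : K) + 1)) ≤ 1 * (v (m : K) * 1) := by gcongr
        _ < 1 := by simpa using hvm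
    · rw [hsmul, hmR, add_zero, add_smul, hmR, zero_add, one_smul]; exact hR
    · rw [hsmul, hmR, add_zero, add_smul, hmR, zero_add, one_smul, mul_one, mul_inv_cancel₀ h0]
  rcases hcaseb with ⟨hm1R, rfl⟩ | ⟨hm1R, hrelb⟩
  · -- (m+1) R = 0
    have hvm : v ((m : K) + 1) < 1 := by
      apply v_lt_one_of_sq
      rw [zero_sub, v.map_neg] at hbm
      exact_mod_cast hbm
    have hmR' : m • R = -R := by
      rw [add_smul, one_smul] at hm1R
      exact eq_neg_of_add_eq_zero_left hm1R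
    refine ⟨1, by simp, ?_, Or.inr ⟨?_, ?_⟩⟩
    · rw [hone]
      have h1 : v (m : K) ≤ 1 := v_natCast_le_one v m
      calc v (4 : K) * (v (m : K) * v ((m : K) + 1)) ≤ 1 * (1 * v ((m : K) + 1)) := by gcongr
        _ < 1 := by simpa using hvm
    · rw [hsmul, hm1R, zero_add]; exact hmR
    · rw [hsmul, hm1R, zero_add, hmR', M.X_neg, mul_one, mul_inv_cancel₀ h0]
  -- both nonzero
  have ha0 : a ≠ 0 := by
    rintro rfl
    rw [mul_zero, zero_mul] at hrela
    exact zero_ne_one hrela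
  have hb0 : b ≠ 0 := by
    rintro rfl
    rw [mul_zero, zero_mul] at hrelb
    exact zero_ne_one hrelb
  have hξa : M.X (m • R) = (a * u)⁻¹ := by
    apply eq_inv_of_mul_eq_one_left; rw [← mul_assoc]; exact hrela
  have hξb : M.X ((m + 1) • R) = (b * u)⁻¹ := by
    apply eq_inv_of_mul_eq_one_left; rw [← mul_assoc]; exact hrelb
  have hdiff : v (b - a - ((2 * m + 1 : ℕ) : K)) < 1 := by
    have : b - a - ((2 * m + 1 : ℕ) : K) = (b - ((m + 1 : ℕ) : K) ^ 2) - (a - (m : K) ^ 2) := by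
      push_cast; ring
    rw [this]
    exact v.map_sub_lt hbm ham
  have hn1 : v ((2 * m + 1 : ℕ) : K) ≤ 1 := v_natCast_le_one v _
  have hba1 : v (b - a) ≤ 1 := v.map_sub_le hb1 ha1
  by_cases hξeq : M.X ((m + 1) • R) = M.X (m • R)
  · have hab : a = b := by
      rw [hξa, hξb, inv_inj] at hξeq
      exact (mul_right_cancel₀ hu0 hξeq).symm
    have hzero : (m + 1) • R + m • R = 0 := by
      rcases M.eq_or_eq_neg hm1R hmR hξeq with h | h
      · exfalso
        apply hR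
        rw [← hsub, h, sub_self]
      · rw [h, neg_add_cancel]
    refine ⟨0, by simp, ?_, Or.inl ⟨by rw [hsmul, hzero], rfl⟩⟩
    rw [zero_sub, v.map_neg, pow_two]
    rw [hab, sub_self, zero_sub, v.map_neg] at hdiff
    exact v_mul_lt_one_left hdiff hn1
  · have hne : (m + 1) • R + m • R ≠ 0 := by
      intro h
      apply hξeq
      rw [eq_neg_of_add_eq_zero_left h, M.X_neg]
    have hadd := M.add_sub_prod hm1R hmR hξeq
    rw [hsub] at hadd
    have he2 : v (s * a * b * u ^ 2) < 1 := by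
      apply v_mul_lt_one_right (v_mul_le_one (v_mul_le_one hs ha1) hb1)
      rw [pow_two]; exact v_mul_lt_one_left hu1 hu1.le
    have hd1 : v (1 - s * a * b * u ^ 2) = 1 := v.map_one_sub_of_lt he2
    have hd0 : 1 - s * a * b * u ^ 2 ≠ 0 := by
      intro h; rw [h, map_zero] at hd1; exact zero_ne_one hd1
    have hkey : M.X ((m + 1) • R + m • R) * ((b - a) ^ 2 * u) = (1 - s * a * b * u ^ 2) ^ 2 := by
      have hRu : M.X R = u⁻¹ := by rw [hu, inv_inv]
      have h1 : (M.X ((m + 1) • R) - M.X (m • R)) * (a * b * u) = a - b := by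
        rw [hξa, hξb]; field_simp
      have h2 : (M.X ((m + 1) • R) * M.X (m • R) - s) * (a * b * u ^ 2)
          = 1 - s * a * b * u ^ 2 := by
        rw [hξa, hξb]; field_simp
      calc M.X ((m + 1) • R + m • R) * ((b - a) ^ 2 * u)
          = M.X ((m + 1) • R + m • R) * u⁻¹ * ((M.X ((m + 1) • R) - M.X (m • R)) * (a * b * u)) ^ 2
              * u ^ 2 := by rw [h1]; field_simp; ring
        _ = (M.X ((m + 1) • R + m • R) * M.X R * (M.X ((m + 1) • R) - M.X (m • R)) ^ 2)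
              * (a * b * u ^ 2) ^ 2 := by rw [hRu]; ring
        _ = ((M.X ((m + 1) • R) * M.X (m • R) - s) * (a * b * u ^ 2)) ^ 2 := by rw [hadd]; ring
        _ = _ := by rw [h2]
    set δ := ((1 - s * a * b * u ^ 2) ^ 2)⁻¹ with hδ
    have hδv : v δ = 1 := by rw [hδ, map_inv₀, map_pow, hd1]; simp
    have hδ1 : v (δ - 1) < 1 := by
      have : δ - 1 = (s * a * b * u ^ 2 * (2 - s * a * b * u ^ 2)) * δ := by
        rw [hδ]
        have hd2 : (1 - s * a * b * u ^ 2) ^ 2 ≠ 0 := pow_ne_zero 2 hd0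
        rw [eq_mul_inv_iff_mul_eq₀ hd2, sub_mul, inv_mul_cancel₀ hd2]
        ring
      rw [this, map_mul, hδv, mul_one]
      exact v_mul_lt_one_left he2 (v.map_sub_le (v_ofNat_le_one v 2) he2.le)
    refine ⟨(b - a) ^ 2 * δ, ?_, ?_, Or.inr ⟨by rwa [hsmul], ?_⟩⟩
    · rw [map_mul, hδv, mul_one]; exact v_pow_le_one hba1 2
    · have : (b - a) ^ 2 * δ - ((2 * m + 1 : ℕ) : K) ^ 2
          = (b - a) ^ 2 * (δ - 1) + (b - a - ((2 * m + 1 : ℕ) : K)) * (b - a + ((2 * m + 1 : ℕ) : K)) := by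
        ring
      rw [this]
      exact v.map_add_lt (v_mul_lt_one_right (v_pow_le_one hba1 2) hδ1)
        (v_mul_lt_one_left hdiff (v.map_add_le hba1 hn1))
    · rw [hsmul]
      have : M.X ((m + 1) • R + m • R) * ((b - a) ^ 2 * δ) * u
          = M.X ((m + 1) • R + m • R) * ((b - a) ^ 2 * u) * δ := by ring
      rw [this, hkey, hδ, mul_inv_cancel₀ (pow_ne_zero 2 hd0)]

theorem kclaim (hr : v (a₁ ^ 2 + 4 * a₂) ≤ 1) (hs : v s ≤ 1) {R : G} (hR : R ≠ 0) (hξ : 1 < v (M.X R))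
    (n : ℕ) : KClaim v M R n := by
  induction n using Nat.strong_induction_on with
  | _ n ih =>
    rcases Nat.even_or_odd' n with ⟨m, rfl | rfl⟩
    · rcases Nat.eq_zero_or_pos m with rfl | hm
      · exact ⟨0, by simp, by simp, Or.inl ⟨by simp, rfl⟩⟩
      · exact kclaim_two_mul hr hs hξ (ih m (by omega))
    · rcases Nat.eq_zero_or_pos m with rfl | hm
      · exact kclaim_one hR hξ
      · exact kclaim_two_mul_add_one hs hR hξ (ih m (by omega)) (ih (m + 1) (by omega))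

/-- **The kernel of reduction has no torsion prime to the residue characteristic.** -/
theorem v_natCast_lt_one_of_smul_eq_zero (hr : v (a₁ ^ 2 + 4 * a₂) ≤ 1) (hs : v s ≤ 1) {R : G} (hR : R ≠ 0)
    (hξ : 1 < v (M.X R)) {n : ℕ} (hn : n • R = 0) : v (n : K) < 1 := by
  obtain ⟨t, -, htn, h | h⟩ := kclaim hr hs hR hξ n
  · obtain ⟨-, rfl⟩ := h
    apply v_lt_one_of_sq
    rwa [zero_sub, v.map_neg] at htn
  · exact absurd hn h.1

/-- Torsion points of order prime to the residue characteristic have integral `ξ`. -/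
theorem v_X_le_one (hr : v (a₁ ^ 2 + 4 * a₂) ≤ 1) (hs : v s ≤ 1) {R : G} (hR : R ≠ 0) {n : ℕ}
    (hn : n • R = 0) (hvn : v (n : K) = 1) : v (M.X R) ≤ 1 := by
  by_contra h
  push Not at h
  exact absurd (v_natCast_lt_one_of_smul_eq_zero hr hs hR h hn) (by rw [hvn]; exact lt_irrefl _)



end Fermat.Agent.S13
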