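-- S13 piece A, part 2: the kernel of reduction is a subgroup.
import Fermat.Agent.S13.Local1

set_option autoImplicit false

namespace Fermat.Agent.S13

variable {K : Type*} [Field K] {Γ₀ : Type*} [LinearOrderedCommGroupWithZero Γ₀]
  {v : Valuation K Γ₀}
variable {G : Type*} [AddCommGroup G] {a₁ a₂ s : K} {M : WModel G K a₁ a₂ s}

theorem v_beta_le_one (h1 : v a₁ ≤ 1) (h2 : v a₂ ≤ 1) : v (a₁ ^ 2 + 4 * a₂) ≤ 1 :=
  v.map_add_le (v_pow_le_one h1 2) (v_mul_le_one (v_ofNat_le_one v 4) h2)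

/-- T1: kernel of reduction has no torsion prime to the residue characteristic. -/
theorem WModel.integral_of_torsion (M : WModel G K a₁ a₂ s) (v : Valuation K Γ₀)
    (h1 : v a₁ ≤ 1) (h2 : v a₂ ≤ 1) (hs : v s ≤ 1) {R : G}
    (hR : R ≠ 0) {n : ℕ} (hn : n • R = 0) (hvn : v (n : K) = 1) : v (M.X R) ≤ 1 :=
  v_X_le_one (v_beta_le_one h1 h2) hs hR hn hvn

theorem WModel.E1_neg (M : WModel G K a₁ a₂ s) (v : Valuation K Γ₀) {P : G} (hP : M.E1 v P) :
    M.E1 v (-P) := by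
  rcases hP with rfl | h
  · left; simp
  · right; rwa [M.X_neg]

theorem WModel.E1_nsmul (M : WModel G K a₁ a₂ s) (v : Valuation K Γ₀)
    (h1 : v a₁ ≤ 1) (h2 : v a₂ ≤ 1) (hs : v s ≤ 1) {P : G}
    (hP : M.E1 v P) (n : ℕ) : M.E1 v (n • P) := by
  rcases hP with rfl | h
  · left; simp
  have hP0 : P ≠ 0 ∨ P = 0 := (ne_or_eq P 0)
  rcases hP0 with hP0 | rfl
  swap
  · left; simp
  obtain ⟨t, ht1, -, hc | ⟨hn, hrel⟩⟩ := kclaim (v_beta_le_one h1 h2) hs hP0 h n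
  · left; exact hc.1
  · right
    have hrel' := congrArg v hrel
    rw [map_mul, map_mul, map_inv₀, map_one] at hrel'
    have hx0 : v (M.X P) ≠ 0 := (lt_trans zero_lt_one h).ne'
    have h3 : v (M.X (n • P)) * v t = v (M.X P) := by
      rw [← mul_inv_eq_one₀ hx0]; exact hrel'
    calc 1 < v (M.X P) := h
      _ = v (M.X (n • P)) * v t := h3.symm
      _ ≤ v (M.X (n • P)) * 1 := by gcongr
      _ = _ := mul_one _

theorem E1_add_aux {A B T1 T2 T12 δ m : Γ₀} (hA : 1 < A) (hB : 1 < B) (hmA : m = A ∨ m = B)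
    (hδm : δ ≤ m) (hT1 : T1 ≤ 1)
    (hprod : T1 * T2 * δ ^ 2 = (A * B) ^ 2) (hsum : T12 * δ ^ 2 ≤ m * (A * B))
    (hT12 : T1 < T2 → T12 = T2) : False := by
  have hA0 : A ≠ 0 := (lt_trans zero_lt_one hA).ne'
  have hB0 : B ≠ 0 := (lt_trans zero_lt_one hB).ne'
  have hAB0 : A * B ≠ 0 := mul_ne_zero hA0 hB0
  have hABpos : 0 < A * B := zero_lt_iff.2 hAB0
  have hmAB : m < A * B := by
    rcases hmA with rfl | rfl
    · calc m = m * 1 := (mul_one _).symm
        _ < m * B := by gcongr; exact zero_lt_iff.2 hA0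
    · calc m = 1 * m := (one_mul _).symm
        _ < A * m := by gcongr; exact zero_lt_iff.2 hB0
  have hm0 : 0 < m := by
    rcases hmA with rfl | rfl
    · exact zero_lt_iff.2 hA0
    · exact zero_lt_iff.2 hB0
  have hδ2 : δ ^ 2 ≤ m ^ 2 := pow_le_pow_left₀ zero_le hδm 2
  have hm2 : m ^ 2 < (A * B) ^ 2 := pow_lt_pow_left₀ hmAB zero_le two_ne_zero
  have hT2 : 1 < T2 := by
    by_contra h
    push Not at h
    have : (A * B) ^ 2 ≤ m ^ 2 := by
      calc (A * B) ^ 2 = T1 * T2 * δ ^ 2 := hprod.symm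
        _ ≤ 1 * 1 * δ ^ 2 := by gcongr
        _ = δ ^ 2 := by simp
        _ ≤ m ^ 2 := hδ2
    exact absurd hm2 (not_lt.2 this)
  have h12 := hT12 (lt_of_le_of_lt hT1 hT2)
  rw [h12] at hsum
  have : (A * B) ^ 2 ≤ m * (A * B) := by
    calc (A * B) ^ 2 = T1 * (T2 * δ ^ 2) := by rw [← hprod, mul_assoc]
      _ ≤ 1 * (T2 * δ ^ 2) := by gcongr
      _ = T2 * δ ^ 2 := one_mul _
      _ ≤ m * (A * B) := hsum
  have h2 : m * (A * B) < (A * B) ^ 2 := by
    rw [pow_two]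
    gcongr
  exact absurd h2 (not_lt.2 this)

theorem WModel.E1_add (M : WModel G K a₁ a₂ s) (v : Valuation K Γ₀)
    (h1 : v a₁ ≤ 1) (h2 : v a₂ ≤ 1) (hs : v s ≤ 1) {P Q : G}
    (hP : M.E1 v P) (hQ : M.E1 v Q) : M.E1 v (P + Q) := by
  by_cases hP0 : P = 0
  · rw [hP0, zero_add]; exact hQ
  by_cases hQ0 : Q = 0
  · rw [hQ0, add_zero]; exact hP
  have hA : 1 < v (M.X P) := hP.resolve_left hP0
  have hB : 1 < v (M.X Q) := hQ.resolve_left hQ0
  by_cases hX : M.X P = M.X Q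
  · rcases M.eq_or_eq_neg hP0 hQ0 hX with h | h
    · rw [h, ← two_nsmul]
      exact M.E1_nsmul v h1 h2 hs hQ 2
    · left; rw [h, neg_add_cancel]
  right
  by_contra hcon
  push Not at hcon
  have hprod := congrArg v (M.add_sub_prod hP0 hQ0 hX)
  have hsum := congrArg v (M.add_sub_sum hP0 hQ0 hX)
  rw [map_mul, map_mul, map_pow, map_pow] at hprod
  rw [map_mul, map_pow] at hsum
  have hAB : 1 < v (M.X P) * v (M.X Q) := one_lt_mul_of_lt_of_le' hA hB.le
  have hN : v (M.X P * M.X Q - s) = v (M.X P) * v (M.X Q) := by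
    rw [v.map_sub_eq_of_lt_left (by rw [map_mul]; exact lt_of_le_of_lt hs hAB), map_mul]
  have hN' : v (M.X P * M.X Q + s) = v (M.X P) * v (M.X Q) := by
    rw [v.map_add_eq_of_lt_left (by rw [map_mul]; exact lt_of_le_of_lt hs hAB), map_mul]
  rw [hN] at hprod
  set m := max (v (M.X P)) (v (M.X Q)) with hm
  have hm1 : 1 ≤ m := le_max_of_le_left hA.le
  refine E1_add_aux (m := m) (T12 := v (M.X (P + Q) + M.X (P - Q))) hA hB (max_choice _ _)
    (v.map_sub _ _) hcon hprod ?_ ?_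
  · rw [hsum]
    apply v.map_add_le
    · rw [map_mul, map_mul, hN']
      calc v 2 * v (M.X P + M.X Q) * (v (M.X P) * v (M.X Q))
          ≤ 1 * m * (v (M.X P) * v (M.X Q)) := by
            gcongr
            · exact v_ofNat_le_one v 2
            · exact v.map_add _ _
        _ = _ := by rw [one_mul]
    · rw [map_mul, map_mul]
      have hbm : v (a₁ ^ 2 + 4 * a₂) ≤ m := (v_beta_le_one h1 h2).trans hm1
      gcongr
  · intro h
    exact v.map_add_eq_of_lt_right h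

theorem WModel.E1_sub (M : WModel G K a₁ a₂ s) (v : Valuation K Γ₀)
    (h1 : v a₁ ≤ 1) (h2 : v a₂ ≤ 1) (hs : v s ≤ 1) {P Q : G}
    (hP : M.E1 v P) (hQ : M.E1 v Q) : M.E1 v (P - Q) := by
  rw [sub_eq_add_neg]
  exact M.E1_add v h1 h2 hs hP (M.E1_neg v hQ)

end Fermat.Agent.S13
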