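-- S13 piece A, part 3: valuations of the X-coordinates of p-torsion points, multiplicative reduction.
import Fermat.Agent.S13.Local2

set_option autoImplicit false

namespace Fermat.Agent.S13

variable {K : Type*} [Field K] {Γ₀ : Type*} [LinearOrderedCommGroupWithZero Γ₀]
  {v : Valuation K Γ₀}
variable {G : Type*} [AddCommGroup G] {a₁ a₂ s : K} {M : WModel G K a₁ a₂ s}

section Group

theorem nsmul_eq_zero_iff_dvd {p : ℕ} (hp : p.Prime) {P : G} (hP : P ≠ 0) (hpP : p • P = 0)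
    (n : ℕ) : n • P = 0 ↔ p ∣ n := by
  have : Fact p.Prime := ⟨hp⟩
  rw [← addOrderOf_dvd_iff_nsmul_eq_zero, addOrderOf_eq_prime hpP hP]

theorem mod_nsmul {p : ℕ} {P : G} (hpP : p • P = 0) (n : ℕ) : (n % p) • P = n • P := by
  conv_rhs => rw [← Nat.mod_add_div n p, add_smul, mul_comm, mul_smul, hpP, smul_zero, add_zero]

theorem exists_nsmul_nsmul_eq {p : ℕ} (hp : p.Prime) {P : G} (hP : P ≠ 0) (hpP : p • P = 0)
    {n : ℕ} (hn : n • P ≠ 0) : ∃ k : ℕ, k • (n • P) = P := by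
  have hnp : ¬ p ∣ n := fun h => hn ((nsmul_eq_zero_iff_dvd hp hP hpP n).2 h)
  have hcop : Nat.Coprime n p := ((Nat.Prime.coprime_iff_not_dvd hp).2 hnp).symm
  obtain ⟨m, -, hm⟩ := Nat.exists_mul_mod_eq_one_of_coprime hcop hp.one_lt
  refine ⟨m, ?_⟩
  rw [← mul_smul, mul_comm, ← mod_nsmul hpP, hm, one_smul]

end Group

theorem eq_one_of_mul_eq_one_left {a b : Γ₀} (ha : a ≤ 1) (hb : b ≤ 1) (h : a * b = 1) : a = 1 :=
  le_antisymm ha (h ▸ mul_le_of_le_one_right' hb)

/-- (γ), in the range `1 ≤ n < p`. -/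
theorem unit_range {p : ℕ} (hp : p.Prime) (hr : v (a₁ ^ 2 + 4 * a₂) ≤ 1) (hs : v s < 1)
    {R : G} (hR : R ≠ 0) (hpR : p • R = 0)
    (hint0 : ∀ n : ℕ, n • R ≠ 0 → v (M.X (n • R)) ≤ 1) (h1 : v (M.X R) = 1) :
    ∀ n : ℕ, 1 ≤ n → n < p → v (M.X (n • R)) = 1 := by
  have hne : ∀ n : ℕ, 1 ≤ n → n < p → n • R ≠ 0 := by
    intro n h1 h2 h
    have := Nat.le_of_dvd (by omega) ((nsmul_eq_zero_iff_dvd hp hR hpR n).1 h)
    omega
  have hint : ∀ n : ℕ, 1 ≤ n → n < p → v (M.X (n • R)) ≤ 1 := by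
    intro n h1 h2
    exact hint0 n (hne n h1 h2)
  intro n
  induction n using Nat.strong_induction_on with
  | _ n ih =>
    intro hn1 hnp
    rcases Nat.lt_or_ge n 3 with hlt | hge
    · rcases (by omega : n = 1 ∨ n = 2) with rfl | rfl
      · rwa [one_smul]
      · have h2 : R + R ≠ 0 := by rw [← two_smul ℕ]; exact hne 2 hn1 hnp
        have hd := congrArg v (M.dbl_mul hR h2)
        have hrhs : v ((M.X R ^ 2 - s) ^ 2) = 1 := by
          rw [map_pow, v.map_sub_eq_of_lt_left (by rw [map_pow, h1, one_pow]; exact hs), map_pow, h1]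
          simp
        rw [hrhs, map_mul] at hd
        rw [two_smul]
        refine eq_one_of_mul_eq_one_left ?_ ?_ hd
        · rw [← two_smul ℕ]; exact hint 2 hn1 hnp
        · exact v.map_add_le (v.map_add_le
            (v_mul_le_one (v_ofNat_le_one v 4) (v_pow_le_one h1.le 3))
            (v_mul_le_one hr (v_pow_le_one h1.le 2)))
            (v_mul_le_one (v_mul_le_one (v_ofNat_le_one v 4) hs.le) h1.le)
    · obtain ⟨k, rfl⟩ : ∃ k, n = k + 2 := ⟨n - 2, by omega⟩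
      have hk1 := ih (k + 1) (by omega) (by omega) (by omega)
      have hk := ih k (by omega) (by omega) (by omega)
      have hneq : M.X ((k + 1) • R) ≠ M.X R := by
        intro h
        rcases M.eq_or_eq_neg (hne (k + 1) (by omega) (by omega)) hR h with h | h
        · apply hne k (by omega) (by omega)
          rw [add_smul, one_smul] at h
          exact add_eq_right.1 h
        · apply hne (k + 2) (by omega) hnp
          rw [show k + 2 = (k + 1) + 1 from rfl, add_smul (k + 1), one_smul, h, neg_add_cancel]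
      have hadd := congrArg v (M.add_sub_prod (hne (k + 1) (by omega) (by omega)) hR hneq)
      have e1 : (k + 1) • R + R = (k + 2) • R := by
        rw [show k + 2 = (k + 1) + 1 from rfl, add_smul (k + 1), one_smul]
      have e2 : (k + 1) • R - R = k • R := by
        rw [add_smul, one_smul, add_sub_cancel_right]
      rw [e1, e2] at hadd
      have hrhs : v ((M.X ((k + 1) • R) * M.X R - s) ^ 2) = 1 := by
        rw [map_pow, v.map_sub_eq_of_lt_left (by rw [map_mul, h1, hk1, one_mul]; exact hs), map_mul,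
          h1, hk1]
        simp
      rw [hrhs, mul_assoc, map_mul] at hadd
      refine eq_one_of_mul_eq_one_left (hint _ hn1 hnp) ?_ hadd
      exact v_mul_le_one hk.le (v_pow_le_one (v.map_sub_le hk1.le h1.le) 2)

/-- (γ): if one nonzero point of a cyclic group of order `p` has unit `ξ`, all of them do. -/
theorem unit_all {p : ℕ} (hp : p.Prime) (hr : v (a₁ ^ 2 + 4 * a₂) ≤ 1) (hs : v s < 1)
    {R : G} (hR : R ≠ 0) (hpR : p • R = 0)
    (hint0 : ∀ n : ℕ, n • R ≠ 0 → v (M.X (n • R)) ≤ 1) (h1 : v (M.X R) = 1)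
    (n : ℕ) (hn : n • R ≠ 0) :
    v (M.X (n • R)) = 1 := by
  rw [← mod_nsmul hpR]
  have hnp : ¬ p ∣ n := fun h => hn ((nsmul_eq_zero_iff_dvd hp hR hpR n).2 h)
  refine unit_range hp hr hs hR hpR hint0 h1 _ ?_ (Nat.mod_lt _ hp.pos)
  rw [Nat.one_le_iff_ne_zero]
  intro h
  exact hnp (Nat.dvd_of_mod_eq_zero h)

/-- (β): a nonzero `p`-torsion point has `ξ` a unit, or strictly between `s` and `1`. -/
theorem dichotomy {p : ℕ} (hp : p.Prime) (hp2 : p ≠ 2)
    (hr : v (a₁ ^ 2 + 4 * a₂) = 1) (hs : v s < 1) (hs0 : s ≠ 0)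
    {P : G} (hP : P ≠ 0) (hpP : p • P = 0)
    (hint0 : ∀ n : ℕ, n • P ≠ 0 → v (M.X (n • P)) ≤ 1) :
    v (M.X P) = 1 ∨ (v s < v (M.X P) ∧ v (M.X P) < 1) := by
  have hx1 : v (M.X P) ≤ 1 := by
    have := hint0 1 (by rwa [one_smul])
    rwa [one_smul] at this
  rcases hx1.eq_or_lt with h | hlt
  · exact Or.inl h
  refine Or.inr ⟨?_, hlt⟩
  by_contra hcon
  push Not at hcon
  have hspos : 0 < v s := zero_lt_iff.2 ((v.ne_zero_iff).2 hs0)
  have h2P : 2 • P ≠ 0 := by
    intro h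
    have := (Nat.prime_dvd_prime_iff_eq hp Nat.prime_two).1 ((nsmul_eq_zero_iff_dvd hp hP hpP 2).1 h)
    exact hp2 this
  have h2 : P + P ≠ 0 := by rwa [← two_smul ℕ]
  have hp2P : p • (P + P) = 0 := by rw [smul_add, hpP, add_zero]
  have hd := congrArg v (M.dbl_mul hP h2)
  have hxx : v (M.X P ^ 2) < v s := by
    rw [map_pow, pow_two]
    calc v (M.X P) * v (M.X P) ≤ v s * v (M.X P) := by gcongr
      _ < v s * 1 := by gcongr
      _ = v s := mul_one _
  have hrhs : v ((M.X P ^ 2 - s) ^ 2) = v s * v s := by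
    rw [map_pow, v.map_sub_eq_of_lt_right hxx, pow_two]
  have h4 : v (4 : K) ≤ 1 := v_ofNat_le_one v 4
  have hcub : v (4 * M.X P ^ 3 + (a₁ ^ 2 + 4 * a₂) * M.X P ^ 2 + 4 * s * M.X P) ≤ v s * v s := by
    refine v.map_add_le (v.map_add_le ?_ ?_) ?_
    · rw [map_mul, map_pow, pow_succ, pow_two]
      calc v 4 * (v (M.X P) * v (M.X P) * v (M.X P)) ≤ 1 * (v s * v s * 1) := by gcongr
        _ = v s * v s := by rw [one_mul, mul_one]
    · rw [map_mul, hr, one_mul, map_pow, pow_two]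
      gcongr
    · rw [map_mul, map_mul]
      calc v 4 * v s * v (M.X P) ≤ 1 * v s * v s := by gcongr
        _ = v s * v s := by rw [one_mul]
  have h2int : v (M.X (P + P)) ≤ 1 := by
    have := hint0 2 h2P
    rwa [two_smul] at this
  have h2unit : v (M.X (P + P)) = 1 := by
    refine le_antisymm h2int ?_
    rw [hrhs, map_mul] at hd
    have : v s * v s ≤ v (M.X (P + P)) * (v s * v s) := by
      calc v s * v s
          = v (M.X (P + P)) * v (4 * M.X P ^ 3 + (a₁ ^ 2 + 4 * a₂) * M.X P ^ 2 + 4 * s * M.X P) :=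
            hd.symm
        _ ≤ v (M.X (P + P)) * (v s * v s) := by gcongr
    have hpos : 0 < v s * v s := mul_pos hspos hspos
    by_contra hlt'
    push Not at hlt'
    have : v (M.X (P + P)) * (v s * v s) < 1 * (v s * v s) := by gcongr
    rw [one_mul] at this
    exact absurd this (not_lt.2 ‹_›)
  obtain ⟨k, hk⟩ := exists_nsmul_nsmul_eq hp hP hpP h2P
  rw [two_smul] at hk
  have hint2 : ∀ n : ℕ, n • (P + P) ≠ 0 → v (M.X (n • (P + P))) ≤ 1 := by
    intro n hn
    rw [← two_smul ℕ, ← mul_smul] at hn ⊢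
    exact hint0 _ hn
  have := unit_all hp hr.le hs h2 hp2P hint2 h2unit k (by rw [hk]; exact hP)
  rw [hk] at this
  exact absurd this hlt.ne

theorem small_all {p : ℕ} (hp : p.Prime) (hp2 : p ≠ 2)
    (hr : v (a₁ ^ 2 + 4 * a₂) = 1) (hs : v s < 1) (hs0 : s ≠ 0)
    {P : G} (hP : P ≠ 0) (hpP : p • P = 0)
    (hint0 : ∀ n : ℕ, n • P ≠ 0 → v (M.X (n • P)) ≤ 1)
    (hsm : v (M.X P) < 1) (n : ℕ) (hn : n • P ≠ 0) :
    v s < v (M.X (n • P)) ∧ v (M.X (n • P)) < 1 := by
  have hpn : p • (n • P) = 0 := by rw [smul_comm, hpP, smul_zero]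
  have hintn : ∀ k : ℕ, k • (n • P) ≠ 0 → v (M.X (k • (n • P))) ≤ 1 := by
    intro k hk
    rw [← mul_smul] at hk ⊢
    exact hint0 _ hk
  rcases dichotomy hp hp2 hr hs hs0 hn hpn hintn with h | h
  · exfalso
    obtain ⟨k, hk⟩ := exists_nsmul_nsmul_eq hp hP hpP hn
    have := unit_all hp hr.le hs hn hpn hintn h k (by rw [hk]; exact hP)
    rw [hk] at this
    exact absurd this hsm.ne
  · exact h

/-! ### Pure ordered-group lemmas (proved additively) -/

section Pure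

theorem trop_step_add {A : Type*} [AddCommGroup A] [LinearOrder A] [IsOrderedAddMonoid A]
    (g l G a b c D N : A) (hg1 : g < 0) (hG1 : G < 0) (hc : l < c) (hc1 : c < 0)
    (ha : a ≤ g) (E : c + b + (D + D) = N + N) (hD : a < g → D = g) (hD' : D ≤ g)
    (hN1 : l < a + g → N = a + g) (hN2 : a + g < l → N = l) (hN3 : a + g = l → N ≤ l)
    (hk : (l < G ∧ b = G) ∨ (G < l ∧ b + G = l + l))
    (hk1 : (l < G + g ∧ a = G + g) ∨ (G + g < l ∧ a + (G + g) = l + l)) :
    (l < G + g + g ∧ c = G + g + g) ∨ (G + g + g < l ∧ c + (G + g + g) = l + l) := by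
  grind

theorem trop_step_mul {Γ : Type*} [CommGroup Γ] [LinearOrder Γ] [IsOrderedMonoid Γ]
    (g l G a b c D N : Γ) (hg1 : g < 1) (hG1 : G < 1) (hc : l < c) (hc1 : c < 1)
    (ha : a ≤ g) (E : c * b * (D * D) = N * N) (hD : a < g → D = g) (hD' : D ≤ g)
    (hN1 : l < a * g → N = a * g) (hN2 : a * g < l → N = l) (hN3 : a * g = l → N ≤ l)
    (hk : (l < G ∧ b = G) ∨ (G < l ∧ b * G = l * l))
    (hk1 : (l < G * g ∧ a = G * g) ∨ (G * g < l ∧ a * (G * g) = l * l)) :
    (l < G * g * g ∧ c = G * g * g) ∨ (G * g * g < l ∧ c * (G * g * g) = l * l) :=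
  trop_step_add (A := Additive Γ) g l G a b c D N hg1 hG1 hc hc1 ha E hD hD' hN1 hN2 hN3 hk hk1

theorem trop_step_mul₀
    (g l G a b c D N : Γ₀) (hg0 : g ≠ 0) (hl0 : l ≠ 0) (hG0 : G ≠ 0) (ha0 : a ≠ 0) (hb0 : b ≠ 0)
    (hD0 : D ≠ 0) (hN0 : N ≠ 0)
    (hg1 : g < 1) (hG1 : G < 1) (hc : l < c) (hc1 : c < 1)
    (ha : a ≤ g) (E : c * b * (D * D) = N * N) (hD : a < g → D = g) (hD' : D ≤ g)
    (hN1 : l < a * g → N = a * g) (hN2 : a * g < l → N = l) (hN3 : a * g = l → N ≤ l)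
    (hk : (l < G ∧ b = G) ∨ (G < l ∧ b * G = l * l))
    (hk1 : (l < G * g ∧ a = G * g) ∨ (G * g < l ∧ a * (G * g) = l * l)) :
    (l < G * g * g ∧ c = G * g * g) ∨ (G * g * g < l ∧ c * (G * g * g) = l * l) := by
  have hc0 : c ≠ 0 := (lt_of_le_of_lt zero_le hc).ne'
  lift g to Γ₀ˣ using isUnit_iff_ne_zero.2 hg0
  lift l to Γ₀ˣ using isUnit_iff_ne_zero.2 hl0
  lift G to Γ₀ˣ using isUnit_iff_ne_zero.2 hG0
  lift a to Γ₀ˣ using isUnit_iff_ne_zero.2 ha0
  lift b to Γ₀ˣ using isUnit_iff_ne_zero.2 hb0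
  lift c to Γ₀ˣ using isUnit_iff_ne_zero.2 hc0
  lift D to Γ₀ˣ using isUnit_iff_ne_zero.2 hD0
  lift N to Γ₀ˣ using isUnit_iff_ne_zero.2 hN0
  norm_cast at *
  exact trop_step_mul g l G a b c D N hg1 hG1 hc hc1 ha E hD hD' hN1 hN2 hN3 hk hk1

theorem trop_base_add {A : Type*} [AddCommGroup A] [LinearOrder A] [IsOrderedAddMonoid A]
    (g l c M : A) (hc : l < c) (E : c + (g + g) = M + M)
    (hM1 : l < g + g → M = g + g) (hM2 : g + g < l → M = l) (hM3 : g + g = l → M ≤ l) :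
    (l < g + g ∧ c = g + g) ∨ (g + g < l ∧ c + (g + g) = l + l) := by
  grind

theorem trop_base_mul {Γ : Type*} [CommGroup Γ] [LinearOrder Γ] [IsOrderedMonoid Γ]
    (g l c M : Γ) (hc : l < c) (E : c * (g * g) = M * M)
    (hM1 : l < g * g → M = g * g) (hM2 : g * g < l → M = l) (hM3 : g * g = l → M ≤ l) :
    (l < g * g ∧ c = g * g) ∨ (g * g < l ∧ c * (g * g) = l * l) :=
  trop_base_add (A := Additive Γ) g l c M hc E hM1 hM2 hM3

theorem trop_base_mul₀ (g l c M : Γ₀) (hg0 : g ≠ 0) (hl0 : l ≠ 0) (hM0 : M ≠ 0)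
    (hc : l < c) (E : c * (g * g) = M * M)
    (hM1 : l < g * g → M = g * g) (hM2 : g * g < l → M = l) (hM3 : g * g = l → M ≤ l) :
    (l < g * g ∧ c = g * g) ∨ (g * g < l ∧ c * (g * g) = l * l) := by
  have hc0 : c ≠ 0 := (lt_of_le_of_lt zero_le hc).ne'
  lift g to Γ₀ˣ using isUnit_iff_ne_zero.2 hg0
  lift l to Γ₀ˣ using isUnit_iff_ne_zero.2 hl0
  lift c to Γ₀ˣ using isUnit_iff_ne_zero.2 hc0
  lift M to Γ₀ˣ using isUnit_iff_ne_zero.2 hM0
  norm_cast at *
  exact trop_base_mul g l c M hc E hM1 hM2 hM3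

end Pure

/-- (δ): the tropical induction. -/
theorem trop_claim {p : ℕ} (hp : p.Prime)
    (hr : v (a₁ ^ 2 + 4 * a₂) = 1) (hs0 : s ≠ 0) {R : G} (hR : R ≠ 0) (hpR : p • R = 0)
    (hsm : ∀ n : ℕ, n • R ≠ 0 → v s < v (M.X (n • R)) ∧ v (M.X (n • R)) < 1)
    (hmax : ∀ n : ℕ, n • R ≠ 0 → v (M.X (n • R)) ≤ v (M.X R)) :
    ∀ n : ℕ, 1 ≤ n → n < p →
      (v s < v (M.X R) ^ n ∧ v (M.X (n • R)) = v (M.X R) ^ n) ∨
      (v (M.X R) ^ n < v s ∧ v (M.X (n • R)) * v (M.X R) ^ n = v s * v s) := by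
  have hne : ∀ n : ℕ, 1 ≤ n → n < p → n • R ≠ 0 := by
    intro n h1 h2 h
    have := Nat.le_of_dvd (by omega) ((nsmul_eq_zero_iff_dvd hp hR hpR n).1 h)
    omega
  have hl0 : v s ≠ 0 := (v.ne_zero_iff).2 hs0
  have hR1 : (1 : ℕ) • R ≠ 0 := by rwa [one_smul]
  obtain ⟨hlg, hg1⟩ := hsm 1 hR1
  rw [one_smul] at hlg hg1
  have hg0 : v (M.X R) ≠ 0 := (lt_of_le_of_lt zero_le hlg).ne'
  intro n
  induction n using Nat.strong_induction_on with
  | _ n ih =>
    intro hn1 hnp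
    rcases Nat.lt_or_ge n 3 with hlt | hge
    · rcases (by omega : n = 1 ∨ n = 2) with rfl | rfl
      · left
        rw [one_smul, pow_one]
        exact ⟨hlg, rfl⟩
      · have h2' := hne 2 hn1 hnp
        have h2 : R + R ≠ 0 := by rwa [← two_smul ℕ]
        have hd := congrArg v (M.dbl_mul hR h2)
        rw [pow_two (v (M.X R)), two_smul]
        have h4 : v (4 : K) ≤ 1 := v_ofNat_le_one v 4
        have hgpos : 0 < v (M.X R) := zero_lt_iff.2 hg0
        have hcub : v (4 * M.X R ^ 3 + (a₁ ^ 2 + 4 * a₂) * M.X R ^ 2 + 4 * s * M.X R)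
            = v (M.X R) * v (M.X R) := by
          have h1 : v ((a₁ ^ 2 + 4 * a₂) * M.X R ^ 2) = v (M.X R) * v (M.X R) := by
            rw [map_mul, hr, one_mul, map_pow, pow_two]
          have h2 : v (4 * M.X R ^ 3) < v ((a₁ ^ 2 + 4 * a₂) * M.X R ^ 2) := by
            rw [h1, map_mul, map_pow, pow_succ, pow_two]
            calc v 4 * (v (M.X R) * v (M.X R) * v (M.X R))
                ≤ 1 * (v (M.X R) * v (M.X R) * v (M.X R)) := by gcongr
              _ = (v (M.X R) * v (M.X R)) * v (M.X R) := one_mul _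
              _ < (v (M.X R) * v (M.X R)) * 1 := by
                  gcongr
              _ = _ := mul_one _
          have h3 : v (4 * s * M.X R) < v (M.X R) * v (M.X R) := by
            rw [map_mul, map_mul]
            calc v 4 * v s * v (M.X R) ≤ 1 * v s * v (M.X R) := by gcongr
              _ = v s * v (M.X R) := by rw [one_mul]
              _ < v (M.X R) * v (M.X R) := by gcongr
          rw [v.map_add_eq_of_lt_left (by rw [v.map_add_eq_of_lt_right h2, h1]; exact h3),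
            v.map_add_eq_of_lt_right h2, h1]
        have hM0 : v (M.X R ^ 2 - s) ≠ 0 := by
          intro h0
          rw [map_pow, h0, map_mul, hcub] at hd
          have hc0 : v (M.X (R + R)) ≠ 0 := by
            have := (hsm 2 h2').1
            rw [two_smul] at this
            exact (lt_of_le_of_lt zero_le this).ne'
          exact absurd hd (by simp [hc0, hg0])
        refine trop_base_mul₀ (v (M.X R)) (v s) (v (M.X (R + R))) (v (M.X R ^ 2 - s)) hg0 hl0 hM0
          ?_ ?_ ?_ ?_ ?_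
        · have := (hsm 2 h2').1
          rwa [two_smul] at this
        · rw [map_mul, hcub, map_pow, pow_two] at hd
          exact hd
        · intro h
          rw [v.map_sub_eq_of_lt_left (by rw [map_pow, pow_two]; exact h), map_pow, pow_two]
        · intro h
          rw [v.map_sub_eq_of_lt_right (by rw [map_pow, pow_two]; exact h)]
        · intro h
          exact v.map_sub_le (by rw [map_pow, pow_two, h]) le_rfl
    · obtain ⟨k, rfl⟩ : ∃ k, n = k + 2 := ⟨n - 2, by omega⟩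
      have hk1 := ih (k + 1) (by omega) (by omega) (by omega)
      have hk := ih k (by omega) (by omega) (by omega)
      have hnek1 := hne (k + 1) (by omega) (by omega)
      have hnek := hne k (by omega) (by omega)
      have hnek2 := hne (k + 2) (by omega) hnp
      have hneq : M.X ((k + 1) • R) ≠ M.X R := by
        intro h
        rcases M.eq_or_eq_neg hnek1 hR h with h | h
        · apply hnek
          rw [add_smul, one_smul] at h
          exact add_eq_right.1 h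
        · apply hnek2
          rw [show k + 2 = (k + 1) + 1 from rfl, add_smul (k + 1), one_smul, h, neg_add_cancel]
      have hadd := congrArg v (M.add_sub_prod hnek1 hR hneq)
      have e1 : (k + 1) • R + R = (k + 2) • R := by
        rw [show k + 2 = (k + 1) + 1 from rfl, add_smul (k + 1), one_smul]
      have e2 : (k + 1) • R - R = k • R := by
        rw [add_smul, one_smul, add_sub_cancel_right]
      rw [e1, e2, map_mul, map_mul, map_pow, map_pow, pow_two, pow_two] at hadd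
      have ha0 : v (M.X ((k + 1) • R)) ≠ 0 := (lt_of_le_of_lt zero_le (hsm _ hnek1).1).ne'
      have hb0 : v (M.X (k • R)) ≠ 0 := (lt_of_le_of_lt zero_le (hsm _ hnek).1).ne'
      have hc0 : v (M.X ((k + 2) • R)) ≠ 0 := (lt_of_le_of_lt zero_le (hsm _ hnek2).1).ne'
      have hD0 : v (M.X ((k + 1) • R) - M.X R) ≠ 0 := (v.ne_zero_iff).2 (sub_ne_zero.2 hneq)
      have hN0 : v (M.X ((k + 1) • R) * M.X R - s) ≠ 0 := by
        intro h0
        rw [h0, mul_zero] at hadd
        exact absurd hadd (by simp [hc0, hb0, hD0])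
      have hG1 : v (M.X R) ^ k < 1 := pow_lt_one₀ zero_le hg1 (by omega)
      rw [pow_succ, pow_succ] 
      rw [pow_succ] at hk1
      refine trop_step_mul₀ (v (M.X R)) (v s) (v (M.X R) ^ k) (v (M.X ((k + 1) • R)))
        (v (M.X (k • R))) (v (M.X ((k + 2) • R))) (v (M.X ((k + 1) • R) - M.X R))
        (v (M.X ((k + 1) • R) * M.X R - s)) hg0 hl0 (pow_ne_zero _ hg0) ha0 hb0 hD0 hN0 hg1 hG1
        (hsm _ hnek2).1 (hsm _ hnek2).2 (hmax _ hnek1) hadd ?_ ?_ ?_ ?_ ?_ hk hk1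
      · intro h
        exact v.map_sub_eq_of_lt_right h
      · exact v.map_sub_le (hmax _ hnek1) le_rfl
      · intro h
        rw [v.map_sub_eq_of_lt_left (by rw [map_mul]; exact h), map_mul]
      · intro h
        rw [v.map_sub_eq_of_lt_right (by rw [map_mul]; exact h)]
      · intro h
        exact v.map_sub_le (by rw [map_mul, h]) le_rfl

/-- Consequence of (δ) for a generator with maximal valuation. -/
theorem trop_concl {p : ℕ} (hp : p.Prime) (hp2 : p ≠ 2)
    (hr : v (a₁ ^ 2 + 4 * a₂) = 1) (hs0 : s ≠ 0) {R : G} (hR : R ≠ 0) (hpR : p • R = 0)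
    (hsm : ∀ n : ℕ, n • R ≠ 0 → v s < v (M.X (n • R)) ∧ v (M.X (n • R)) < 1)
    (hmax : ∀ n : ℕ, n • R ≠ 0 → v (M.X (n • R)) ≤ v (M.X R)) :
    v (M.X R) ^ p = v s * v s ∧
      ∀ n : ℕ, 1 ≤ n → n < p → ∃ k : ℕ, v (M.X (n • R)) = v (M.X R) ^ k := by
  have hclaim := trop_claim hp hr hs0 hR hpR hsm hmax
  have hR1 : (1 : ℕ) • R ≠ 0 := by rwa [one_smul]
  obtain ⟨hlg, hg1⟩ := hsm 1 hR1
  rw [one_smul] at hlg hg1
  have hg0 : v (M.X R) ≠ 0 := (lt_of_le_of_lt zero_le hlg).ne'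
  have hp3 : 3 ≤ p := by
    have := hp.two_le
    omega
  have hlast : (p - 1) • R = -R := by
    have : (p - 1) • R + R = 0 := by
      rw [← succ_nsmul, Nat.sub_add_cancel hp.one_le, hpR]
    exact eq_neg_of_add_eq_zero_left this
  have hpow : v (M.X R) ^ p = v s * v s := by
    rcases hclaim (p - 1) (by omega) (by omega) with ⟨-, h⟩ | ⟨-, h⟩
    · exfalso
      rw [hlast, M.X_neg] at h
      have : v (M.X R) ^ (p - 1) < v (M.X R) ^ 1 :=
        pow_lt_pow_right_of_lt_one₀ (zero_lt_iff.2 hg0) hg1 (by omega)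
      rw [pow_one, ← h] at this
      exact lt_irrefl _ this
    · rw [hlast, M.X_neg, ← pow_succ', Nat.sub_add_cancel hp.one_le] at h
      exact h
  refine ⟨hpow, fun n hn1 hnp => ?_⟩
  rcases hclaim n hn1 hnp with ⟨-, h⟩ | ⟨-, h⟩
  · exact ⟨n, h⟩
  · refine ⟨p - n, ?_⟩
    have h1 : v (M.X R) ^ (p - n) * v (M.X R) ^ n = v s * v s := by
      rw [← pow_add, Nat.sub_add_cancel hnp.le, hpow]
    exact mul_right_cancel₀ (pow_ne_zero n hg0) (h.trans h1.symm)

/-- multiplicative reduction: structure of a cyclic group of prime order all of whose nonzero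
elements are integral. -/
theorem WModel.mult_dichotomy (M : WModel G K a₁ a₂ s) (v : Valuation K Γ₀)
    (_h1 : v a₁ ≤ 1) (_h2 : v a₂ ≤ 1) (hβ : v (a₁ ^ 2 + 4 * a₂) = 1)
    (hs : v s < 1) (hs0 : s ≠ 0) {p : ℕ} (hp : p.Prime) (hp2 : p ≠ 2) {P : G} (hP : P ≠ 0)
    (hpP : p • P = 0) (hint : ∀ n : ℕ, n • P ≠ 0 → v (M.X (n • P)) ≤ 1) :
    (∀ n : ℕ, n • P ≠ 0 → v (M.X (n • P)) = 1) ∨
    ((∀ n : ℕ, n • P ≠ 0 → v s < v (M.X (n • P)) ∧ v (M.X (n • P)) < 1) ∧
      ∃ m : ℕ, m • P ≠ 0 ∧ v (M.X (m • P)) ^ p = v s * v s ∧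
        ∀ n : ℕ, n • P ≠ 0 → ∃ k : ℕ, v (M.X (n • P)) = v (M.X (m • P)) ^ k) := by
  have hdich := dichotomy hp hp2 hβ hs hs0 hP hpP hint
  rcases hdich with h1 | ⟨hlo, hhi⟩
  · left
    exact unit_all hp hβ.le hs hP hpP hint h1
  right
  have hp3 : 3 ≤ p := by
    have := hp.two_le
    omega
  have hsmP := small_all hp hp2 hβ hs hs0 hP hpP hint hhi
  refine ⟨hsmP, ?_⟩
  obtain ⟨n0, hn0mem, hn0max⟩ := Finset.exists_max_image (Finset.Icc 1 (p - 1))
    (fun n => v (M.X (n • P))) ⟨1, by rw [Finset.mem_Icc]; omega⟩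
  rw [Finset.mem_Icc] at hn0mem
  have hneP : ∀ n : ℕ, 1 ≤ n → n < p → n • P ≠ 0 := by
    intro n h1 h2 h
    have := Nat.le_of_dvd (by omega) ((nsmul_eq_zero_iff_dvd hp hP hpP n).1 h)
    omega
  set R := n0 • P with hRdef
  have hR : R ≠ 0 := hneP n0 hn0mem.1 (by omega)
  have hpR : p • R = 0 := by rw [hRdef, smul_comm, hpP, smul_zero]
  have hsm : ∀ n : ℕ, n • R ≠ 0 → v s < v (M.X (n • R)) ∧ v (M.X (n • R)) < 1 := by
    intro n hn
    rw [hRdef, ← mul_smul] at hn ⊢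
    exact hsmP _ hn
  have hmax : ∀ n : ℕ, n • R ≠ 0 → v (M.X (n • R)) ≤ v (M.X R) := by
    intro n hn
    rw [hRdef, ← mul_smul] at hn
    have hmod : ((n * n0) % p) • P = (n * n0) • P := mod_nsmul hpP _
    have hne0 : (n * n0) % p ≠ 0 := by
      intro h
      rw [h, zero_smul] at hmod
      exact hn hmod.symm
    have hlt : (n * n0) % p < p := Nat.mod_lt _ hp.pos
    have := hn0max ((n * n0) % p) (by rw [Finset.mem_Icc]; omega)
    rw [hmod, mul_smul] at this
    exact this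
  obtain ⟨hpow, hall⟩ := trop_concl hp hp2 hβ hs0 hR hpR hsm hmax
  refine ⟨n0, hR, hpow, ?_⟩
  intro n hn
  obtain ⟨k, hk⟩ := exists_nsmul_nsmul_eq hp hP hpP hR
  -- `n • P = (n * k) • R`
  have hnk : n • P = ((n * k) % p) • R := by
    rw [mod_nsmul hpR, mul_smul, hk]
  have hne0 : (n * k) % p ≠ 0 := by
    intro h
    rw [h, zero_smul] at hnk
    exact hn hnk
  obtain ⟨j, hj⟩ := hall ((n * k) % p) (by omega) (Nat.mod_lt _ hp.pos)
  exact ⟨j, by rw [hnk]; exact hj⟩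

end Fermat.Agent.S13
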