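-- S13 piece A (umbrella): T1 `WModel.integral_of_torsion`, `WModel.E1_neg/add/sub/nsmul`,
-- `WModel.mult_dichotomy`.
import Fermat.Agent.S13.Local3
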