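import Fermat.Agent.S13.Defs
import Fermat.Statements.S13

/-!
# S13 skeleton: exact statements of the pieces (DO NOT import this file from real files).
Each piece goes into its own file `Fermat/Agent/S13/<Name>.lean`, namespace `Fermat.Agent.S13`,
with the EXACT names and statements below.
-/

set_option autoImplicit false

namespace Fermat.Agent.S13.Skeleton

open Fermat.Agent.S13

variable {G : Type*} [AddCommGroup G] {L : Type*} [Field L] {a₁ a₂ s : L}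
variable {Γ₀ : Type*} [LinearOrderedCommGroupWithZero Γ₀]

/-! ## Piece A (helper1): file `Local.lean` -/
section A
variable (M : WModel G L a₁ a₂ s) (v : Valuation L Γ₀)

/-- T1: kernel of reduction has no torsion prime to the residue characteristic. -/
theorem WModel.integral_of_torsion (h1 : v a₁ ≤ 1) (h2 : v a₂ ≤ 1) (hs : v s ≤ 1) {R : G}
    (hR : R ≠ 0) {n : ℕ} (hn : n • R = 0) (hvn : v (n : L) = 1) : v (M.X R) ≤ 1 := sorry

theorem WModel.E1_neg {P : G} (hP : M.E1 v P) : M.E1 v (-P) := sorry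

theorem WModel.E1_add (h1 : v a₁ ≤ 1) (h2 : v a₂ ≤ 1) (hs : v s ≤ 1) {P Q : G}
    (hP : M.E1 v P) (hQ : M.E1 v Q) : M.E1 v (P + Q) := sorry

theorem WModel.E1_sub (h1 : v a₁ ≤ 1) (h2 : v a₂ ≤ 1) (hs : v s ≤ 1) {P Q : G}
    (hP : M.E1 v P) (hQ : M.E1 v Q) : M.E1 v (P - Q) := sorry

theorem WModel.E1_nsmul (h1 : v a₁ ≤ 1) (h2 : v a₂ ≤ 1) (hs : v s ≤ 1) {P : G}
    (hP : M.E1 v P) (n : ℕ) : M.E1 v (n • P) := sorry

/-- multiplicative reduction: structure of a cyclic group of prime order all of whose nonzero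
elements are integral. -/
theorem WModel.mult_dichotomy (h1 : v a₁ ≤ 1) (h2 : v a₂ ≤ 1) (hβ : v (a₁ ^ 2 + 4 * a₂) = 1)
    (hs : v s < 1) (hs0 : s ≠ 0) {p : ℕ} (hp : p.Prime) (hp2 : p ≠ 2) {P : G} (hP : P ≠ 0)
    (hpP : p • P = 0) (hint : ∀ n : ℕ, n • P ≠ 0 → v (M.X (n • P)) ≤ 1) :
    (∀ n : ℕ, n • P ≠ 0 → v (M.X (n • P)) = 1) ∨
    ((∀ n : ℕ, n • P ≠ 0 → v s < v (M.X (n • P)) ∧ v (M.X (n • P)) < 1) ∧
      ∃ m : ℕ, m • P ≠ 0 ∧ v (M.X (m • P)) ^ p = v s * v s ∧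
        ∀ n : ℕ, n • P ≠ 0 → ∃ k : ℕ, v (M.X (n • P)) = v (M.X (m • P)) ^ k) := sorry

end A

/-! ## Piece B: file `Ladder.lean` (x-only Montgomery ladder polynomials) -/
section B
variable (M : WModel G L a₁ a₂ s)

theorem WModel.card_torsion_le [CharZero L] (hs0 : s ≠ 0)
    (hdisc : (a₁ ^ 2 + 4 * a₂) ^ 2 - 64 * s ≠ 0) {n : ℕ} (hn : Odd n) :
    {Q : G | n • Q = 0}.Finite ∧ {Q : G | n • Q = 0}.ncard ≤ n ^ 2 := sorry

theorem WModel.exists_torsion [IsAlgClosed L] [CharZero L] (hs0 : s ≠ 0)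
    (hdisc : (a₁ ^ 2 + 4 * a₂) ^ 2 - 64 * s ≠ 0) {n : ℕ} (hn : Odd n) (hn1 : 1 < n) :
    ∃ Q : G, Q ≠ 0 ∧ n • Q = 0 := sorry

theorem WModel.prod_val_le [IsAlgClosed L] [CharZero L] (hs0 : s ≠ 0)
    (hdisc : (a₁ ^ 2 + 4 * a₂) ^ 2 - 64 * s ≠ 0) (v : Valuation L Γ₀)
    (h1 : v a₁ ≤ 1) (h2 : v a₂ ≤ 1) (hs : v s ≤ 1) {n : ℕ} (hn : Odd n) (hn1 : 1 < n)
    (hall : ∀ Q : G, Q ≠ 0 → n • Q = 0 → 1 < v (M.X Q))
    (S : Finset L) (hS : ∀ x ∈ S, ∃ Q : G, Q ≠ 0 ∧ n • Q = 0 ∧ M.X Q = x) :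
    v (n : L) * ∏ x ∈ S, v x ≤ 1 := sorry

end B

/-! ## Piece C: file `Minkowski.lean` -/
section C

theorem eq_top_of_inertia_le
    (H : Subgroup (AlgebraicClosure ℚ ≃ₐ[ℚ] AlgebraicClosure ℚ)) (hN : H.Normal)
    (hO : IsOpen (H : Set (AlgebraicClosure ℚ ≃ₐ[ℚ] AlgebraicClosure ℚ)))
    (hI : ∀ ℓ : ℕ, ℓ.Prime → ∀ A : ValuationSubring (AlgebraicClosure ℚ), A.LiesOverPrime ℓ →
      A.inertiaSubgroupIn ℚ ≤ H) : H = ⊤ := sorry

end C

/-! ## Piece D: file `Inertia.lean` (D1-D5, needs only Defs) and `LocalThm.lean` (uses A) -/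
section D
variable {M : WModel G L a₁ a₂ s} {v : Valuation L Γ₀}

/-- D1: a point of nonsingular, non-2-torsion reduction moves inside the kernel of reduction. -/
theorem Act.sub_mem_E1_of_unit (A : Act M v) (h1 : v a₁ ≤ 1) (h2 : v a₂ ≤ 1) (hs : v s ≤ 1)
    {P : G} (hP : P ≠ 0) (hX : v (M.X P) ≤ 1) (hH : v (2 * M.Y P + a₁ * M.X P) = 1) :
    M.E1 v (A.τ P - P) := sorry

/-- D2: a point reducing to the node moves inside `E⁰` (same branch argument). -/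
theorem Act.one_le_of_node (A : Act M v) (h1 : v a₁ ≤ 1) (h2 : v a₂ ≤ 1)
    (hβ : v (a₁ ^ 2 + 4 * a₂) = 1) (hs : v s < 1) {P : G} (hP : P ≠ 0)
    (hlo : v s < v (M.X P)) (hhi : v (M.X P) < 1) :
    A.τ P = P ∨ 1 ≤ v (M.X (A.τ P - P)) := sorry

/-- D3: the same with a uniformiser fixed by the automorphism. -/
theorem Act.sub_mem_E1_of_node (A : Act M v) (h1 : v a₁ ≤ 1) (h2 : v a₂ ≤ 1)
    (hβ : v (a₁ ^ 2 + 4 * a₂) = 1) (hs : v s < 1) {P : G} (hP : P ≠ 0)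
    (hlo : v s < v (M.X P)) (hhi : v (M.X P) < 1) {ϖ : L} (hϖ : A.φ ϖ = ϖ)
    (hvϖ : v ϖ = v (M.X P)) : M.E1 v (A.τ P - P) := sorry

/-- D4 -/
theorem WModel.H_unit_of_good (M : WModel G L a₁ a₂ s) (h1 : v a₁ ≤ 1) (h2 : v a₂ ≤ 1)
    (hs : v s = 1) (hdisc : v ((a₁ ^ 2 + 4 * a₂) ^ 2 - 64 * s) = 1) {P : G} (hP : P ≠ 0)
    (h2P : P + P ≠ 0) (hX : v (M.X P) ≤ 1) (hX2 : v (M.X (P + P)) ≤ 1) :
    v (2 * M.Y P + a₁ * M.X P) = 1 := sorry

/-- D5 -/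
theorem WModel.H_unit_of_unit (M : WModel G L a₁ a₂ s) (h1 : v a₁ ≤ 1) (h2 : v a₂ ≤ 1)
    (hs : v s < 1) {P : G} (hP : P ≠ 0) (h2P : P + P ≠ 0) (hX : v (M.X P) = 1)
    (hX2 : v (M.X (P + P)) ≤ 1) : v (2 * M.Y P + a₁ * M.X P) = 1 := sorry

/-- CLAIM 1, good reduction (residue characteristic may be `p`). -/
theorem Act.claim1_good (A : Act M v) (h1 : v a₁ ≤ 1) (h2 : v a₂ ≤ 1) (hs : v s = 1)
    (hdisc : v ((a₁ ^ 2 + 4 * a₂) ^ 2 - 64 * s) = 1) {p : ℕ} (hp : p.Prime) (hp2 : p ≠ 2)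
    {Q : G} (hQ : p • Q = 0) : M.E1 v (A.τ Q - Q) := sorry

/-- CLAIM 1, multiplicative reduction with `v s = v δ ^ p`, `δ` fixed. -/
theorem Act.claim1_mult (A : Act M v) (h1 : v a₁ ≤ 1) (h2 : v a₂ ≤ 1)
    (hβ : v (a₁ ^ 2 + 4 * a₂) = 1) (hs : v s < 1) (hs0 : s ≠ 0) {p : ℕ} (hp : p.Prime)
    (hp2 : p ≠ 2) {δ : L} (hδ : A.φ δ = δ) (hvs : v s = v δ ^ p)
    {Q : G} (hQ : p • Q = 0) : M.E1 v (A.τ Q - Q) := sorry

/-- unipotent inertia at a multiplicative prime different from `p`. -/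
theorem Act.unipotent_mult (A : Act M v) (h1 : v a₁ ≤ 1) (h2 : v a₂ ≤ 1)
    (hβ : v (a₁ ^ 2 + 4 * a₂) = 1) (hs : v s < 1) (hs0 : s ≠ 0) {p : ℕ} (hp : p.Prime)
    (hp2 : p ≠ 2) (hvp : v (p : L) = 1) {Q : G} (hQ : p • Q = 0) :
    A.τ (A.τ Q - Q) = A.τ Q - Q := sorry

end D

/-! ## Piece G: file `NoRat.lean` (uses A): no "rational" point of order `p` at `2` -/
section Gp
variable (M : WModel G L a₁ a₂ s) (v : Valuation L Γ₀)

theorem WModel.no_rational_torsion (h1 : v a₁ ≤ 1) (h2 : v a₂ ≤ 1)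
    (hβ : v (a₁ ^ 2 + 4 * a₂) = 1) (hs : v s < 1) (hs0 : s ≠ 0) {p : ℕ} (hp : p.Prime)
    (hp5 : 5 ≤ p) (hvp : v (p : L) = 1) {π : L} (hπ : v π < 1) (hπ0 : π ≠ 0) (F : Set L)
    (hF1 : ∀ z ∈ F, v z = 1 → v (z - 1) < 1)
    (hF2 : ∀ z ∈ F, z ≠ 0 → ∃ m : ℤ, v z = v π ^ m)
    (hsv : ∃ m : ℤ, v s * v s * v π ^ 8 = (v π ^ m) ^ p)
    {P : G} (hP : P ≠ 0) (hpP : p • P = 0) (hrat : ∀ n : ℕ, M.X (n • P) ∈ F) : False := sorry

end Gp

/-! ## Piece E: file `FreyModel.lean` (may import Fermat.Agent.S05.Frey for val_int_*, inertia_spec,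
frey_a₁ ... and copy ideas from S05/Curve.lean `modelOf`) -/
section E

open WeierstrassCurve WeierstrassCurve.Affine WeierstrassCurve.Affine.Point

local notation "Qbar" => AlgebraicClosure ℚ
local notation "GQ" => (AlgebraicClosure ℚ ≃ₐ[ℚ] AlgebraicClosure ℚ)

/-- A model of the Frey curve with integer parameters and Galois equivariant coordinates. -/
structure GalModel (P : FreyPackage) (a₁ a₂ s : ℤ) where
  M : WModel (P.freyCurve⁄Qbar).Point Qbar (a₁ : Qbar) (a₂ : Qbar) (s : Qbar)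
  X_smul : ∀ (σ : GQ) (Q : (P.freyCurve⁄Qbar).Point), M.X (σ • Q) = σ (M.X Q)
  Y_smul : ∀ (σ : GQ) (Q : (P.freyCurve⁄Qbar).Point), M.Y (σ • Q) = σ (M.Y Q)

variable (P : FreyPackage)

/-- `(X,Y) = (x,y)`: the given (2-adically minimal) equation. -/
noncomputable def modelTwo : GalModel P 1 P.freyCurveInt.a₂ P.freyCurveInt.a₄ := sorry

theorem four_mul_a₂ : 4 * P.freyCurveInt.a₂ + 1 = P.b ^ P.p - P.a ^ P.p := sorry
theorem sixteen_mul_a₄ : 16 * P.freyCurveInt.a₄ = -(P.a * P.b) ^ P.p := sorry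
theorem two_dvd_a₄ : (2 : ℤ) ∣ P.freyCurveInt.a₄ := sorry
theorem not_two_dvd_a : ¬ (2 : ℤ) ∣ P.a := sorry

/-- `X = 4x`, `Y = 4(2y+x)`:  `Y² = X(X - a^p)(X + b^p)`. -/
noncomputable def modelOdd : GalModel P 0 (P.b ^ P.p - P.a ^ P.p) (-(P.a * P.b) ^ P.p) := sorry

/-- `X = 4x - a^p`, `Y = 4(2y+x)`:  `Y² = X(X + a^p)(X + c^p)`. -/
noncomputable def modelOddC : GalModel P 0 (2 * P.a ^ P.p + P.b ^ P.p) ((P.a * P.c) ^ P.p) := sorry

/-- elements of the decomposition group preserve the valuation (finite orbits + order preserving) -/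
theorem valuation_smul_eq (A : ValuationSubring Qbar) {σ : GQ}
    (hσ : σ ∈ A.decompositionSubgroup ℚ) (z : Qbar) : A.valuation (σ z) = A.valuation z := sorry

theorem inertia_le_decomposition (A : ValuationSubring Qbar) :
    A.inertiaSubgroupIn ℚ ≤ A.decompositionSubgroup ℚ := sorry

/-- the `Act` attached to an inertia element -/
noncomputable def GalModel.actOf {P : FreyPackage} {a₁ a₂ s : ℤ} (Mg : GalModel P a₁ a₂ s)
    (A : ValuationSubring Qbar) (σ : GQ) (hσ : σ ∈ A.inertiaSubgroupIn ℚ) :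
    Act Mg.M A.valuation := sorry

theorem GalModel.actOf_τ {P : FreyPackage} {a₁ a₂ s : ℤ} (Mg : GalModel P a₁ a₂ s)
    (A : ValuationSubring Qbar) (σ : GQ) (hσ : σ ∈ A.inertiaSubgroupIn ℚ)
    (Q : (P.freyCurve⁄Qbar).Point) : (Mg.actOf A σ hσ).τ Q = σ • Q := sorry

theorem GalModel.actOf_φ {P : FreyPackage} {a₁ a₂ s : ℤ} (Mg : GalModel P a₁ a₂ s)
    (A : ValuationSubring Qbar) (σ : GQ) (hσ : σ ∈ A.inertiaSubgroupIn ℚ)
    (z : Qbar) : (Mg.actOf A σ hσ).φ z = σ z := sorry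

/-- valuations of rational numbers -/
theorem val_rat_eq_zpow (A : ValuationSubring Qbar) {ℓ : ℕ} (hℓ : ℓ.Prime)
    (hA : A.LiesOverPrime ℓ) (q : ℚ) (hq : q ≠ 0) :
    ∃ m : ℤ, A.valuation (algebraMap ℚ Qbar q) = A.valuation (ℓ : Qbar) ^ m := sorry

theorem val_rat_le_one_iff (A : ValuationSubring Qbar) {ℓ : ℕ} (hℓ : ℓ.Prime)
    (hA : A.LiesOverPrime ℓ) (q : ℚ) :
    A.valuation (algebraMap ℚ Qbar q) ≤ 1 ↔ ¬ ℓ ∣ q.den := sorry

theorem val_rat_sub_one_lt (A : ValuationSubring Qbar) (hA : A.LiesOverPrime 2) (q : ℚ)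
    (hq : A.valuation (algebraMap ℚ Qbar q) = 1) :
    A.valuation (algebraMap ℚ Qbar q - 1) < 1 := sorry

/-- stabilisers of points are open -/
theorem isOpen_stabilizer_point (Q : (P.freyCurve⁄Qbar).Point) :
    IsOpen {σ : GQ | σ • Q = Q} := sorry

/-- Galois descent -/
theorem exists_rat_of_fixed (z : Qbar) (hz : ∀ σ : GQ, σ z = z) :
    ∃ q : ℚ, algebraMap ℚ Qbar q = z := sorry

end E

end Fermat.Agent.S13.Skeleton
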